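import Fermat.Agent.ImagQuadAngles.Joint
import Mathlib.FieldTheory.IntermediateField.Adjoin.Basic
import Mathlib.FieldTheory.KummerPolynomial

/-!
# Primes `x² + n y²` near the axis

In `ℚ(√-n)` an integer congruent to `1` modulo `2 n` is `x + y √-n` with integers `x`, `y`, so
the principal primes with such a generator of argument in `[-δ, δ]` give primes `p = x² + n y²`
with `|y| √n ≤ δ √p`; they have positive density.
-/

set_option autoImplicit false
set_option linter.unusedSectionVars false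

noncomputable section

open NumberField IsDedekindDomain Ideal Filter Topology Module Polynomial
open scoped nonZeroDivisors Classical

namespace FA.ImagQuad

/-- `√-n`. -/
def rootNeg (n : ℕ) : ℂ := Complex.I * (Real.sqrt n : ℂ)

theorem rootNeg_sq (n : ℕ) : rootNeg n ^ 2 = -(n : ℂ) := by
  rw [rootNeg, mul_pow, Complex.I_sq, ← Complex.ofReal_pow, Real.sq_sqrt (Nat.cast_nonneg n)]
  simp

theorem isIntegral_rootNeg (n : ℕ) : IsIntegral ℤ (rootNeg n) :=
  IsIntegral.of_pow two_pos (by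
    rw [rootNeg_sq]; exact (isIntegral_algebraMap (R := ℤ) (x := (n : ℤ))).neg)

/-- `ℚ(√-n)`. -/
abbrev QuadIm (n : ℕ) : IntermediateField ℚ ℂ := IntermediateField.adjoin ℚ {rootNeg n}

theorem minpoly_rootNeg {n : ℕ} (hn : 0 < n) :
    minpoly ℚ (rootNeg n) = X ^ 2 - C (-(n : ℚ)) := by
  refine (minpoly.eq_of_irreducible_of_monic ?_ ?_ (monic_X_pow_sub_C _ two_ne_zero)).symm
  · refine X_pow_sub_C_irreducible_of_prime Nat.prime_two fun b hb => ?_
    have h1 := sq_nonneg b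
    have h2 : (0 : ℚ) < n := Nat.cast_pos.mpr hn
    linarith
  · simp [rootNeg_sq]

theorem numberField_quadIm (n : ℕ) : NumberField (QuadIm n) :=
  haveI := IntermediateField.adjoin.finiteDimensional
    ((isIntegral_rootNeg n).tower_top (A := ℚ))
  { }

theorem finrank_quadIm {n : ℕ} (hn : 0 < n) : finrank ℚ (QuadIm n) = 2 := by
  rw [IntermediateField.adjoin.finrank ((isIntegral_rootNeg n).tower_top (A := ℚ)),
    minpoly_rootNeg hn, natDegree_X_pow_sub_C]

theorem isTotallyComplex_quadIm {n : ℕ} (hn : 0 < n) : IsTotallyComplex (QuadIm n) := by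
  refine ⟨fun v => InfinitePlace.isComplex_iff.2 fun h => ?_⟩
  obtain ⟨s, hs⟩ : ∃ s : QuadIm n, s =
      ⟨rootNeg n, IntermediateField.mem_adjoin_simple_self ℚ _⟩ := ⟨_, rfl⟩
  have h0 : s ^ 2 = -(n : QuadIm n) := Subtype.ext (by rw [hs]; simpa using rootNeg_sq n)
  have h1 : starRingEnd ℂ (v.embedding s) = v.embedding s := RingHom.congr_fun h s
  have h2 := congrArg v.embedding h0
  rw [map_pow, map_neg, map_natCast, ← Complex.conj_eq_iff_re.1 h1, ← Complex.ofReal_pow,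
    ← Complex.ofReal_natCast, ← Complex.ofReal_neg, Complex.ofReal_inj] at h2
  have := sq_nonneg (v.embedding s).re
  have : (0 : ℝ) < n := Nat.cast_pos.mpr hn
  linarith

theorem exists_coord {n : ℕ} (hn : 0 < n) (z : QuadIm n) :
    ∃ a b : ℚ, (z : ℂ) = a + b * rootNeg n := by
  have hi := (isIntegral_rootNeg n).tower_top (A := ℚ)
  obtain ⟨f, hf, hz⟩ := (IntermediateField.adjoin.powerBasis hi).exists_eq_aeval z
  have hd : f.natDegree ≤ 1 := by
    rw [IntermediateField.adjoin.powerBasis_dim, minpoly_rootNeg hn, natDegree_X_pow_sub_C] at hf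
    omega
  rw [eq_X_add_C_of_natDegree_le_one hd] at hz
  refine ⟨f.coeff 0, f.coeff 1, ?_⟩
  rw [hz]
  simp [IntermediateField.adjoin.powerBasis_gen, add_comm]

theorem exists_int_of_isIntegral {q : ℚ} (h : IsIntegral ℤ (q : ℂ)) : ∃ m : ℤ, q = m := by
  have h' : IsIntegral ℤ q :=
    (isIntegral_algebraMap_iff (B := ℂ) (algebraMap ℚ ℂ).injective).mp (by
      simpa [eq_ratCast] using h)
  obtain ⟨m, hm⟩ := IsIntegrallyClosed.isIntegral_iff.mp h'
  exact ⟨m, by simpa using hm.symm⟩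

/-- The trace and the norm are integers. -/
theorem exists_trace_norm {n : ℕ} (hn : 0 < n) [NumberField (QuadIm n)] (z : 𝓞 (QuadIm n)) :
    ∃ (a b : ℚ) (t N : ℤ), ((z : QuadIm n) : ℂ) = a + b * rootNeg n ∧ 2 * a = t ∧
      a ^ 2 + n * b ^ 2 = N := by
  obtain ⟨a, b, hab⟩ := exists_coord hn (z : QuadIm n)
  have hzi : IsIntegral ℤ ((z : QuadIm n) : ℂ) :=
    z.isIntegral_coe.map ((QuadIm n).val.restrictScalars ℤ)
  have hzi' : IsIntegral ℤ (starRingEnd ℂ ((z : QuadIm n) : ℂ)) :=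
    hzi.map (starRingEnd ℂ).toIntAlgHom
  have hconj : starRingEnd ℂ ((z : QuadIm n) : ℂ) = a - b * rootNeg n := by
    simp [hab, rootNeg, sub_eq_add_neg]
  obtain ⟨t, ht⟩ := exists_int_of_isIntegral (q := 2 * a) (by
    rw [show ((2 * a : ℚ) : ℂ) =
        ((z : QuadIm n) : ℂ) + starRingEnd ℂ ((z : QuadIm n) : ℂ) by
      rw [hconj, hab]; push_cast; ring]
    exact hzi.add hzi')
  obtain ⟨N, hN⟩ := exists_int_of_isIntegral (q := a ^ 2 + n * b ^ 2) (by
    rw [show ((a ^ 2 + n * b ^ 2 : ℚ) : ℂ) =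
        ((z : QuadIm n) : ℂ) * starRingEnd ℂ ((z : QuadIm n) : ℂ) by
      rw [hconj, hab]; push_cast
      linear_combination ((b : ℂ)) ^ 2 * rootNeg_sq n]
    exact hzi.mul hzi')
  exact ⟨a, b, t, N, hab, ht, hN⟩

/-- `1 + 2 n z` is in `ℤ[√-n]`. -/
theorem exists_int_coord {n : ℕ} (hn : 0 < n) [NumberField (QuadIm n)] {x : 𝓞 (QuadIm n)}
    (hx : x - 1 ∈ Ideal.span {((2 * n : ℕ) : 𝓞 (QuadIm n))}) :
    ∃ A B : ℤ, ((x : QuadIm n) : ℂ) = A + B * rootNeg n := by
  obtain ⟨z, hz⟩ := Ideal.mem_span_singleton'.mp hx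
  obtain ⟨a, b, t, N, hab, ht, hN⟩ := exists_trace_norm hn z
  obtain ⟨B, hB⟩ : ∃ B : ℤ, 2 * n * b = B := by
    refine exists_int_of_isIntegral (IsIntegral.of_pow two_pos ?_)
    have e : (((2 * n * b : ℚ) : ℂ)) ^ 2 = (((n : ℤ) * (4 * N - t ^ 2) : ℤ) : ℂ) := by
      have e' : (2 * n * b : ℚ) ^ 2 = ((n : ℤ) * (4 * N - t ^ 2) : ℤ) := by
        push_cast; rw [← hN, ← ht]; ring
      rw [← Rat.cast_pow, e']
      push_cast
      rfl
    rw [e]
    exact isIntegral_algebraMap (R := ℤ) (A := ℂ)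
  refine ⟨1 + n * t, B, ?_⟩
  have hx' : ((x : QuadIm n) : ℂ) = 1 + ((2 * n : ℕ) : ℂ) * ((z : QuadIm n) : ℂ) := by
    have h := congrArg (fun w : 𝓞 (QuadIm n) => ((w : QuadIm n) : ℂ)) hz
    simp [map_ofNat] at h
    rw [show ((2 : QuadIm n) : ℂ) = 2 from map_ofNat (QuadIm n).val 2] at h
    push_cast
    linear_combination -h
  have ht' : (2 : ℂ) * a = t := by exact_mod_cast congrArg (fun q : ℚ => (q : ℂ)) ht
  have hB' : (2 : ℂ) * n * b = B := by exact_mod_cast congrArg (fun q : ℚ => (q : ℂ)) hB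
  rw [hx', hab]
  push_cast
  linear_combination (n : ℂ) * ht' + rootNeg n * hB'

/-- At most the degree many primes of a given prime norm. -/
theorem card_filter_absNorm_le {K : Type*} [Field K] [NumberField K] {p : ℕ} (hp : p.Prime)
    (S : Finset (HeightOneSpectrum (𝓞 K))) :
    (S.filter fun v => absNorm v.asIdeal = p).card ≤ finrank ℚ K := by
  have h := (FA.Hecke.sum_le_fiberSum (K := K) (w := fun _ => (1 : ℝ)) (fun _ => zero_le_one)
    (fun _ => le_rfl) (S.filter fun v => absNorm v.asIdeal = p)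
    fun v hv => (Finset.mem_filter.mp hv).2).trans
      (FA.Hecke.fiberSum_le (fun _ => zero_le_one) (fun _ => le_rfl) p)
  rw [Finset.sum_congr rfl fun v hv => by rw [(Finset.mem_filter.mp hv).2, one_mul],
    Finset.sum_const, nsmul_eq_mul, one_mul, ArithmeticFunction.vonMangoldt_apply_prime hp] at h
  exact_mod_cast le_of_mul_le_mul_right h (Real.log_pos (by exact_mod_cast hp.one_lt))

/-- `p = x² + n y²` with `|y| < ε √p`. -/
def NearAxis (n : ℕ) (ε : ℝ) (p : ℕ) : Prop :=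
  ∃ x y : ℤ, x ^ 2 + (n : ℤ) * y ^ 2 = p ∧ |(y : ℝ)| < ε * Real.sqrt p

/-- **Positive density of the primes `x² + n y²` with `|y| < ε √p`.** -/
theorem exists_density_nearAxis {n : ℕ} (hn : 0 < n) {ε : ℝ} (hε : 0 < ε) :
    ∃ c : ℝ, 0 < c ∧ ∀ᶠ N : ℕ in atTop, c * (N : ℝ) / Real.log N ≤
      (((Finset.range (N + 1)).filter fun p => p.Prime ∧ NearAxis n ε p).card : ℝ) := by
  have := numberField_quadIm n
  have : Algebra.IsQuadraticExtension ℚ (QuadIm n) := ⟨finrank_quadIm hn⟩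
  have := isTotallyComplex_quadIm hn
  obtain ⟨φ, hφ⟩ : ∃ φ : QuadIm n →+* ℂ, φ = (QuadIm n).val.toRingHom := ⟨_, rfl⟩
  obtain ⟨𝔪, hm⟩ : ∃ 𝔪, 𝔪 = Ideal.span {((2 * n : ℕ) : 𝓞 (QuadIm n))} := ⟨_, rfl⟩
  have h𝔪 : 𝔪 ≠ ⊥ := by
    rw [hm, Ne, Ideal.span_singleton_eq_bot, Nat.cast_eq_zero]; omega
  obtain ⟨w, hw⟩ : ∃ w : ℝ, w = (unitIndex 𝔪 : ℝ) := ⟨_, rfl⟩
  have hw0 : 0 < w := hw ▸ Nat.cast_pos.mpr (unitIndex_pos 𝔪)
  obtain ⟨δ, hδ0, hδε, hδw⟩ : ∃ δ : ℝ, 0 < δ ∧ δ < ε ∧ w * (δ - -δ) ≤ 2 * Real.pi := by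
    refine ⟨min (ε / 2) (Real.pi / w), lt_min (by linarith) (by positivity), ?_, ?_⟩
    · linarith [min_le_left (ε / 2) (Real.pi / w)]
    · have := (le_div_iff₀ hw0).mp (min_le_right (ε / 2) (Real.pi / w))
      linarith
  have hlim := tendsto_inArc φ h𝔪 (J := ⊤) top_ne_bot (top_sup_eq 𝔪) (θ₁ := -δ) (θ₂ := δ)
    (by linarith) (hw ▸ hδw)
  obtain ⟨L, hL⟩ : ∃ L : ℝ, L = (unitIndex 𝔪 : ℝ) * (δ - -δ) /
    (2 * Real.pi * Nat.card (FA.Hecke.RayClassGroup 𝔪)) := ⟨_, rfl⟩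
  rw [← hL] at hlim
  have hL0 : 0 < L := by
    have := FA.Hecke.finite_rayClassGroup h𝔪
    rw [hL, ← hw]
    exact div_pos (mul_pos hw0 (by linarith))
      (mul_pos (by positivity) (Nat.cast_pos.mpr Nat.card_pos))
  -- the primes of nonprime norm do not count
  have hmean : Tendsto (fun N : ℕ => Real.log N / N * (((FA.Hecke.primesLE (QuadIm n) N).filter
      fun v => (absNorm v.asIdeal).Prime ∧ InArc φ 𝔪 ⊤ (-δ) δ v).card : ℝ)) atTop (𝓝 L) := by
    have hz : FA.Hecke.HasMean (fun v : HeightOneSpectrum (𝓞 (QuadIm n)) =>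
        if InArc φ 𝔪 ⊤ (-δ) δ v ∧ ¬(absNorm v.asIdeal).Prime then (1 : ℝ) else 0) 0 := by
      refine FA.Hecke.hasMean_congr ∅ Set.finite_empty (b := fun _ => 0) (B := 1) (fun v => ?_)
        (fun v _ hv => if_neg fun h => h.2 hv) ?_
      · split_ifs <;> simp
      · simp [FA.Hecke.HasMean, FA.Hecke.wSum]
    have h1 := hlim.sub (hz.comp tendsto_natCast_atTop_atTop)
    rw [sub_zero] at h1
    refine h1.congr fun N => ?_
    simp only [Function.comp_apply, FA.Hecke.wSum, Nat.floor_natCast, smul_eq_mul,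
      Finset.sum_boole, ← mul_sub]
    congr 1
    rw [sub_eq_iff_eq_add, ← Nat.cast_add, Nat.cast_inj, ← Finset.card_filter_add_card_filter_not
      (s := (FA.Hecke.primesLE (QuadIm n) N).filter (InArc φ 𝔪 ⊤ (-δ) δ))
      (fun v : HeightOneSpectrum (𝓞 (QuadIm n)) => (absNorm v.asIdeal).Prime),
      Finset.filter_filter, Finset.filter_filter]
    simp only [and_comm]
  refine ⟨L / 4, by linarith, ?_⟩
  filter_upwards [hmean.eventually (lt_mem_nhds (half_lt_self hL0)), eventually_gt_atTop 1]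
    with N hN hN1
  have hlog : 0 < Real.log N := Real.log_pos (by exact_mod_cast hN1)
  have hN0 : (0 : ℝ) < N := by exact_mod_cast zero_lt_one.trans hN1
  obtain ⟨S, hS⟩ : ∃ S, S = (FA.Hecke.primesLE (QuadIm n) N).filter fun v =>
    (absNorm v.asIdeal).Prime ∧ InArc φ 𝔪 ⊤ (-δ) δ v := ⟨_, rfl⟩
  rw [← hS] at hN
  obtain ⟨T, hT⟩ : ∃ T, T = (Finset.range (N + 1)).filter fun p => p.Prime ∧ NearAxis n ε p :=
    ⟨_, rfl⟩
  rw [← hT]
  have hmap : ∀ v ∈ S, absNorm v.asIdeal ∈ T := fun v hv => by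
    rw [hS, Finset.mem_filter, FA.Hecke.mem_primesLE] at hv
    obtain ⟨hvN, hp, x, hx1, hx, t, ht, hxt⟩ := hv
    rw [hT, Finset.mem_filter, Finset.mem_range]
    refine ⟨by omega, hp, ?_⟩
    obtain ⟨A, B, hAB⟩ := exists_int_coord hn (hm ▸ hx1)
    have hφx : φ x = A + B * rootNeg n := by rw [hφ]; exact hAB
    have hnorm : ‖φ x‖ ^ 2 = (absNorm v.asIdeal : ℝ) := by
      rw [sq_norm, hx, Ideal.mul_top]
    have him : (φ x).im = (B : ℝ) * Real.sqrt n := by simp [hφx, rootNeg]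
    refine ⟨A, B, ?_, ?_⟩
    · have h : ((A : ℝ)) ^ 2 + n * (B : ℝ) ^ 2 = (absNorm v.asIdeal : ℝ) := by
        rw [← hnorm, ← Complex.normSq_eq_norm_sq, Complex.normSq_apply, him]
        simp [hφx, rootNeg]
        linear_combination -((B : ℝ) ^ 2) * Real.sq_sqrt (Nat.cast_nonneg (α := ℝ) n)
      exact_mod_cast h
    · have h1 : (φ x).im = ‖φ x‖ * Real.sin t := by
        conv_lhs => rw [hxt]
        simp [Complex.exp_ofReal_mul_I_im, Complex.exp_ofReal_mul_I_re]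
      have hsqn : 1 ≤ Real.sqrt n := Real.one_le_sqrt.mpr (by exact_mod_cast hn)
      have hp0 : 0 < Real.sqrt (absNorm v.asIdeal : ℝ) :=
        Real.sqrt_pos.mpr (Nat.cast_pos.mpr hp.pos)
      have hB : |(B : ℝ)| ≤ Real.sqrt (absNorm v.asIdeal : ℝ) * δ := by
        rw [← hnorm, Real.sqrt_sq (norm_nonneg _)]
        refine le_trans (le_mul_of_one_le_right (abs_nonneg _) hsqn) ?_
        rw [← abs_of_nonneg (Real.sqrt_nonneg (n : ℝ)), ← abs_mul, ← him, h1, abs_mul,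
          abs_norm]
        exact mul_le_mul_of_nonneg_left ((Real.abs_sin_le_abs).trans
          (abs_le.mpr ⟨ht.1, ht.2⟩)) (norm_nonneg _)
      nlinarith
  have hcard : S.card ≤ 2 * T.card := by
    refine Finset.card_le_mul_card_image_of_maps_to hmap 2 fun p hp => ?_
    rw [hT, Finset.mem_filter] at hp
    refine le_trans ?_ (le_of_eq (finrank_quadIm hn))
    exact card_filter_absNorm_le hp.2.1 S
  have h4 : (S.card : ℝ) ≤ 2 * T.card := by exact_mod_cast hcard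
  rw [div_mul_eq_mul_div, lt_div_iff₀ hN0] at hN
  rw [div_le_iff₀ hlog]
  nlinarith [mul_le_mul_of_nonneg_left h4 hlog.le]

end FA.ImagQuad

end
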