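import Fermat.Agent.ImagQuadAngles.Character
import Fermat.Agent.NaturalChebotarev.RayClass
import Mathlib.Algebra.Category.Grp.Injective
import Mathlib.Analysis.Complex.Polynomial.Basic
import Mathlib.RingTheory.FractionalIdeal.Operations

/-!
# Existence of the characters with infinity type `k`

If `φ u ^ k = 1` for every unit `u ≡ 1` modulo `𝔪`, the function `(x) ↦ (φ x / |φ x|) ^ k` of the
principal ideals with `x ≡ 1` is well defined on the subgroup that they generate in the group of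
invertible fractional ideals; the nonzero complex numbers form a divisible group, so it extends.
-/

set_option autoImplicit false
set_option linter.unusedSectionVars false

noncomputable section

open NumberField IsDedekindDomain Ideal FA.GaussAngle
open scoped nonZeroDivisors Classical

namespace FA.ImagQuad

variable {K : Type*} [Field K] [NumberField K] [IsTotallyComplex K]
  [Algebra.IsQuadraticExtension ℚ K] (φ : K →+* ℂ)

/-- The direction as a homomorphism. -/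
def dirHom : Kˣ →* ℂˣ where
  toFun a := Units.mk0 (dir (φ a)) (by
    rw [← norm_ne_zero_iff, norm_dir ((map_ne_zero φ).mpr a.ne_zero)]; exact one_ne_zero)
  map_one' := Units.ext (by simp [dir])
  map_mul' a b := Units.ext (by simp [dir_mul])

theorem dirHom_apply (a : Kˣ) : (dirHom φ a : ℂ) = dir (φ (a : K)) := rfl

/-- A nonzero integer as a unit of the field. -/
def fieldUnit {x : 𝓞 K} (hx : x ≠ 0) : Kˣ :=
  Units.mk0 (x : K) (RingOfIntegers.coe_ne_zero_iff.mpr hx)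

/-- The quotients of integers congruent to `1`. -/
def raySubgroup (𝔪 : Ideal (𝓞 K)) : Subgroup Kˣ where
  carrier := {a | ∃ x y : 𝓞 K, x ≠ 0 ∧ y ≠ 0 ∧ x - 1 ∈ 𝔪 ∧ y - 1 ∈ 𝔪 ∧ (a : K) * y = x}
  one_mem' := ⟨1, 1, one_ne_zero, one_ne_zero, by simp, by simp, by simp⟩
  mul_mem' := by
    rintro a b ⟨x, y, hx, hy, hx1, hy1, h⟩ ⟨x', y', hx', hy', hx1', hy1', h'⟩
    refine ⟨x * x', y * y', mul_ne_zero hx hx', mul_ne_zero hy hy', ?_, ?_, ?_⟩
    · rw [show x * x' - 1 = (x - 1) * x' + (x' - 1) by ring]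
      exact 𝔪.add_mem (𝔪.mul_mem_right _ hx1) hx1'
    · rw [show y * y' - 1 = (y - 1) * y' + (y' - 1) by ring]
      exact 𝔪.add_mem (𝔪.mul_mem_right _ hy1) hy1'
    · push_cast
      rw [mul_mul_mul_comm, h, h']
  inv_mem' := by
    rintro a ⟨x, y, hx, hy, hx1, hy1, h⟩
    refine ⟨y, x, hy, hx, hy1, hx1, ?_⟩
    rw [← h, Units.val_inv_eq_inv_val, inv_mul_cancel_left₀ a.ne_zero]

theorem exists_monoidHom_extension {G : Type*} [CommGroup G] (H : Subgroup G) (f : H →* ℂˣ) :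
    ∃ F : G →* ℂˣ, ∀ x : H, F x = f x := by
  let _ : DivisibleBy (Additive ℂˣ) ℤ := divisibleByOfSMulRightSurj _ ℤ fun {n} hn z => by
    obtain ⟨c, hc⟩ := IsAlgClosed.exists_pow_nat_eq ((Additive.toMul z : ℂˣ) : ℂ)
      (Int.natAbs_pos.mpr hn)
    have hc0 : c ≠ 0 := fun h => (Additive.toMul z).ne_zero (by
      rw [← hc, h, zero_pow (Int.natAbs_ne_zero.mpr hn)])
    have e : Units.mk0 c hc0 ^ n.natAbs = Additive.toMul z := Units.ext (by simpa using hc)
    rcases Int.natAbs_eq n with h | h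
    · refine ⟨Additive.ofMul (Units.mk0 c hc0), ?_⟩
      show n • Additive.ofMul (Units.mk0 c hc0) = z
      rw [← ofMul_zpow, h, zpow_natCast, e, ofMul_toMul]
    · refine ⟨Additive.ofMul (Units.mk0 c hc0)⁻¹, ?_⟩
      show n • Additive.ofMul (Units.mk0 c hc0)⁻¹ = z
      rw [← ofMul_zpow, h, zpow_neg, inv_zpow, inv_inv, zpow_natCast, e, ofMul_toMul]
  obtain ⟨F, hF⟩ := (Module.Baer.of_divisible (Additive ℂˣ)).extension_property_addMonoidHom
    (MonoidHom.toAdditive H.subtype) Subtype.val_injective (MonoidHom.toAdditive f)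
  exact ⟨AddMonoidHom.toMultiplicative F, fun x =>
    congrArg Additive.toMul (DFunLike.congr_fun hF (Additive.ofMul x))⟩

/-- An ideal as an invertible fractional ideal. -/
def idealUnit {I : Ideal (𝓞 K)} (hI : I ≠ ⊥) : (FractionalIdeal (𝓞 K)⁰ K)ˣ :=
  Units.mk0 (I : FractionalIdeal (𝓞 K)⁰ K) (FractionalIdeal.coeIdeal_ne_zero.mpr hI)

theorem idealUnit_span {x : 𝓞 K} (hx : x ≠ 0) :
    idealUnit (show Ideal.span {x} ≠ ⊥ by simpa using hx) =
      toPrincipalIdeal (𝓞 K) K (fieldUnit hx) :=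
  Units.ext (by
    rw [coe_toPrincipalIdeal, idealUnit, Units.val_mk0, FractionalIdeal.coeIdeal_span_singleton]
    rfl)

variable {φ} in
/-- **Existence.** -/
theorem exists_isAngChar {𝔪 : Ideal (𝓞 K)} (h𝔪 : 𝔪 ≠ ⊥) {k : ℤ}
    (hk : ∀ u : (𝓞 K)ˣ, (u : 𝓞 K) - 1 ∈ 𝔪 → φ (u : 𝓞 K) ^ k = 1) :
    ∃ f : Ideal (𝓞 K) →* ℂ, IsAngChar φ 𝔪 k f := by
  let P : raySubgroup 𝔪 →* (FractionalIdeal (𝓞 K)⁰ K)ˣ :=
    (toPrincipalIdeal (𝓞 K) K).comp (raySubgroup 𝔪).subtype
  let ψ : raySubgroup 𝔪 →* ℂˣ := ((dirHom φ).comp (raySubgroup 𝔪).subtype) ^ k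
  have hker : P.ker ≤ ψ.ker := by
    rintro ⟨a, x, y, hx, hy, hx1, hy1, ha⟩ h
    rw [MonoidHom.mem_ker] at h ⊢
    have h1 : toPrincipalIdeal (𝓞 K) K a = 1 := h
    have hspan : Ideal.span {x} = Ideal.span {y} := by
      refine FractionalIdeal.coeIdeal_injective (K := K) ?_
      show (Ideal.span {x} : FractionalIdeal (𝓞 K)⁰ K) = (Ideal.span {y} : FractionalIdeal (𝓞 K)⁰ K)
      rw [FractionalIdeal.coeIdeal_span_singleton, FractionalIdeal.coeIdeal_span_singleton]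
      show FractionalIdeal.spanSingleton (𝓞 K)⁰ (x : K) =
        FractionalIdeal.spanSingleton (𝓞 K)⁰ (y : K)
      rw [← ha, ← FractionalIdeal.spanSingleton_mul_spanSingleton, ← coe_toPrincipalIdeal, h1,
        Units.val_one, one_mul]
    obtain ⟨u, hu⟩ := (Ideal.span_singleton_eq_span_singleton.mp hspan).symm
    have hu1 : (u : 𝓞 K) - 1 ∈ 𝔪 := by
      rw [show (u : 𝓞 K) - 1 = (y * u - 1) - (y - 1) * u by ring, hu]
      exact 𝔪.sub_mem hx1 (𝔪.mul_mem_right _ hy1)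
    have hau : (a : K) = ((u : 𝓞 K) : K) := mul_right_cancel₀
      (RingOfIntegers.coe_ne_zero_iff.mpr hy)
      (ha.trans (by rw [← hu]; push_cast; ring))
    refine Units.ext ?_
    simp only [ψ, MonoidHom.zpow_apply, MonoidHom.comp_apply, Subgroup.coe_subtype,
      Units.val_zpow_eq_zpow_val, dirHom_apply, Units.val_one]
    rw [hau, dir_unit, hk u hu1]
  obtain ⟨F, hF⟩ := exists_monoidHom_extension P.range
    ((P.rangeRestrict.liftOfSurjective P.rangeRestrict_surjective)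
      ⟨ψ, by rwa [MonoidHom.ker_rangeRestrict]⟩)
  have hval : ∀ (x : 𝓞 K) (hx : x ≠ 0), x - 1 ∈ 𝔪 →
      (F (idealUnit (show Ideal.span {x} ≠ ⊥ by simpa using hx)) : ℂ) = dir (φ x) ^ k := by
    intro x hx hx1
    let a : raySubgroup 𝔪 :=
      ⟨fieldUnit hx, x, 1, hx, one_ne_zero, hx1, by simp, by simp [fieldUnit]⟩
    have h2 := hF (P.rangeRestrict a)
    rw [MonoidHom.liftOfRightInverse_comp_apply] at h2
    rw [idealUnit_span hx]
    exact (congrArg Units.val h2).trans (by simp [ψ, a, dirHom_apply, fieldUnit])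
  refine ⟨{ toFun := fun I => if h : I ≠ ⊥ ∧ I ⊔ 𝔪 = ⊤ then (F (idealUnit h.1) : ℂ) else 0
            map_one' := ?_
            map_mul' := fun I J => ?_ }, h𝔪, fun I hI => ?_, fun x hx hx1 => ?_⟩
  · rw [dif_pos ⟨(one_ne_zero : (1 : Ideal (𝓞 K)) ≠ 0), by simp [Ideal.one_eq_top]⟩,
      show idealUnit (K := K) (I := 1) (one_ne_zero : (1 : Ideal (𝓞 K)) ≠ 0) = 1 from
        Units.ext (by simp [idealUnit]), map_one, Units.val_one]
  · by_cases hI : I ≠ ⊥ ∧ I ⊔ 𝔪 = ⊤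
    · by_cases hJ : J ≠ ⊥ ∧ J ⊔ 𝔪 = ⊤
      · rw [dif_pos hI, dif_pos hJ,
          dif_pos ⟨mul_ne_zero hI.1 hJ.1, FA.Hecke.mul_sup_eq_top.mpr ⟨hI.2, hJ.2⟩⟩,
          ← Units.val_mul, ← map_mul]
        congr 2
        exact Units.ext (by simp [idealUnit])
      · rw [dif_neg hJ, mul_zero, dif_neg fun h => hJ ⟨right_ne_zero_of_mul h.1,
          (FA.Hecke.mul_sup_eq_top.mp h.2).2⟩]
    · rw [dif_neg hI, zero_mul, dif_neg fun h => hI ⟨left_ne_zero_of_mul h.1,
        (FA.Hecke.mul_sup_eq_top.mp h.2).1⟩]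
  · show (if h : I ≠ ⊥ ∧ I ⊔ 𝔪 = ⊤ then _ else 0) ≠ 0 ↔ _
    split_ifs with h
    · exact iff_of_true (Units.ne_zero _) h.2
    · exact iff_of_false (fun h0 => h0 rfl) fun hc => h ⟨hI, hc⟩
  · have hc : Ideal.span {x} ⊔ 𝔪 = ⊤ := by
      rw [FA.Hecke.span_sup_congr hx1, Ideal.span_singleton_one, top_sup_eq]
    exact (dif_pos ⟨by simpa using hx, hc⟩).trans (hval x hx hx1)

end FA.ImagQuad

end
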