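import Fermat.Agent.ImagQuadAngles.Counting
import Fermat.Agent.ImagQuadAngles.Exists
import Fermat.Agent.GaussianAngles.Distribution

/-!
# Primes by ray class and angle

For `v` in the class inverse to that of `J` modulo `𝔪` the ideal `v J` has generators `x ≡ 1`,
defined up to the `w` units congruent to `1`, which act on the angle of `φ x` as the multiples of
`2 π / w`. Orthogonality of the ray class characters and Weyl's criterion give: the primes with a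
generator of direction in an arc of length `L ≤ 2 π / w` have density `w L / (2 π h)`, `h` the
ray class number.
-/

set_option autoImplicit false
set_option linter.unusedSectionVars false

noncomputable section

open NumberField IsDedekindDomain Ideal Filter Topology Module
open FA.GaussAngle (dir norm_dir expMeanZero_mul_add tendsto_count_Icc)
open FA.Hecke (coprimeIdeals IsRayElt RayClassGroup rayClass rayClass_eq_iff rayClass_surjective
  finite_rayClassGroup rayCharFn rayCharFn_apply isRayChar_rayCharFn rayInd HasMean hasMean_rayInd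
  primesLE mem_primesLE wSum)
open FA.Ext (primeIdeal)
open FA.Equidist (avg ExpMeanZero)
open FA.ThreePrimes (eAdd)
open scoped nonZeroDivisors Classical

namespace FA.ImagQuad

variable {K : Type*} [Field K] [NumberField K] [IsTotallyComplex K]
  [Algebra.IsQuadraticExtension ℚ K] (φ : K →+* ℂ) {𝔪 : Ideal (𝓞 K)}

/-- The units congruent to `1`. -/
def rayUnits (𝔪 : Ideal (𝓞 K)) : Subgroup (𝓞 K)ˣ :=
  (Units.map (Ideal.Quotient.mk 𝔪).toMonoidHom).ker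

theorem mem_rayUnits {u : (𝓞 K)ˣ} : u ∈ rayUnits 𝔪 ↔ (u : 𝓞 K) - 1 ∈ 𝔪 := by
  rw [rayUnits, MonoidHom.mem_ker, Units.ext_iff, ← Ideal.Quotient.eq]
  simp

/-- Their number. -/
def unitIndex (𝔪 : Ideal (𝓞 K)) : ℕ := Nat.card (rayUnits 𝔪)

theorem unitIndex_pos (𝔪 : Ideal (𝓞 K)) : 0 < unitIndex 𝔪 := Nat.card_pos

theorem pow_unitIndex {u : (𝓞 K)ˣ} (hu : (u : 𝓞 K) - 1 ∈ 𝔪) :
    φ (u : 𝓞 K) ^ unitIndex 𝔪 = 1 := by
  have h : (⟨u, mem_rayUnits.mpr hu⟩ : rayUnits 𝔪) ^ unitIndex 𝔪 = 1 := pow_card_eq_one'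
  have h' := congrArg (fun u : rayUnits 𝔪 => φ ((u.1 : 𝓞 K) : K)) h
  simpa using h'

/-- **They map onto the roots of unity of their order.** -/
theorem exists_unit_eq {z : ℂ} (hz : z ^ unitIndex 𝔪 = 1) :
    ∃ u : (𝓞 K)ˣ, (u : 𝓞 K) - 1 ∈ 𝔪 ∧ φ (u : 𝓞 K) = z := by
  have : NeZero (unitIndex 𝔪) := ⟨(unitIndex_pos 𝔪).ne'⟩
  let e : rayUnits 𝔪 → rootsOfUnity (unitIndex 𝔪) ℂ := fun u =>
    rootsOfUnity.mkOfPowEq (φ (u.1 : 𝓞 K)) (pow_unitIndex φ (mem_rayUnits.mp u.2))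
  have he : Function.Injective e := fun u v h => by
    have h' := congrArg (fun r : rootsOfUnity (unitIndex 𝔪) ℂ => ((r.1 : ℂˣ) : ℂ)) h
    simp only [e, rootsOfUnity.coe_mkOfPowEq] at h'
    exact Subtype.ext (Units.ext (RingOfIntegers.coe_injective (φ.injective h')))
  have hb := (Nat.bijective_iff_injective_and_card e).mpr
    ⟨he, (Complex.card_rootsOfUnity _).symm⟩
  obtain ⟨u, hu⟩ := hb.2 (rootsOfUnity.mkOfPowEq z hz)
  refine ⟨u.1, mem_rayUnits.mp u.2, ?_⟩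
  simpa [e] using congrArg (fun r : rootsOfUnity (unitIndex 𝔪) ℂ => ((r.1 : ℂˣ) : ℂ)) hu

theorem isRayElt_of_mem {x : 𝓞 K} (hx : x ≠ 0) (h : x - 1 ∈ 𝔪) : IsRayElt 𝔪 x :=
  ⟨hx, h, fun ψ => absurd (NumberField.ComplexEmbedding.isReal_iff.mpr (RingHom.ext fun y => by
      simp [NumberField.ComplexEmbedding.conjugate_coe_eq, Complex.conj_ofReal]))
    (IsTotallyComplex.complexEmbedding_not_isReal (Complex.ofRealHom.comp ψ))⟩

theorem sup_eq_top_of_mem {x : 𝓞 K} (h : x - 1 ∈ 𝔪) : Ideal.span {x} ⊔ 𝔪 = ⊤ := by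
  rw [FA.Hecke.span_sup_congr h, Ideal.span_singleton_one, top_sup_eq]

/-- A class is trivial exactly at the ideals with a generator congruent to `1`. -/
theorem rayClass_eq_one_iff (h𝔪 : 𝔪 ≠ ⊥) (I : coprimeIdeals 𝔪) :
    rayClass h𝔪 I = 1 ↔ ∃ x : 𝓞 K, x - 1 ∈ 𝔪 ∧ Ideal.span {x} = I.1.1 := by
  rw [← map_one (rayClass h𝔪), rayClass_eq_iff]
  constructor
  · rintro ⟨a, b, ha, hb, h⟩
    simp only [OneMemClass.coe_one, mul_one] at h
    have hb' : b ∈ Ideal.span {a} :=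
      (Ideal.span_singleton_le_iff_mem _).mp (h ▸ Ideal.mul_le_left)
    obtain ⟨x, rfl⟩ := Ideal.mem_span_singleton.mp hb'
    refine ⟨x, ?_, mul_left_cancel₀
      (show Ideal.span {a} ≠ (0 : Ideal (𝓞 K)) by simpa using ha.1) ?_⟩
    · rw [show x - 1 = (a * x - 1) - (a - 1) * x by ring]
      exact 𝔪.sub_mem hb.2.1 (𝔪.mul_mem_right _ ha.2.1)
    · rw [Ideal.span_singleton_mul_span_singleton, h]
  · rintro ⟨x, hx1, hx⟩
    have hx0 : x ≠ 0 := fun h0 => nonZeroDivisors.coe_ne_zero I.1 (by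
      rw [← hx, h0]; simp)
    exact ⟨1, x, FA.Hecke.isRayElt_one, isRayElt_of_mem hx0 hx1, by simp [hx]⟩

/-- **A character times the indicator of a class has mean `0`.** -/
theorem hasMean_rayInd_mul (h𝔪 : 𝔪 ≠ ⊥) (γ : RayClassGroup 𝔪) {k : ℤ} (hk : k ≠ 0)
    {f : Ideal (𝓞 K) →* ℂ} (hf : IsAngChar φ 𝔪 k f) :
    HasMean (fun v => (rayInd h𝔪 γ v : ℂ) * f v.asIdeal) 0 := by
  have := finite_rayClassGroup h𝔪
  have : Fintype (RayClassGroup 𝔪) := Fintype.ofFinite _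
  let _ : Fintype (RayClassGroup 𝔪 →* ℂˣ) := FA.Weight1.fintypeDual (U := RayClassGroup 𝔪)
  have hchar : ∀ χ : RayClassGroup 𝔪 →* ℂˣ,
      HasMean (fun v => (f * rayCharFn h𝔪 χ) v.asIdeal) 0 := fun χ => by
    have h0 : IsAngChar φ 𝔪 0 (rayCharFn h𝔪 χ) :=
      ⟨h𝔪, (isRayChar_rayCharFn h𝔪 χ).ne_zero_iff, fun x hx hx1 => by
        rw [zpow_zero]
        exact (isRayChar_rayCharFn h𝔪 χ).ray x hx hx1 (isRayElt_of_mem hx hx1).2.2⟩
    exact (hf.mul h0).hasMean_zero (by rwa [add_zero])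
  have h := HasMean.finset_sum Finset.univ fun χ _ => (hchar χ).map
    (((Nat.card (RayClassGroup 𝔪) : ℂ)⁻¹ * (χ γ⁻¹ : ℂ)) •
      ContinuousLinearMap.id ℂ ℂ |>.restrictScalars ℝ)
  simp only [ContinuousLinearMap.coe_restrictScalars', _root_.smul_apply,
    ContinuousLinearMap.id_apply, smul_eq_mul, mul_zero, Finset.sum_const_zero] at h
  convert h using 1
  funext v
  by_cases hv : v.asIdeal ⊔ 𝔪 = ⊤
  · have e : ∀ χ, (Nat.card (RayClassGroup 𝔪) : ℂ)⁻¹ * (χ γ⁻¹ : ℂ) *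
        (f * rayCharFn h𝔪 χ) v.asIdeal = (Nat.card (RayClassGroup 𝔪) : ℂ)⁻¹ * f v.asIdeal *
          (χ (γ⁻¹ * rayClass h𝔪 ⟨primeIdeal v, hv⟩) : ℂ) := fun χ => by
      rw [map_mul χ, Units.val_mul, ← rayCharFn_apply h𝔪 χ ⟨primeIdeal v, hv⟩, MonoidHom.mul_apply]
      show _ = _ * (_ * rayCharFn h𝔪 χ v.asIdeal)
      ring
    have hs : ∑ χ : RayClassGroup 𝔪 →* ℂˣ, (χ (γ⁻¹ * rayClass h𝔪 ⟨primeIdeal v, hv⟩) : ℂ) =
        if γ⁻¹ * rayClass h𝔪 ⟨primeIdeal v, hv⟩ = 1 then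
          (Fintype.card (RayClassGroup 𝔪) : ℂ) else 0 := by
      convert FA.Weight1.sum_char_apply (U := RayClassGroup 𝔪) _
    simp only [e, ← Finset.mul_sum, hs, rayInd, inv_mul_eq_one]
    by_cases hγ : rayClass h𝔪 ⟨primeIdeal v, hv⟩ = γ
    · rw [if_pos ⟨hv, hγ⟩, if_pos hγ.symm, Nat.card_eq_fintype_card, Complex.ofReal_one, one_mul,
        mul_right_comm, inv_mul_cancel₀ (Nat.cast_ne_zero.mpr Fintype.card_ne_zero), one_mul]
    · rw [if_neg fun ⟨_, h'⟩ => hγ h', if_neg (Ne.symm hγ), mul_zero, Complex.ofReal_zero,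
        zero_mul]
  · rw [rayInd, if_neg fun ⟨h', _⟩ => hv h',
      hf.eq_zero_of_not v.ne_bot hv]
    simp [hf.eq_zero_of_not v.ne_bot hv]

/-- `v J` has a generator congruent to `1`. -/
def HasGen (𝔪 : Ideal (𝓞 K)) (J : Ideal (𝓞 K)) (v : HeightOneSpectrum (𝓞 K)) : Prop :=
  ∃ x : 𝓞 K, x - 1 ∈ 𝔪 ∧ Ideal.span {x} = v.asIdeal * J

/-- One of the generators. -/
def genElt (𝔪 : Ideal (𝓞 K)) (J : Ideal (𝓞 K)) (v : HeightOneSpectrum (𝓞 K)) : 𝓞 K :=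
  if h : HasGen 𝔪 J v then h.choose else 1

theorem genElt_spec {J : Ideal (𝓞 K)} {v : HeightOneSpectrum (𝓞 K)} (h : HasGen 𝔪 J v) :
    genElt 𝔪 J v - 1 ∈ 𝔪 ∧ Ideal.span {genElt 𝔪 J v} = v.asIdeal * J := by
  rw [genElt, dif_pos h]
  exact h.choose_spec

theorem ne_zero_of_gen {J : Ideal (𝓞 K)} (hJ : J ≠ ⊥) {v : HeightOneSpectrum (𝓞 K)} {x : 𝓞 K}
    (hx : Ideal.span {x} = v.asIdeal * J) : x ≠ 0 := fun h0 =>
  mul_ne_zero v.ne_bot hJ (by rw [← hx, h0]; simp)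

/-- The generators exist exactly in the class inverse to that of `J`. -/
theorem hasGen_iff (h𝔪 : 𝔪 ≠ ⊥) (J : coprimeIdeals 𝔪) (v : HeightOneSpectrum (𝓞 K)) :
    HasGen 𝔪 J.1.1 v ↔ ∃ hv : v.asIdeal ⊔ 𝔪 = ⊤,
      rayClass h𝔪 ⟨primeIdeal v, hv⟩ = (rayClass h𝔪 J)⁻¹ := by
  constructor
  · rintro ⟨x, hx1, hx⟩
    have hv : v.asIdeal ⊔ 𝔪 = ⊤ :=
      (FA.Hecke.mul_sup_eq_top.mp (hx ▸ sup_eq_top_of_mem hx1)).1
    exact ⟨hv, eq_inv_of_mul_eq_one_left (by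
      rw [← map_mul, rayClass_eq_one_iff]; exact ⟨x, hx1, hx⟩)⟩
  · rintro ⟨hv, h⟩
    rw [eq_inv_iff_mul_eq_one, ← map_mul, rayClass_eq_one_iff] at h
    exact h

/-- The angle of a generator, times `w`, in turns. -/
def angle (𝔪 : Ideal (𝓞 K)) (J : Ideal (𝓞 K)) (v : HeightOneSpectrum (𝓞 K)) : ℝ :=
  (unitIndex 𝔪 : ℝ) * Complex.arg (φ (genElt 𝔪 J v)) / (2 * Real.pi)

theorem dir_eq_exp {z : ℂ} (hz : z ≠ 0) : dir z = Complex.exp (Complex.arg z * Complex.I) := by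
  rw [dir, div_eq_iff (Complex.ofReal_ne_zero.mpr (norm_ne_zero_iff.mpr hz)), mul_comm,
    Complex.norm_mul_exp_arg_mul_I]

theorem eAdd_angle {J : Ideal (𝓞 K)} (hJ : J ≠ ⊥) {v : HeightOneSpectrum (𝓞 K)}
    (hv : HasGen 𝔪 J v) (h : ℤ) :
    eAdd (h * angle φ 𝔪 J v) = dir (φ (genElt 𝔪 J v)) ^ ((unitIndex 𝔪 : ℤ) * h) := by
  rw [dir_eq_exp (map_ne_zero' φ (ne_zero_of_gen hJ (genElt_spec hv).2)), ← Complex.exp_int_mul,
    eAdd, angle]
  congr 1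
  push_cast
  field_simp

/-- The primes of norm at most `n` with a generator. -/
def genPrimes (𝔪 : Ideal (𝓞 K)) (J : Ideal (𝓞 K)) (n : ℕ) :
    Finset (HeightOneSpectrum (𝓞 K)) := (primesLE K n).filter (HasGen 𝔪 J)

theorem rayInd_eq (h𝔪 : 𝔪 ≠ ⊥) (J : coprimeIdeals 𝔪) (v : HeightOneSpectrum (𝓞 K)) :
    rayInd h𝔪 (rayClass h𝔪 J)⁻¹ v = if HasGen 𝔪 J.1.1 v then 1 else 0 := by
  rw [rayInd]
  exact if_congr (hasGen_iff h𝔪 J v).symm rfl rfl

theorem tendsto_card_genPrimes (h𝔪 : 𝔪 ≠ ⊥) (J : coprimeIdeals 𝔪) :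
    Tendsto (fun n : ℕ => Real.log n / n * ((genPrimes 𝔪 J.1.1 n).card : ℝ)) atTop
      (𝓝 (Nat.card (RayClassGroup 𝔪) : ℝ)⁻¹) := by
  refine ((hasMean_rayInd h𝔪 (rayClass h𝔪 J)⁻¹).comp tendsto_natCast_atTop_atTop).congr fun n => ?_
  simp only [Function.comp_apply, wSum, Nat.floor_natCast, smul_eq_mul, rayInd_eq, genPrimes,
    Finset.sum_boole]

theorem tendsto_card_atTop (h𝔪 : 𝔪 ≠ ⊥) (J : coprimeIdeals 𝔪) :
    Tendsto (fun n : ℕ => (genPrimes 𝔪 J.1.1 n).card) atTop atTop := by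
  have := finite_rayClassGroup h𝔪
  have hc : (0 : ℝ) < (Nat.card (RayClassGroup 𝔪) : ℝ)⁻¹ :=
    inv_pos.mpr (Nat.cast_pos.mpr Nat.card_pos)
  have h0 : Tendsto (fun n : ℕ => Real.log n / n) atTop (𝓝 0) :=
    Real.isLittleO_log_id_atTop.tendsto_div_nhds_zero.comp tendsto_natCast_atTop_atTop
  refine tendsto_atTop.mpr fun b => ?_
  have hb : Tendsto (fun n : ℕ => Real.log n / n * b) atTop (𝓝 0) := by
    simpa using h0.mul_const (b : ℝ)
  filter_upwards [(tendsto_card_genPrimes h𝔪 J).eventually (lt_mem_nhds (half_lt_self hc)),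
    hb.eventually (gt_mem_nhds (half_pos hc))] with n h1 h2
  by_contra hlt
  have h3 : ((genPrimes 𝔪 J.1.1 n).card : ℝ) ≤ b := by exact_mod_cast (not_le.mp hlt).le
  have h4 := mul_le_mul_of_nonneg_left h3
    (div_nonneg (Real.log_natCast_nonneg n) (Nat.cast_nonneg (α := ℝ) n))
  linarith

variable (K) in
theorem countable_primes : Countable (HeightOneSpectrum (𝓞 K)) :=
  Set.countable_univ_iff.mp ((Set.countable_iUnion fun n : ℕ =>
    (primesLE K n).countable_toSet).mono fun v _ =>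
      Set.mem_iUnion.mpr ⟨Ideal.absNorm v.asIdeal, mem_primesLE.mpr le_rfl⟩)

/-- A numbering of the primes. -/
def codeP : HeightOneSpectrum (𝓞 K) ↪ ℕ :=
  haveI := countable_primes K
  ⟨(exists_injective_nat _).choose, (exists_injective_nat _).choose_spec⟩

/-- The prime of a number. -/
def primeOf (n : ℕ) : HeightOneSpectrum (𝓞 K) :=
  haveI : Nonempty (HeightOneSpectrum (𝓞 K)) :=
    let ⟨I, hI⟩ := Ideal.exists_maximal (𝓞 K)
    ⟨⟨I, hI.isPrime, Ring.ne_bot_of_isMaximal_of_not_isField hI (RingOfIntegers.not_isField K)⟩⟩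
  Function.invFun (codeP (K := K)) n

theorem primeOf_code (v : HeightOneSpectrum (𝓞 K)) : primeOf (codeP v) = v :=
  haveI : Nonempty (HeightOneSpectrum (𝓞 K)) := ⟨v⟩
  Function.leftInverse_invFun (codeP (K := K)).injective v

/-- **Weyl's means.** -/
theorem expMeanZero_angle (h𝔪 : 𝔪 ≠ ⊥) (J : coprimeIdeals 𝔪) :
    ExpMeanZero (fun n => (genPrimes 𝔪 J.1.1 n).map codeP)
      (fun m => angle φ 𝔪 J.1.1 (primeOf m)) := by
  intro h hh
  have hk : (unitIndex 𝔪 : ℤ) * h ≠ 0 :=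
    mul_ne_zero (Int.natCast_ne_zero.mpr (unitIndex_pos 𝔪).ne') hh
  obtain ⟨f, hf⟩ := exists_isAngChar (φ := φ) h𝔪 (k := (unitIndex 𝔪 : ℤ) * h) fun u hu => by
    rw [zpow_mul, zpow_natCast, pow_unitIndex φ hu, one_zpow]
  have hm := (((hasMean_rayInd_mul φ h𝔪 (rayClass h𝔪 J)⁻¹ hk hf).map
    ((f J.1.1 • ContinuousLinearMap.id ℂ ℂ).restrictScalars ℝ)).comp tendsto_natCast_atTop_atTop)
  simp only [map_zero] at hm
  have hc : ((Nat.card (RayClassGroup 𝔪) : ℝ)⁻¹ : ℂ) ≠ 0 := by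
    have := finite_rayClassGroup h𝔪
    simp [Nat.card_pos.ne']
  have hd : Tendsto (fun n : ℕ => ((Real.log n / n * (genPrimes 𝔪 J.1.1 n).card : ℝ) : ℂ)) atTop
      (𝓝 ((Nat.card (RayClassGroup 𝔪) : ℝ)⁻¹ : ℂ)) := by
    have h' := (Complex.continuous_ofReal.tendsto _).comp (tendsto_card_genPrimes h𝔪 J)
    simpa [Function.comp_def] using h'
  have hq := hm.div hd hc
  rw [zero_div] at hq
  refine hq.congr' ?_
  filter_upwards [eventually_gt_atTop 1] with n hn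
  have hl : (0 : ℝ) < Real.log n / n :=
    div_pos (Real.log_pos (by exact_mod_cast hn)) (by exact_mod_cast (zero_lt_one.trans hn))
  simp only [Pi.div_apply, Function.comp_apply, wSum, Nat.floor_natCast, avg, Finset.sum_map,
    Finset.card_map, primeOf_code, Complex.real_smul, Complex.ofReal_mul]
  rw [mul_div_mul_left _ _ (Complex.ofReal_ne_zero.mpr hl.ne'), Complex.ofReal_natCast]
  congr 1
  rw [genPrimes, Finset.sum_filter]
  refine Finset.sum_congr rfl fun v _ => ?_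
  simp only [ContinuousLinearMap.coe_restrictScalars', _root_.smul_apply,
    ContinuousLinearMap.id_apply, smul_eq_mul, rayInd_eq]
  split_ifs with hv
  · obtain ⟨h1, h2⟩ := genElt_spec hv
    have hne := ne_zero_of_gen (nonZeroDivisors.coe_ne_zero J.1) h2
    rw [eAdd_angle φ (nonZeroDivisors.coe_ne_zero J.1) hv, ← hf.ray _ hne h1, h2, map_mul,
      Complex.ofReal_one, one_mul, mul_comm]
  · simp

/-- Some generator of `v J` congruent to `1` has direction in the arc. -/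
def InArc (𝔪 : Ideal (𝓞 K)) (J : Ideal (𝓞 K)) (θ₁ θ₂ : ℝ) (v : HeightOneSpectrum (𝓞 K)) : Prop :=
  ∃ x : 𝓞 K, x - 1 ∈ 𝔪 ∧ Ideal.span {x} = v.asIdeal * J ∧
    ∃ t ∈ Set.Icc θ₁ θ₂, φ x = (‖φ x‖ : ℂ) * Complex.exp (t * Complex.I)

theorem inArc_iff {J : Ideal (𝓞 K)} (hJ : J ≠ ⊥) {v : HeightOneSpectrum (𝓞 K)}
    (hv : HasGen 𝔪 J v) {θ₁ θ₂ : ℝ} :
    InArc φ 𝔪 J θ₁ θ₂ v ↔ ∃ m : ℤ, angle φ 𝔪 J v + m ∈
      Set.Icc ((unitIndex 𝔪 : ℝ) * θ₁ / (2 * Real.pi))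
        ((unitIndex 𝔪 : ℝ) * θ₂ / (2 * Real.pi)) := by
  obtain ⟨h1, h2⟩ := genElt_spec hv
  obtain ⟨y, hy⟩ : ∃ y, y = genElt 𝔪 J v := ⟨_, rfl⟩
  rw [← hy] at h1 h2
  have hy0 := map_ne_zero' φ (ne_zero_of_gen hJ h2)
  obtain ⟨w, hw⟩ : ∃ w : ℝ, w = (unitIndex 𝔪 : ℝ) := ⟨_, rfl⟩
  have hw0 : 0 < w := hw ▸ Nat.cast_pos.mpr (unitIndex_pos 𝔪)
  have hπ := Real.pi_pos
  have hang : angle φ 𝔪 J v = w * Complex.arg (φ y) / (2 * Real.pi) := by rw [angle, ← hy, hw]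
  have hpolar := Complex.norm_mul_exp_arg_mul_I (φ y)
  constructor
  · rintro ⟨x, hx1, hx, t, ht, hxt⟩
    obtain ⟨u, hu⟩ := (Ideal.span_singleton_eq_span_singleton.mp (hx.trans h2.symm)).symm
    have hu1 : (u : 𝓞 K) - 1 ∈ 𝔪 := by
      rw [show (u : 𝓞 K) - 1 = (y * u - 1) - (y - 1) * u by ring, hu]
      exact 𝔪.sub_mem hx1 (𝔪.mul_mem_right _ h1)
    have hx' : φ x = φ y * φ (u : 𝓞 K) := by rw [← hu]; simp
    have hnorm : ‖φ x‖ = ‖φ y‖ := by rw [hx', norm_mul, norm_unit, mul_one]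
    have hexp : Complex.exp (t * Complex.I) ^ unitIndex 𝔪 =
        Complex.exp (Complex.arg (φ y) * Complex.I) ^ unitIndex 𝔪 := by
      have h0 : ((‖φ y‖ : ℂ)) ≠ 0 := Complex.ofReal_ne_zero.mpr (norm_ne_zero_iff.mpr hy0)
      have e : Complex.exp (t * Complex.I) =
          Complex.exp (Complex.arg (φ y) * Complex.I) * φ (u : 𝓞 K) := by
        refine mul_left_cancel₀ h0 ?_
        rw [← mul_assoc, hpolar, ← hx', hxt, hnorm]
      rw [e, mul_pow, pow_unitIndex φ hu1, mul_one]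
    rw [← Complex.exp_nat_mul, ← Complex.exp_nat_mul, Complex.exp_eq_exp_iff_exists_int] at hexp
    obtain ⟨m, hm⟩ := hexp
    have hm' := congrArg Complex.im hm
    simp at hm'
    rw [← hw] at hm'
    refine ⟨m, ?_⟩
    rw [hang, show w * Complex.arg (φ y) / (2 * Real.pi) + m = w * t / (2 * Real.pi) by
      field_simp; linarith, ← hw]
    exact ⟨by gcongr; exact ht.1, by gcongr; exact ht.2⟩
  · rintro ⟨m, hm⟩
    rw [hang, ← hw, Set.mem_Icc, div_le_iff₀ (by positivity), le_div_iff₀ (by positivity)] at hm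
    obtain ⟨t, ht⟩ : ∃ t, t = Complex.arg (φ y) + 2 * Real.pi * m / w := ⟨_, rfl⟩
    have hwt : w * t = (w * Complex.arg (φ y) / (2 * Real.pi) + m) * (2 * Real.pi) := by
      rw [ht]; field_simp
    obtain ⟨u, hu1, hu⟩ := exists_unit_eq φ (𝔪 := 𝔪)
      (z := Complex.exp ((2 * Real.pi * m / w : ℝ) * Complex.I)) (by
        rw [← Complex.exp_nat_mul, Complex.exp_eq_one_iff]
        refine ⟨m, ?_⟩
        have hwc : (w : ℂ) ≠ 0 := Complex.ofReal_ne_zero.mpr hw0.ne'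
        rw [← Complex.ofReal_natCast, ← hw]
        push_cast
        field_simp)
    refine ⟨y * u, ?_, ?_, t, ⟨?_, ?_⟩, ?_⟩
    · rw [show y * (u : 𝓞 K) - 1 = (y - 1) * u + ((u : 𝓞 K) - 1) by ring]
      exact 𝔪.add_mem (𝔪.mul_mem_right _ h1) hu1
    · rw [Ideal.span_singleton_mul_right_unit u.isUnit, h2]
    · exact le_of_mul_le_mul_left (hwt ▸ hm.1) hw0
    · exact le_of_mul_le_mul_left (hwt ▸ hm.2) hw0
    · rw [show φ (y * u : 𝓞 K) = φ y * φ (u : 𝓞 K) by simp, norm_mul, norm_unit, mul_one, hu, ht,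
        Complex.ofReal_add, add_mul,
        Complex.exp_add, ← mul_assoc, hpolar]

theorem exists_add_int_mem_iff {θ a b : ℝ} :
    (∃ m : ℤ, θ + m ∈ Set.Icc a b) ↔ Int.fract (θ - a) ∈ Set.Icc 0 (b - a) := by
  constructor
  · rintro ⟨m, h1, h2⟩
    refine ⟨Int.fract_nonneg _, ?_⟩
    rcases lt_or_ge (θ + m - a) 1 with h3 | h3
    · have e : Int.fract (θ - a) = θ + m - a := by
        rw [← Int.fract_add_intCast (θ - a) m, Int.fract_eq_self.mpr ⟨by linarith, by linarith⟩]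
        ring
      linarith
    · linarith [Int.fract_lt_one (θ - a)]
  · rintro ⟨-, h2⟩
    refine ⟨-⌊θ - a⌋, ?_, ?_⟩ <;> push_cast <;> rw [Int.fract] at h2 <;>
      linarith [Int.floor_le (θ - a)]

/-- **Hecke's joint equidistribution.** -/
theorem tendsto_inArc (h𝔪 : 𝔪 ≠ ⊥) {J : Ideal (𝓞 K)} (hJ0 : J ≠ ⊥) (hJ : J ⊔ 𝔪 = ⊤)
    {θ₁ θ₂ : ℝ} (h₁₂ : θ₁ ≤ θ₂) (hlen : (unitIndex 𝔪 : ℝ) * (θ₂ - θ₁) ≤ 2 * Real.pi) :
    Tendsto (fun n : ℕ => Real.log n / n *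
      (((primesLE K n).filter (InArc φ 𝔪 J θ₁ θ₂)).card : ℝ)) atTop
      (𝓝 ((unitIndex 𝔪 : ℝ) * (θ₂ - θ₁) /
        (2 * Real.pi * Nat.card (RayClassGroup 𝔪)))) := by
  let J' : coprimeIdeals 𝔪 := ⟨⟨J, mem_nonZeroDivisors_iff_ne_zero.mpr hJ0⟩, hJ⟩
  have hJ' : J'.1.1 = J := rfl
  obtain ⟨a, ha⟩ : ∃ a, a = (unitIndex 𝔪 : ℝ) * θ₁ / (2 * Real.pi) := ⟨_, rfl⟩
  obtain ⟨b, hb⟩ : ∃ b, b = (unitIndex 𝔪 : ℝ) * θ₂ / (2 * Real.pi) := ⟨_, rfl⟩
  have hba : b - a = (unitIndex 𝔪 : ℝ) * (θ₂ - θ₁) / (2 * Real.pi) := by rw [ha, hb]; ring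
  have hab : a ≤ b := by rw [ha, hb]; gcongr
  have hb1 : b - a ≤ 1 := by rw [hba, div_le_one (by positivity)]; exact hlen
  have hI := tendsto_count_Icc ((expMeanZero_mul_add (expMeanZero_angle φ h𝔪 J') one_ne_zero
    (-a)).intervalMean (by simpa [Finset.card_map] using tendsto_card_atTop h𝔪 J'))
    le_rfl (sub_nonneg.mpr hab) hb1
  rw [sub_zero, hba] at hI
  have h := (tendsto_card_genPrimes h𝔪 J').mul hI
  rw [show (Nat.card (RayClassGroup 𝔪) : ℝ)⁻¹ * ((unitIndex 𝔪 : ℝ) * (θ₂ - θ₁) / (2 * Real.pi)) =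
    (unitIndex 𝔪 : ℝ) * (θ₂ - θ₁) / (2 * Real.pi * Nat.card (RayClassGroup 𝔪)) by
      field_simp] at h
  refine h.congr' ?_
  filter_upwards [(tendsto_card_atTop h𝔪 J').eventually (eventually_gt_atTop 0)] with n hn
  rw [mul_assoc, Finset.card_map, mul_div_cancel₀ _ (Nat.cast_ne_zero.mpr hn.ne'),
    Finset.filter_map, Finset.card_map, hJ']
  refine congrArg (fun m : ℕ => Real.log n / n * (m : ℝ)) (congrArg Finset.card ?_)
  rw [genPrimes, Finset.filter_filter]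
  refine Finset.filter_congr fun v _ => ?_
  simp only [Function.comp_apply, primeOf_code, Int.cast_one, one_mul, ← sub_eq_add_neg]
  rw [← hba, ← exists_add_int_mem_iff]
  constructor
  · rintro ⟨hv, h'⟩
    rw [inArc_iff φ hJ0 hv, ← ha, ← hb]
    exact h'
  · intro h'
    have hv : HasGen 𝔪 J v := by
      obtain ⟨x, hx1, hx, -⟩ := h'
      exact ⟨x, hx1, hx⟩
    exact ⟨hv, by rwa [inArc_iff φ hJ0 hv, ← ha, ← hb] at h'⟩

end FA.ImagQuad

end
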