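import Fermat.Agent.ImagQuadAngles.CMLaw
import Fermat.Agent.GaussianAngles.SatoTate
import Fermat.Agent.Root.SummarySupersingular

/-!
# The thirteen invariants

Each case gives the arcsine law of `a_p / (2 √p)` at the primes modulo which the discriminant of
the field is a square, in the normalisation by `log N / N`.
-/

set_option autoImplicit false
set_option linter.unusedSectionVars false

noncomputable section

open WeierstrassCurve Filter Topology
open FA.Twists
open scoped Classical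

namespace FA.ImagQuad

/-- The primes up to `N` modulo which `d` is a square. -/
def splitPrimes (d : ℤ) (N : ℕ) : Finset ℕ :=
  ((Finset.range (N + 1)).filter Nat.Prime).filter fun p => IsSquare (d : ZMod p)

/-- The arcsine law at the primes of `splitPrimes d`. -/
def HasArcsine (d : ℤ) (a : ℕ → ℝ) : Prop :=
  Tendsto (fun N : ℕ => Real.log N / N * ((splitPrimes d N).card : ℝ)) atTop (𝓝 (1 / 2)) ∧
    ∀ t : ℝ, -1 ≤ t → t ≤ 1 → Tendsto (fun N : ℕ => Real.log N / N *
      (((splitPrimes d N).filter fun p => a p ≤ 2 * t * Real.sqrt p).card : ℝ)) atTop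
      (𝓝 ((1 - Real.arccos t / Real.pi) / 2))

/-- Finitely many numbers do not matter. -/
theorem tendsto_card_congr {S T : ℕ → Finset ℕ} {B : ℕ} {c : ℝ}
    (h : ∀ N p, B < p → (p ∈ S N ↔ p ∈ T N))
    (hT : Tendsto (fun N : ℕ => Real.log N / N * ((T N).card : ℝ)) atTop (𝓝 c)) :
    Tendsto (fun N : ℕ => Real.log N / N * ((S N).card : ℝ)) atTop (𝓝 c) := by
  have hle : ∀ N : ℕ, ∀ U V : Finset ℕ, (∀ p, B < p → p ∈ U → p ∈ V) →
      (U.card : ℝ) ≤ V.card + (B + 1 : ℕ) := fun N U V hUV => by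
    have hsub : U ⊆ V ∪ Finset.range (B + 1) := fun p hp => by
      rw [Finset.mem_union, Finset.mem_range]
      by_cases hpB : B < p
      · exact Or.inl (hUV p hpB hp)
      · exact Or.inr (by omega)
    have h1 := (Finset.card_le_card hsub).trans (Finset.card_union_le _ _)
    rw [Finset.card_range] at h1
    exact_mod_cast h1
  have h0 : Tendsto (fun N : ℕ => Real.log N / N * ((S N).card - (T N).card : ℝ)) atTop (𝓝 0) := by
    refine squeeze_zero_norm (fun N => ?_) (tendsto_log_mul_const ((B + 1 : ℕ) : ℝ))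
    have hl : 0 ≤ Real.log N / N := div_nonneg (Real.log_natCast_nonneg N) (Nat.cast_nonneg N)
    rw [norm_mul, Real.norm_of_nonneg hl, Real.norm_eq_abs]
    exact mul_le_mul_of_nonneg_left (abs_sub_le_iff.mpr
      ⟨by linarith [hle N (S N) (T N) fun p hp => (h N p hp).mp],
        by linarith [hle N (T N) (S N) fun p hp => (h N p hp).mpr]⟩) hl
  have := hT.add h0
  rw [add_zero] at this
  exact this.congr fun N => by ring

theorem HasArcsine.congr {d : ℤ} {a a' : ℕ → ℝ} (h : HasArcsine d a)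
    (e : ∀ p : ℕ, a' p = a p) : HasArcsine d a' := by
  rwa [show a' = a from funext e]

/-- From a law in `(A + B √-n) / 2`. -/
theorem HasLaw.hasArcsine {n : ℕ} {a : ℕ → ℝ} (h : HasLaw n a) (hn : 0 < n) (hsf : Squarefree n)
    {d : ℤ} (hd : ∀ p : ℕ, p.Prime → 2 < p →
      (IsSquare (d : ZMod p) ↔ IsSquare ((-(n : ℤ) : ℤ) : ZMod p))) :
    HasArcsine d a := by
  obtain ⟨N₁, M, V, hR, hM, hper, hlaw⟩ := h
  have := numberField_quadIm n
  have : Algebra.IsQuadraticExtension ℚ (QuadIm n) := ⟨finrank_quadIm hn⟩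
  have := isTotallyComplex_quadIm hn
  have hmem : ∀ N p, N₁ < p → (p ∈ splitPrimes d N ↔ p ∈ splitAbove n N₁ N) := fun N p hp => by
    simp only [splitPrimes, mem_splitAbove, Finset.mem_filter, Finset.mem_range, Nat.lt_succ_iff]
    constructor
    · rintro ⟨⟨h1, h2⟩, h3⟩
      exact ⟨h1, hp, h2, (hd p h2 (hR.2.1.trans_lt hp)).mp h3⟩
    · rintro ⟨h1, -, h2, h3⟩
      exact ⟨⟨h1, h2⟩, (hd p h2 (hR.2.1.trans_lt hp)).mpr h3⟩
  have hc := tendsto_card_splitAbove hn hR
  refine ⟨tendsto_card_congr hmem hc, fun t ht ht' => ?_⟩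
  refine tendsto_card_congr (B := N₁) (T := fun N =>
    (splitAbove n N₁ N).filter fun p => a p ≤ 2 * t * Real.sqrt p)
    (fun N p hp => by simp only [Finset.mem_filter, hmem N p hp]) ?_
  have h := (tendsto_law hn hsf hR hM hper hlaw ht ht').mul hc
  rw [mul_one_div] at h
  refine h.congr fun N => ?_
  rcases Nat.eq_zero_or_pos (splitAbove n N₁ N).card with e | e
  · simp [Finset.card_eq_zero.mp e]
  · field_simp

theorem hasArcsine_1728 (E : WeierstrassCurve ℚ) [E.IsElliptic] (hj : E.j = 1728) :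
    HasArcsine (-4) fun p => (E.LFunction p : ℝ) := by
  have hmem : ∀ N p, 2 < p → (p ∈ splitPrimes (-4) N ↔ p ∈ FA.GaussAngle.splitSet N) :=
    fun N p hp => by
      simp only [splitPrimes, FA.GaussAngle.splitSet, FA.Equidist.primeSet, Finset.mem_filter,
        and_congr_right_iff]
      rintro ⟨-, hpp⟩
      have := Fact.mk hpp
      rw [← Nat.cast_one, ZMod.natCast_eq_natCast_iff']
      have h2 : (2 : ZMod p) ≠ 0 := fun h => by
        have h' : ((2 : ℕ) : ZMod p) = 0 := by exact_mod_cast h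
        exact absurd (Nat.le_of_dvd two_pos ((ZMod.natCast_eq_zero_iff _ _).mp h')) (by omega)
      constructor
      · rintro ⟨c, hc⟩
        have h1 : p % 4 ≠ 3 := ZMod.exists_sq_eq_neg_one_iff.mp ⟨c / 2, by
          push_cast at hc
          field_simp
          linear_combination hc⟩
        have := hpp.mod_two_eq_one_iff_ne_two.mpr (by omega)
        omega
      · intro h
        obtain ⟨c, hc⟩ := ZMod.exists_sq_eq_neg_one_iff.mpr (show p % 4 ≠ 3 by omega)
        exact ⟨2 * c, by push_cast; linear_combination (4 : ZMod p) * hc⟩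
  have hc : Tendsto (fun N : ℕ => Real.log N / N * ((FA.GaussAngle.splitSet N).card : ℝ)) atTop
      (𝓝 (1 / 2)) := FA.GaussAngle.tendsto_card_splitSet.congr fun N => by ring
  refine ⟨tendsto_card_congr hmem hc, fun t ht ht' => ?_⟩
  refine tendsto_card_congr (B := 2) (T := fun N =>
    (FA.GaussAngle.splitSet N).filter fun p => (E.LFunction p : ℝ) ≤ 2 * t * Real.sqrt p)
    (fun N p hp => by simp only [Finset.mem_filter, hmem N p hp]) ?_
  have h := (FA.GaussAngle.satoTate_split E hj ht ht').mul hc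
  rw [mul_one_div] at h
  refine h.congr fun N => ?_
  rcases Nat.eq_zero_or_pos (FA.GaussAngle.splitSet N).card with e | e
  · simp [Finset.card_eq_zero.mp e]
  · field_simp

theorem hasArcsine_287496 (E : WeierstrassCurve ℚ) [E.IsElliptic] (hj : E.j = 287496) :
    HasArcsine (-4) fun p => (E.LFunction p : ℝ) := by
  obtain ⟨m, hm, hL⟩ := FA.CM.exists_congruentCurve_of_j_eq E hj
  have : (FA.CM.congruentCurve m).IsElliptic := ⟨isUnit_iff_ne_zero.mpr (by
    simp only [WeierstrassCurve.Δ, b₂, b₄, b₆, b₈]; ring_nf; simp [hm])⟩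
  refine (hasArcsine_1728 (FA.CM.congruentCurve m) ?_).congr fun p => by rw [hL]
  rw [WeierstrassCurve.j, Units.val_inv_eq_inv_val, coe_Δ', inv_mul_eq_iff_eq_mul₀
    (FA.CM.congruentCurve m).isUnit_Δ.ne_zero]
  simp only [c₄, WeierstrassCurve.Δ, b₂, b₄, b₆, b₈]
  ring

theorem hasArcsine_zero (E : WeierstrassCurve ℚ) [E.IsElliptic] (h4 : E.c₄ = 0) :
    HasArcsine (-3) fun p => (E.LFunction p : ℝ) := by
  have h6 : E.c₆ ≠ 0 := fun h' => E.isUnit_Δ.ne_zero (by
    have := E.c_relation; rw [h4, h'] at this; linarith)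
  obtain ⟨c, z, hc, hfree, hz, hc6⟩ := FA.CM.Cubic.exists_invariants_of_c₄ E h6
  obtain ⟨D, t, hD, ht, rfl⟩ := exists_squarefree_mul_sq hz
  obtain ⟨q, ψ, -, hq, hsq, -, hval⟩ := exists_twistSign_char hD
  have : NeZero q := ⟨hq.ne'⟩
  exact (hasLaw_cubic hsq hc hfree
    (FA.CM.Cubic.LFunction_twist_jZero E hfree hc hD ht h4 hc6 ψ hval)).hasArcsine
    (by norm_num) Nat.prime_three.squarefree fun p _ _ => by norm_num

theorem hasArcsine_54000 (E : WeierstrassCurve ℚ) [E.IsElliptic] (hj : E.j = 54000) :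
    HasArcsine (-3) fun p => (E.LFunction p : ℝ) := by
  obtain ⟨d, hd, hL⟩ := FA.CM.exists_mordell_of_j_eq_54000 E hj
  have : (⟨0, 0, 0, 0, d ^ 3⟩ : WeierstrassCurve ℚ).IsElliptic :=
    ⟨isUnit_iff_ne_zero.mpr (by
      simp only [WeierstrassCurve.Δ, b₂, b₄, b₆, b₈]; ring_nf; simp [hd])⟩
  exact (hasArcsine_zero _ (FA.CM.mordell_invariants _).1).congr fun p => by rw [hL]

theorem hasArcsine_neg_12288000 (E : WeierstrassCurve ℚ) [E.IsElliptic] (hj : E.j = -12288000) :
    HasArcsine (-3) fun p => (E.LFunction p : ℝ) := by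
  obtain ⟨E', z, hz, h4, h6, hL⟩ := FA.CM.exists_twist27_of_j_eq E hj
  have : E'.IsElliptic := ⟨isUnit_iff_ne_zero.mpr fun h0 => by
    have := E'.c_relation
    rw [h0, h4, h6] at this
    have : z ^ 6 = 0 := by linarith
    exact hz ((pow_eq_zero_iff (by norm_num)).mp this)⟩
  exact (hasArcsine_zero E' h4).congr fun p => by rw [hL]

theorem hasArcsine_eight (E : WeierstrassCurve ℚ) [E.IsElliptic] (hj : E.j = 8000) :
    HasArcsine (-8) fun p => (E.LFunction p : ℝ) := by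
  obtain ⟨e4, e6, eΔ⟩ := FA.CM.Eight.curveEight_invariants
  obtain ⟨x, D, hD, hx, h4, h6⟩ := FA.CM.exists_twist_of_j E FA.CM.Eight.curveEight
    (by rw [e4]; decide) (by rw [e6]; decide) (by rw [hj, e4, eΔ]; norm_num)
  obtain ⟨q, ψ, -, hq, hsq, -, hval⟩ := exists_twistSign_char hD
  have : NeZero q := ⟨hq.ne'⟩
  refine (hasLaw_eight hsq
    (FA.CM.Eight.LFunction_eight_twist E hD hx h4 h6 ψ hval)).hasArcsine (by norm_num)
    Nat.prime_two.squarefree fun p hp hp2 => ?_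
  have := Fact.mk hp
  have h2 : (2 : ZMod p) ≠ 0 := fun h => by
    have h' : ((2 : ℕ) : ZMod p) = 0 := by exact_mod_cast h
    exact absurd (Nat.le_of_dvd two_pos ((ZMod.natCast_eq_zero_iff _ _).mp h')) (by omega)
  push_cast
  exact ⟨fun ⟨c, hc⟩ => ⟨c / 2, by field_simp; linear_combination hc⟩,
    fun ⟨c, hc⟩ => ⟨2 * c, by linear_combination (4 : ZMod p) * hc⟩⟩

theorem hasArcsine_seven (E : WeierstrassCurve ℚ) [E.IsElliptic]
    (hj : E.j = -3375 ∨ E.j = 16581375) : HasArcsine (-7) fun p => (E.LFunction p : ℝ) := by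
  have : Fact (Nat.Prime 7) := ⟨Nat.prime_seven⟩
  have : Fact (7 + 1 = 4 * 2) := ⟨rfl⟩
  obtain ⟨W, hW, h4W, h6W, hjW⟩ : ∃ W : WeierstrassCurve ℤ,
      (W = FA.CM.Seven.curveA ∨ W = FA.CM.Seven.curveB) ∧
        W.c₄ ≠ 0 ∧ W.c₆ ≠ 0 ∧ (W.c₄ : ℚ) ^ 3 = E.j * (W.Δ : ℚ) := by
    obtain ⟨a4, a6, aΔ⟩ := FA.CM.Seven.curveA_invariants
    obtain ⟨b4, b6, bΔ⟩ := FA.CM.Seven.curveB_invariants
    rcases hj with hj | hj
    · exact ⟨_, Or.inl rfl, by rw [a4]; decide, by rw [a6]; decide,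
        by rw [hj, a4, aΔ]; norm_num⟩
    · exact ⟨_, Or.inr rfl, by rw [b4]; decide, by rw [b6]; decide,
        by rw [hj, b4, bΔ]; norm_num⟩
  obtain ⟨x, D, hD, hx, h4, h6⟩ := FA.CM.exists_twist_of_j E W h4W h6W hjW
  obtain ⟨q, ψ, -, hq, hsq, -, hval⟩ := exists_twistSign_char hD
  have : NeZero q := ⟨hq.ne'⟩
  exact (hasLaw_odd le_rfl hsq
    (FA.CM.Seven.LFunction_seven_twist hW E hD hx h4 h6 ψ hval) fun p hp hp2 hp7 hs => by
      obtain ⟨⟨b, hb⟩, -⟩ := (FA.CM.Seven.apOfModel_curveA hp hp2.ne' hp7.ne').2 hs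
      exact ⟨_, b, hb⟩).hasArcsine (by norm_num) Nat.prime_seven.squarefree fun p _ _ => by norm_num

theorem hasArcsine_classOne {q n : ℕ} [Fact q.Prime] (hqn : q + 1 = 4 * n) (hodd : Odd n)
    (h2n : 2 ≤ n) {W : WeierstrassCurve ℤ} (hΔ : W.Δ = -(q : ℤ) ^ 3) (hc4 : (q : ℤ) ∣ W.c₄)
    (h4W : W.c₄ ≠ 0) (h6W : W.c₆ ≠ 0) (hlaw : FA.CM.ClassOne.TraceLaw q W) (E : WeierstrassCurve ℚ)
    [E.IsElliptic] (hj : (W.c₄ : ℚ) ^ 3 = E.j * (W.Δ : ℚ)) {d : ℤ} (hd : d = -(q : ℤ)) :
    HasArcsine d fun p => (E.LFunction p : ℝ) := by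
  have := Fact.mk hqn
  have : NeZero n := ⟨by omega⟩
  obtain ⟨x, D, hD, hx, h4, h6⟩ := FA.CM.exists_twist_of_j E W h4W h6W hj
  obtain ⟨r, ψ, -, hr, hsq, -, hval⟩ := exists_twistSign_char hD
  have : NeZero r := ⟨hr.ne'⟩
  exact (hasLaw_odd h2n hsq
    (FA.CM.ClassOne.LFunction_twist hodd h2n hΔ hc4 hlaw E hD hx h4 h6 ψ hval)
    fun p hp hp2 hpq hs => by
      obtain ⟨⟨b, hb⟩, -⟩ := (hlaw p hp hpq.ne').2 hp2.ne' hs
      exact ⟨_, b, hb⟩).hasArcsine (Fact.out : q.Prime).pos (Fact.out : q.Prime).squarefree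
    fun p _ _ => by rw [hd]

theorem hasArcsine_eleven (E : WeierstrassCurve ℚ) [E.IsElliptic] (hj : E.j = -32768) :
    HasArcsine (-11) fun p => (E.LFunction p : ℝ) :=
  haveI := Fact.mk FA.CM.Eleven.prime_eleven_arith
  hasArcsine_classOne (q := 11) (n := 3) (W := FA.CM.Eleven.curveEleven) (by norm_num) (by decide)
    (by norm_num) (by rw [FA.CM.Eleven.curveEleven_invariants.2.2]; norm_num)
    (by rw [FA.CM.Eleven.curveEleven_invariants.1]; norm_num)
    (by rw [FA.CM.Eleven.curveEleven_invariants.1]; decide)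
    (by rw [FA.CM.Eleven.curveEleven_invariants.2.1]; decide) FA.CM.Eleven.traceLaw_eleven E
    (by rw [hj, FA.CM.Eleven.curveEleven_invariants.1,
      FA.CM.Eleven.curveEleven_invariants.2.2]; norm_num) (by norm_num)

theorem hasArcsine_nineteen (E : WeierstrassCurve ℚ) [E.IsElliptic] (hj : E.j = -884736) :
    HasArcsine (-19) fun p => (E.LFunction p : ℝ) :=
  haveI := Fact.mk FA.CM.Nineteen.prime_nineteen_arith
  hasArcsine_classOne (q := 19) (n := 5) (W := FA.CM.Nineteen.curveNineteen) (by norm_num)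
    (by decide) (by norm_num) (by rw [FA.CM.Nineteen.curveNineteen_invariants.2.2]; norm_num)
    (by rw [FA.CM.Nineteen.curveNineteen_invariants.1]; norm_num)
    (by rw [FA.CM.Nineteen.curveNineteen_invariants.1]; decide)
    (by rw [FA.CM.Nineteen.curveNineteen_invariants.2.1]; decide)
    FA.CM.Nineteen.traceLaw_nineteen E
    (by rw [hj, FA.CM.Nineteen.curveNineteen_invariants.1,
      FA.CM.Nineteen.curveNineteen_invariants.2.2]; norm_num) (by norm_num)

theorem hasArcsine_fortyThree (E : WeierstrassCurve ℚ) [E.IsElliptic] (hj : E.j = -884736000) :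
    HasArcsine (-43) fun p => (E.LFunction p : ℝ) :=
  haveI := Fact.mk FA.CM.ClassOne.prime_fortyThree
  hasArcsine_classOne (q := 43) (n := 11) (W := ⟨0, 0, 1, -860, 9707⟩) (by norm_num) (by decide)
    (by norm_num) (by norm_num [WeierstrassCurve.Δ, b₂, b₄, b₆, b₈])
    ⟨960, by norm_num [c₄, b₂, b₄]⟩ (by norm_num [c₄, b₂, b₄]) (by norm_num [c₆, b₂, b₄, b₆])
    FA.CM.ClassOne.traceLaw_fortyThree
    E (by rw [hj]; norm_num [c₄, WeierstrassCurve.Δ, b₂, b₄, b₆, b₈]) (by norm_num)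

theorem hasArcsine_sixtySeven (E : WeierstrassCurve ℚ) [E.IsElliptic]
    (hj : E.j = -147197952000) : HasArcsine (-67) fun p => (E.LFunction p : ℝ) :=
  haveI := Fact.mk FA.CM.ClassOne.prime_sixtySeven
  hasArcsine_classOne (q := 67) (n := 17) (W := ⟨0, 0, 1, -7370, 243528⟩) (by norm_num)
    (by decide) (by norm_num) (by norm_num [WeierstrassCurve.Δ, b₂, b₄, b₆, b₈])
    ⟨5280, by norm_num [c₄, b₂, b₄]⟩ (by norm_num [c₄, b₂, b₄]) (by norm_num [c₆, b₂, b₄, b₆])
    FA.CM.ClassOne.traceLaw_sixtySeven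
    E (by rw [hj]; norm_num [c₄, WeierstrassCurve.Δ, b₂, b₄, b₆, b₈]) (by norm_num)

theorem hasArcsine_oneSixtyThree (E : WeierstrassCurve ℚ) [E.IsElliptic]
    (hj : E.j = -262537412640768000) : HasArcsine (-163) fun p => (E.LFunction p : ℝ) :=
  haveI := Fact.mk FA.CM.ClassOne.prime_oneSixtyThree
  hasArcsine_classOne (q := 163) (n := 41) (W := ⟨0, 0, 1, -2174420, 1234136692⟩) (by norm_num)
    (by decide) (by norm_num) (by norm_num [WeierstrassCurve.Δ, b₂, b₄, b₆, b₈])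
    ⟨640320, by norm_num [c₄, b₂, b₄]⟩ (by norm_num [c₄, b₂, b₄]) (by norm_num [c₆, b₂, b₄, b₆])
    FA.CM.ClassOne.traceLaw_oneSixtyThree
    E (by rw [hj]; norm_num [c₄, WeierstrassCurve.Δ, b₂, b₄, b₆, b₈]) (by norm_num)

end FA.ImagQuad

end
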