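import Fermat.Agent.ImagQuadAngles.Split
import Fermat.Agent.CM.Seven.ModularSeven
import Fermat.Agent.CM.Eight.ModularEight
import Fermat.Agent.CM.Cubic.ModularJZero

/-!
# The laws of the coefficients at the split primes

Twists of the three families of theta coefficients are `re (V (A, B) (A + B √-n))` at
`4 p = A² + n B²` for a periodic unimodular `V`: the odd orders with `V` the twisting character
times `(2 A / q)`, `ℤ[√-2]` with the character of conductor `8`, `ℤ[ω]` with the sextic character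
got by moving `(A + B √-3) / 2` to its primary associate.
-/

set_option autoImplicit false
set_option linter.unusedSectionVars false

noncomputable section

open scoped QuadraticAlgebra

namespace FA.ImagQuad

/-- At the large `4 p = A² + n B²` the value is `re (V (A, B) (A + B √-n))`. -/
def HasLaw (n : ℕ) (a : ℕ → ℝ) : Prop :=
  ∃ (N₁ M : ℕ) (V : ℤ → ℤ → ℂ), HasReps n N₁ ∧ M ≠ 0 ∧
    (∀ A B A' B' : ℤ, V (A + M * A') (B + M * B') = V A B) ∧
    ∀ p : ℕ, p.Prime → N₁ < p → ∀ A B : ℤ, A ^ 2 + (n : ℤ) * B ^ 2 = 4 * p →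
      ‖V A B‖ = 1 ∧ a p = (V A B * (A + B * rootNeg n)).re

variable {r : ℕ}

theorem sign_of_prime [NeZero r] {ψ : DirichletCharacter ℂ r}
    (hsq : ∀ u : (ZMod r)ˣ, ψ u * ψ u = 1) {p : ℕ} (hp : p.Prime) (hr : r < p) :
    ψ (p : ZMod r) = 1 ∨ ψ (p : ZMod r) = -1 := by
  have hu : IsUnit (p : ZMod r) := (ZMod.isUnit_iff_coprime p r).mpr
    ((Nat.Prime.coprime_iff_not_dvd hp).mpr fun h =>
      absurd (Nat.le_of_dvd (NeZero.pos r) h) (by omega))
  obtain ⟨u, hu⟩ := hu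
  exact mul_self_eq_one_iff.mp (hu ▸ hsq u)

theorem norm_form_shift {n : ℕ} (A B A' B' : ℤ) {M k : ℕ} (hM : M = 4 * k) :
    ((((A + M * A') ^ 2 + (n : ℤ) * (B + M * B') ^ 2) / 4 : ℤ) : ZMod k) =
      (((A ^ 2 + (n : ℤ) * B ^ 2) / 4 : ℤ) : ZMod k) := by
  have e : (A + M * A') ^ 2 + (n : ℤ) * (B + M * B') ^ 2 = A ^ 2 + (n : ℤ) * B ^ 2 +
      4 * ((k : ℤ) * (2 * A * A' + M * A' ^ 2 + n * (2 * B * B' + M * B' ^ 2))) := by
    subst hM; push_cast; ring
  rw [e, Int.add_mul_ediv_left _ _ (by norm_num : (4 : ℤ) ≠ 0), Int.cast_add, Int.cast_mul,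
    Int.cast_natCast, ZMod.natCast_self, zero_mul, add_zero]

section odd

open FA.CM.OddOrder

/-- **The odd orders.** -/
theorem hasLaw_odd {q m : ℕ} [Fact q.Prime] [Fact (q + 1 = 4 * m)] (hm : 2 ≤ m) {L : ℕ → ℤ}
    [NeZero r] {ψ : DirichletCharacter ℂ r} (hsq : ∀ u : (ZMod r)ˣ, ψ u * ψ u = 1)
    (hL : ∀ p : ℕ, (L p : ℂ) = ψ (p : ZMod r) * oddCoeff q m p)
    (hrep : ∀ p : ℕ, p.Prime → 2 < p → q < p → IsSquare (-(q : ZMod p)) →
      ∃ A B : ℤ, 4 * (p : ℤ) = A ^ 2 + (q : ℤ) * B ^ 2) :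
    HasLaw q fun p => (L p : ℝ) := by
  have : NeZero m := ⟨by omega⟩
  have hq := (Fact.out : q.Prime)
  obtain ⟨χ, hχ⟩ : ∃ χ : ℤ → ℤ, χ = fun A : ℤ =>
      quadraticChar (ZMod q) 2 * quadraticChar (ZMod q) (A : ZMod q) := ⟨_, rfl⟩
  obtain ⟨V, hV⟩ : ∃ V : ℤ → ℤ → ℂ, V = fun A B =>
      ψ (((A ^ 2 + (q : ℤ) * B ^ 2) / 4 : ℤ) : ZMod r) * (χ A : ℂ) := ⟨_, rfl⟩
  refine ⟨max (max q r) 2, 4 * (r * q), V, ⟨le_max_of_le_left (le_max_left _ _), le_max_right _ _,
    fun p hp hpN hs => ?_⟩, by simp [NeZero.ne r, hq.ne_zero], fun A B A' B' => ?_,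
    fun p hp hpN A B hAB => ?_⟩
  · simp only [max_lt_iff] at hpN
    obtain ⟨A, B, h⟩ := hrep p hp hpN.2 hpN.1.1 (by push_cast at hs; exact hs)
    exact ⟨A, B, h.symm⟩
  · simp only [hV]
    congr 2
    · have h := norm_form_shift (n := q) A B (q * A') (q * B') (M := 4 * r) rfl
      rw [show ((4 * r : ℕ) : ℤ) * (q * A') = ((4 * (r * q) : ℕ) : ℤ) * A' by push_cast; ring,
        show ((4 * r : ℕ) : ℤ) * (q * B') = ((4 * (r * q) : ℕ) : ℤ) * B' by push_cast; ring] at h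
      exact h
    · rw [hχ]; simp
  simp only [max_lt_iff] at hpN
  obtain ⟨⟨hpq, hpr⟩, hp2⟩ := hpN
  have hA : (A : ZMod q) ≠ 0 := fun h0 => by
    obtain ⟨c, rfl⟩ := (ZMod.intCast_zmod_eq_zero_iff_dvd A q).mp h0
    have h4 : q ∣ 4 * p := Int.natCast_dvd_natCast.mp
      ⟨q * c ^ 2 + B ^ 2, by push_cast; linear_combination -hAB⟩
    rcases hq.dvd_mul.mp h4 with h | h
    · have hq2 := (Nat.prime_dvd_prime_iff_eq hq Nat.prime_two).mp
        (hq.dvd_of_dvd_pow (show q ∣ 2 ^ 2 from h))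
      have := (Fact.out : q + 1 = 4 * m)
      omega
    · have := (Nat.prime_dvd_prime_iff_eq hq hp).mp h
      omega
  have h2 : (2 : ZMod q) ≠ 0 := fun h =>
    quadraticChar_two_ne_zero (m := m) q (by rw [h, MulChar.map_zero])
  have hs : χ A = 1 ∨ χ A = -1 := by
    rw [hχ]
    rcases quadraticChar_dichotomy h2 with h | h <;>
      rcases quadraticChar_dichotomy hA with h' | h' <;> simp [h, h']
  have hval : quadraticChar (ZMod q) ((χ A * A : ℤ) : ZMod q) = quadraticChar (ZMod q) 2 := by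
    rcases hs with e | e
    · rw [e, one_mul]
      have e' : quadraticChar (ZMod q) 2 * quadraticChar (ZMod q) (A : ZMod q) = 1 := by
        rw [hχ] at e; exact e
      exact (Int.eq_of_mul_eq_one e').symm
    · have e' : quadraticChar (ZMod q) 2 * quadraticChar (ZMod q) (A : ZMod q) = -1 := by
        rw [hχ] at e; exact e
      rw [e, Int.cast_mul, map_mul, Int.cast_neg, Int.cast_one,
        quadraticChar_neg_one_eq (m := m) q]
      have h1 := quadraticChar_sq_one hA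
      linear_combination (quadraticChar (ZMod q) 2) * h1 -
        quadraticChar (ZMod q) (A : ZMod q) * e'
  have hsq1 : χ A ^ 2 = 1 := by rcases hs with e | e <;> simp [e]
  have hc := oddCoeff_split q (m := m) hp (by omega) (a := χ A * A) (b := B)
    (by rw [mul_pow, hsq1, one_mul]; exact hAB.symm) hval 1
  rw [if_neg hp.not_dvd_one, add_zero, mul_one, oddCoeff_one q hm, mul_one] at hc
  have hVp : V A B = ψ (p : ZMod r) * (χ A : ℂ) := by
    simp only [hV, hAB, mul_comm (4 : ℤ), Int.mul_ediv_cancel _ (by norm_num : (4 : ℤ) ≠ 0),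
      Int.cast_natCast]
  have hLp := hL p
  rw [hc] at hLp
  push_cast at hLp
  rw [hVp]
  refine ⟨?_, ?_⟩
  · rcases sign_of_prime hsq hp hpr with e | e <;> rcases hs with e' | e' <;> simp [e, e']
  · have e := congrArg Complex.re hLp
    rcases sign_of_prime hsq hp hpr with e1 | e1 <;> rcases hs with e2 | e2 <;>
      simp [e1, e2, rootNeg] at e ⊢ <;> exact e

end odd

section eight

open FA.CM.Eight

/-- **`ℤ[√-2]`.** -/
theorem hasLaw_eight {L : ℕ → ℤ} [NeZero r] {ψ : DirichletCharacter ℂ r}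
    (hsq : ∀ u : (ZMod r)ˣ, ψ u * ψ u = 1)
    (hL : ∀ p : ℕ, (L p : ℂ) = ψ (p : ZMod r) * eightCoeff p) :
    HasLaw 2 fun p => (L p : ℝ) := by
  obtain ⟨V, hV⟩ : ∃ V : ℤ → ℤ → ℂ, V = fun A B =>
      ψ (((A ^ 2 + ((2 : ℕ) : ℤ) * B ^ 2) / 4 : ℤ) : ZMod r) *
        (eightChar ⟨A / 2, B / 2⟩ : ℂ) := ⟨_, rfl⟩
  refine ⟨max r 2, 4 * (r * 4), V, ⟨le_max_right _ _, le_max_right _ _, fun p hp hpN hs => ?_⟩,
    by simp [NeZero.ne r], fun A B A' B' => ?_, fun p hp hpN A B hAB => ?_⟩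
  · simp only [max_lt_iff] at hpN
    obtain ⟨a, b, -, h, -⟩ := (apOfModel_eight hp (by omega)).2 (by simpa using hs)
    exact ⟨2 * a, 2 * b, by push_cast; linear_combination (-4 : ℤ) * h⟩
  · simp only [hV]
    congr 2
    · have h := norm_form_shift (n := 2) A B (4 * A') (4 * B') (M := 4 * r) rfl
      rw [show ((4 * r : ℕ) : ℤ) * (4 * A') = ((4 * (r * 4) : ℕ) : ℤ) * A' by push_cast; ring,
        show ((4 * r : ℕ) : ℤ) * (4 * B') = ((4 * (r * 4) : ℕ) : ℤ) * B' by push_cast; ring] at h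
      exact h
    · have eA : (A + ((4 * (r * 4) : ℕ) : ℤ) * A') / 2 = A / 2 + 8 * (r * A') := by
        push_cast
        rw [show A + 4 * ((r : ℤ) * 4) * A' = A + 2 * (8 * (r * A')) by ring,
          Int.add_mul_ediv_left _ _ two_ne_zero]
      have eB : (B + ((4 * (r * 4) : ℕ) : ℤ) * B') / 2 = B / 2 + 8 * (r * B') := by
        push_cast
        rw [show B + 4 * ((r : ℤ) * 4) * B' = B + 2 * (8 * (r * B')) by ring,
          Int.add_mul_ediv_left _ _ two_ne_zero]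
      rw [eA, eB]
      simp [eightChar, show (8 : ZMod 8) = 0 by decide, show (8 : ZMod 4) = 0 by decide]
  simp only [max_lt_iff] at hpN
  obtain ⟨hpr, hp2⟩ := hpN
  push_cast at hAB
  obtain ⟨a, rfl⟩ : (2 : ℤ) ∣ A := Int.prime_two.dvd_of_dvd_pow (n := 2)
    ⟨2 * p - B ^ 2, by linear_combination hAB⟩
  obtain ⟨b, rfl⟩ : (2 : ℤ) ∣ B := Int.prime_two.dvd_of_dvd_pow (n := 2)
    ⟨p - a ^ 2, mul_left_cancel₀ (two_ne_zero (α := ℤ)) (by linear_combination hAB)⟩
  have hp' : (p : ℤ) = a ^ 2 + 2 * b ^ 2 := by linarith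
  have hs : eightChar ⟨a, b⟩ = 1 ∨ eightChar ⟨a, b⟩ = -1 := by
    have hodd : ¬ (2 : ℤ) ∣ a := fun ⟨c, hc⟩ => by
      have : 2 ∣ p := Int.natCast_dvd_natCast.mp
        ⟨2 * c ^ 2 + b ^ 2, by rw [hp', hc]; push_cast; ring⟩
      exact absurd ((Nat.prime_dvd_prime_iff_eq Nat.prime_two hp).mp this) (by omega)
    have key : ∀ x : ZMod 8, ∀ y : ZMod 4, (x = 1 ∨ x = 3 ∨ x = 5 ∨ x = 7) →
        gEight x * cEight y = 1 ∨ gEight x * cEight y = -1 := by decide
    refine key _ _ ?_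
    rcases (show a % 8 = 1 ∨ a % 8 = 3 ∨ a % 8 = 5 ∨ a % 8 = 7 by omega) with e | e | e | e
    · exact Or.inl ((ZMod.intCast_eq_intCast_iff' a 1 8).mpr (by omega))
    · exact Or.inr (Or.inl ((ZMod.intCast_eq_intCast_iff' a 3 8).mpr (by omega)))
    · exact Or.inr (Or.inr (Or.inl ((ZMod.intCast_eq_intCast_iff' a 5 8).mpr (by omega))))
    · exact Or.inr (Or.inr (Or.inr ((ZMod.intCast_eq_intCast_iff' a 7 8).mpr (by omega))))
  have hVp : V (2 * a) (2 * b) = ψ (p : ZMod r) * (eightChar ⟨a, b⟩ : ℂ) := by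
    simp only [hV, Nat.cast_ofNat, show (2 * a) ^ 2 + 2 * (2 * b) ^ 2 = (p : ℤ) * 4 by linarith,
      Int.mul_ediv_cancel _ (by norm_num : (4 : ℤ) ≠ 0), Int.cast_natCast,
      Int.mul_ediv_cancel_left _ two_ne_zero]
  have hLp := hL p
  rw [hVp]
  rcases hs with e | e
  · have h := eightCoeff_split hp (by omega) hp' e 1
    rw [if_neg hp.not_dvd_one, add_zero, mul_one, eightCoeff_one, mul_one] at h
    rw [h] at hLp
    have e' := congrArg Complex.re hLp
    rcases sign_of_prime hsq hp hpr with e1 | e1 <;> simp [e, e1, rootNeg] at e' ⊢ <;> exact e'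
  · have h := eightCoeff_split hp (by omega) (a := -a) (b := -b) (by linarith)
      (by rw [show (⟨-a, -b⟩ : EightInt) = -⟨a, b⟩ from rfl, eightChar_neg, e, neg_neg]) 1
    rw [if_neg hp.not_dvd_one, add_zero, mul_one, eightCoeff_one, mul_one] at h
    rw [h] at hLp
    have e' := congrArg Complex.re hLp
    rcases sign_of_prime hsq hp hpr with e1 | e1 <;> simp [e, e1, rootNeg] at e' ⊢ <;> exact e'

end eight

section cubic

open FA.CM.Cubic

local notation "ℤω" => FA.CM.Cubic.EInt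

/-- The unit carrying an element prime to `3` to a primary one. -/
def unitFix (α : ℤω) : ℤω :=
  if α.im % 3 = 0 then (if α.re % 3 = 1 then 1 else -1)
  else if α.re % 3 = 0 then (if α.im % 3 = 1 then ⟨-1, -1⟩ else ⟨1, 1⟩)
  else (if α.re % 3 = 1 then ⟨0, -1⟩ else ⟨0, 1⟩)

theorem intCast_mul_mk (z x y : ℤ) : (z : ℤω) * ⟨x, y⟩ = ⟨z * x, z * y⟩ := by
  ext <;> simp

theorem norm_unitFix (α : ℤω) : (unitFix α).norm = 1 := by
  rw [unitFix]; split_ifs <;> simp [norm_eq]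

theorem unitFix_add (α γ : ℤω) : unitFix (α + (3 : ℤω) * γ) = unitFix α := by
  have e1 : (α + (3 : ℤω) * γ).re = α.re + 3 * γ.re := by simp
  have e2 : (α + (3 : ℤω) * γ).im = α.im + 3 * γ.im := by simp
  simp only [unitFix, e1, e2, Int.add_mul_emod_self_left]

theorem isPrimary_unitFix_mul {α : ℤω} (h : α.norm % 3 ≠ 0) : IsPrimary (unitFix α * α) := by
  have h' : (α.re + α.im) % 3 ≠ 0 := fun e => h (by
    rw [norm_eq, show α.re ^ 2 - α.re * α.im + α.im ^ 2 =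
      (α.re + α.im) * (α.re + α.im) + 3 * -(α.re * α.im) by ring, Int.add_mul_emod_self_left,
      Int.mul_emod, e]
    rfl)
  rw [unitFix, IsPrimary]
  split_ifs <;> simp <;> omega

theorem eq_one_of_isPrimary_of_norm {α : ℤω} (h : IsPrimary α) (hn : α.norm = 1) : α = 1 := by
  obtain ⟨h1, h2⟩ := h
  rw [norm_eq] at hn
  have hb : -2 < α.im ∧ α.im < 2 := by
    constructor <;> nlinarith [sq_nonneg (2 * α.re - α.im)]
  have him : α.im = 0 := by omega
  rw [him] at hn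
  have hre : α.re = 1 := by
    rcases mul_self_eq_one_iff.mp (show α.re * α.re = 1 by linarith) with e | e <;> omega
  exact QuadraticAlgebra.ext (by simpa using hre) (by simpa using him)

/-- A primary element of prime norm `p` is the primary prime of a cube root of unity mod `p`. -/
theorem exists_eq_primaryPrime {p : ℕ} [hp : Fact p.Prime] (hp3 : p ≠ 3) {π : ℤω}
    (hπ : IsPrimary π) (hn : π.norm = (p : ℤ)) :
    ∃ (j : ZMod p) (hj : j ^ 2 + j + 1 = 0), π = primaryPrime hj hp3 := by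
  have hn' := hn
  rw [norm_eq] at hn
  have him : (π.im : ZMod p) ≠ 0 := fun h0 => by
    obtain ⟨b, hb⟩ := (ZMod.intCast_zmod_eq_zero_iff_dvd _ p).mp h0
    have hq := Nat.prime_iff_prime_int.mp hp.out
    obtain ⟨a, ha⟩ := hq.dvd_of_dvd_pow (n := 2) (a := π.re)
      ⟨1 + π.re * b - p * b ^ 2, by rw [hb] at hn; linear_combination hn⟩
    have : (p : ℤ) ∣ 1 := ⟨a ^ 2 - a * b + b ^ 2,
      mul_left_cancel₀ hq.ne_zero (by rw [hb, ha] at hn; linear_combination -hn)⟩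
    exact hp.out.not_dvd_one (Int.natCast_dvd_natCast.mp this)
  have hz : (π.re : ZMod p) ^ 2 - π.re * π.im + (π.im : ZMod p) ^ 2 = 0 := by
    have := congrArg (Int.cast : ℤ → ZMod p) hn
    push_cast at this
    rw [this, ZMod.natCast_self]
  have hj : (-(π.re : ZMod p) / π.im) ^ 2 + -(π.re : ZMod p) / π.im + 1 = 0 := by
    field_simp
    linear_combination hz
  refine ⟨_, hj, ?_⟩
  obtain ⟨γ, hγ⟩ := (primaryPrime_dvd_iff hj hp3).mpr
    (show evalW hj π = 0 by rw [evalW_apply]; field_simp; ring)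
  have hγn : γ.norm = 1 := by
    have e := congrArg QuadraticAlgebra.norm hγ
    rw [map_mul, hn', norm_primaryPrime] at e
    exact mul_left_cancel₀ (Int.natCast_ne_zero.mpr hp.out.ne_zero)
      (e.symm.trans (mul_one _).symm)
  exact hγ.trans (by rw [eq_one_of_isPrimary_of_norm
    ((isPrimary_primaryPrime hj hp3).of_mul (by rw [← hγ]; exact hπ)) hγn, mul_one])

theorem norm_toC_sq (α : ℤω) : ‖toC α‖ ^ 2 = (α.norm : ℝ) := by
  have h := congrArg toC (norm_mul_star α)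
  rw [map_mul, toC_star, map_intCast, Complex.mul_conj'] at h
  exact_mod_cast h

/-- **`ℤ[ω]`.** -/
theorem hasLaw_cubic {L : ℕ → ℤ} [NeZero r] {ψ : DirichletCharacter ℂ r}
    (hsq : ∀ u : (ZMod r)ˣ, ψ u * ψ u = 1) {c : ℤ} (hc : c ≠ 0)
    (hfree : ∀ q : ℕ, q.Prime → ¬ (q : ℤ) ^ 3 ∣ c)
    (hL : ∀ p : ℕ, (L p : ℂ) = ψ (p : ZMod r) * ((jZeroModel (c : ℚ)).LFunction p : ℂ)) :
    HasLaw 3 fun p => (L p : ℝ) := by
  obtain ⟨φ, hφ⟩ := exists_isWeight (pow_ne_zero 2 hc)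
  obtain ⟨β, hβ⟩ : ∃ β : ℤ → ℤ → ℤω, β = fun A B => (⟨(A + B) / 2, B⟩ : ℤω) := ⟨_, rfl⟩
  obtain ⟨V, hV⟩ : ∃ V : ℤ → ℤ → ℂ, V = fun A B =>
      ψ (((A ^ 2 + ((3 : ℕ) : ℤ) * B ^ 2) / 4 : ℤ) : ZMod r) *
        toC (φ (unitFix (β A B) * β A B) * unitFix (β A B)) := ⟨_, rfl⟩
  refine ⟨max (max r c.natAbs) 3, 4 * (r * (9 * c.natAbs ^ 2)), V,
    ⟨le_max_right _ _, le_max_of_le_right (by norm_num), fun p hp hpN hs => ?_⟩,
    by simp [NeZero.ne r, hc], fun A B A' B' => ?_, fun p hp hpN A B hAB => ?_⟩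
  · simp only [max_lt_iff] at hpN
    have := Fact.mk hp
    obtain ⟨s, hs⟩ := hs
    push_cast at hs
    have h2 : (2 : ZMod p) ≠ 0 := fun h => by
      have : ((2 : ℕ) : ZMod p) = 0 := by exact_mod_cast h
      exact absurd ((Nat.prime_dvd_prime_iff_eq hp Nat.prime_two).mp
        ((ZMod.natCast_eq_zero_iff _ _).mp this)) (by omega)
    have hj : ((s - 1) / 2) ^ 2 + (s - 1) / 2 + 1 = 0 := by
      field_simp
      linear_combination -hs
    have hn := norm_primaryPrime hj (show p ≠ 3 by omega)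
    rw [norm_eq] at hn
    exact ⟨2 * (primaryPrime hj _).re - (primaryPrime hj _).im, (primaryPrime hj _).im,
      by push_cast; linear_combination (4 : ℤ) * hn⟩
  · obtain ⟨k, hk⟩ : ∃ k : ℤ, k = r * c ^ 2 := ⟨_, rfl⟩
    have hM : ((4 * (r * (9 * c.natAbs ^ 2)) : ℕ) : ℤ) = 2 * (18 * k) := by
      push_cast; rw [sq_abs, hk]; ring
    have e : β (A + ((4 * (r * (9 * c.natAbs ^ 2)) : ℕ) : ℤ) * A')
        (B + ((4 * (r * (9 * c.natAbs ^ 2)) : ℕ) : ℤ) * B') =
        β A B + ((9 * c ^ 2 : ℤ) : ℤω) * ⟨2 * r * (A' + B'), 4 * r * B'⟩ := by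
      simp only [hβ, hM]
      rw [show A + 2 * (18 * k) * A' + (B + 2 * (18 * k) * B') =
        A + B + 2 * (18 * k * (A' + B')) by ring, Int.add_mul_ediv_left _ _ two_ne_zero, hk]
      rw [intCast_mul_mk]
      ext <;> simp <;> ring
    have hu : unitFix (β A B + ((9 * c ^ 2 : ℤ) : ℤω) * ⟨2 * r * (A' + B'), 4 * r * B'⟩) =
        unitFix (β A B) := by
      rw [show ((9 * c ^ 2 : ℤ) : ℤω) * ⟨2 * r * (A' + B'), 4 * r * B'⟩ =
        (3 : ℤω) * ((3 * (c : ℤω) ^ 2) * ⟨2 * r * (A' + B'), 4 * r * B'⟩) by push_cast; ring,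
        unitFix_add]
    simp only [hV, e, hu]
    rw [mul_add (unitFix (β A B)), mul_left_comm (unitFix (β A B)), hφ.periodic]
    congr 2
    have h := norm_form_shift (n := 3) A B ((9 * c.natAbs ^ 2 : ℕ) * A')
      ((9 * c.natAbs ^ 2 : ℕ) * B') (M := 4 * r) rfl
    convert h using 5 <;> push_cast <;> ring
  simp only [max_lt_iff] at hpN
  obtain ⟨⟨hpr, hpc⟩, hp3⟩ := hpN
  have := Fact.mk hp
  push_cast at hAB
  have hhalf : 2 * ((A + B) / 2) = A + B := by
    obtain ⟨k, hk⟩ : (2 : ℤ) ∣ A + B := Int.prime_two.dvd_of_dvd_pow (n := 2)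
      ⟨2 * p - B ^ 2 + A * B, by linear_combination hAB⟩
    omega
  obtain ⟨u, hu⟩ : ∃ u, u = unitFix (β A B) := ⟨_, rfl⟩
  obtain ⟨π, hπ⟩ : ∃ π, π = u * β A B := ⟨_, rfl⟩
  have hβn : (β A B).norm = (p : ℤ) := by
    simp only [hβ, norm_eq]
    refine mul_left_cancel₀ (four_ne_zero (α := ℤ)) ?_
    linear_combination hAB + (2 * ((A + B) / 2) + A - B) * hhalf
  have hπp : IsPrimary π := by
    rw [hπ, hu]
    refine isPrimary_unitFix_mul fun e => ?_
    rw [hβn] at e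
    have : 3 ∣ p := by omega
    exact absurd ((Nat.prime_dvd_prime_iff_eq Nat.prime_three hp).mp this) (by omega)
  obtain ⟨j, hj, hje⟩ := exists_eq_primaryPrime (p := p) (by omega) hπp
    (by rw [hπ, map_mul, hu, norm_unitFix, one_mul, hβn])
  have hcp : ¬ (p : ℤ) ∣ c ^ 2 := fun h => by
    have := Nat.le_of_dvd (Int.natAbs_pos.mpr hc)
      (Int.natCast_dvd.mp ((Nat.prime_iff_prime_int.mp hp).dvd_of_dvd_pow h))
    omega
  have hcz : ((c ^ 2 : ℤ) : ZMod p) ≠ 0 := by rwa [Ne, ZMod.intCast_zmod_eq_zero_iff_dvd]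
  have hφπ : φ π = cubicChar hj (by omega) ((c ^ 2 : ℤ) : ZMod p) := by
    rw [hje]; exact hφ.map_primaryPrime p j hj _ hcz
  have hχ : (φ π).norm = 1 := by
    rw [hφπ]
    rcases isCU_cubicChar hj (show p ≠ 3 by omega) ((c ^ 2 : ℤ) : ZMod p) with e | e | e | e
    · exact absurd (cubicChar_pow_three hj (show p ≠ 3 by omega) hcz) (by rw [e]; simp)
    all_goals rw [e]; simp [norm_eq]
  have h1 := primarySum_split hφ hj (show p ≠ 3 by omega) hcp 1
  rw [if_neg hp.not_dvd_one, add_zero, primarySum_one hφ, mul_one, mul_one,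
    ← LFunction_eq_primarySum hfree hφ p, ← hφπ, ← hje] at h1
  have h2 : (((jZeroModel (c : ℚ)).LFunction p : ℤ) : ℂ) =
      toC (φ π * π) + starRingEnd ℂ (toC (φ π * π)) := by
    rw [← toC_star, ← map_add, ← h1, map_intCast]
  have hVp : V A B = ψ (p : ZMod r) * toC (φ π * u) := by
    simp only [hV, Nat.cast_ofNat, show A ^ 2 + 3 * B ^ 2 = (p : ℤ) * 4 by linarith,
      Int.mul_ediv_cancel _ (by norm_num : (4 : ℤ) ≠ 0), Int.cast_natCast, hπ, hu]
  have htoC : 2 * toC (β A B) = A + B * rootNeg 3 := by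
    simp only [two_mul_toC, hβ, rootNeg, hhalf, Nat.cast_ofNat]
    push_cast
    ring
  have hkey : toC (φ π * u) * (A + B * rootNeg 3) = 2 * toC (φ π * π) := by
    rw [← htoC, hπ, map_mul, map_mul, map_mul]; ring
  rw [hVp]
  refine ⟨?_, ?_⟩
  · have : ‖toC (φ π * u)‖ ^ 2 = 1 := by
      rw [norm_toC_sq, map_mul, hχ, hu, norm_unitFix]; simp
    rw [norm_mul, (pow_eq_one_iff_of_nonneg (norm_nonneg _) two_ne_zero).mp this]
    rcases sign_of_prime hsq hp hpr with e | e <;> simp [e]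
  · have e := congrArg Complex.re (hL p)
    rw [h2, Complex.add_conj] at e
    rw [mul_assoc, hkey]
    rcases sign_of_prime hsq hp hpr with e1 | e1 <;> simp [e1] at e ⊢ <;> linarith

end cubic

end FA.ImagQuad

end
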