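import Fermat.Agent.ImagQuadAngles.Lattice
import Fermat.Agent.NaturalChebotarev.Continuation

/-!
# Hecke characters with infinity type `k` of an imaginary quadratic field

A multiplicative function on the ideals that vanishes exactly off those prime to `𝔪` and takes the
value `(φ x / |φ x|) ^ k` at `(x)` for `x ≡ 1` modulo `𝔪`. Its values have absolute value `1`, on
principal ideals it is a function of the residue times the direction, and for `k ≠ 0` its L-series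
is a combination of periodic sums over the integers, so continues to `1 / 2 < re s`.
-/

set_option autoImplicit false
set_option linter.unusedSectionVars false

noncomputable section

open NumberField IsDedekindDomain Ideal Filter Topology Module
open FA.GaussAngle (dir dir_mul norm_dir g g_zero g_of_ne plane)
open FA.Hecke (lHom lHom_apply heckeL classPart exists_coprime_class unitCount unitCount_pos
  pow_unitCount_mk mul_sup_eq_top span_sup_congr)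
open FA.AbelianZeta (normPow)
open scoped nonZeroDivisors Classical

namespace FA.ImagQuad

variable {K : Type*} [Field K] [NumberField K] [IsTotallyComplex K]
  [Algebra.IsQuadraticExtension ℚ K] {φ : K →+* ℂ}

/-- **A Hecke character modulo `𝔪` with `f ((x)) = (φ x / |φ x|) ^ k` for `x ≡ 1`.** -/
structure IsAngChar (φ : K →+* ℂ) (𝔪 : Ideal (𝓞 K)) (k : ℤ) (f : Ideal (𝓞 K) →* ℂ) :
    Prop where
  ne_bot : 𝔪 ≠ ⊥
  ne_zero_iff : ∀ I : Ideal (𝓞 K), I ≠ ⊥ → (f I ≠ 0 ↔ I ⊔ 𝔪 = ⊤)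
  ray : ∀ x : 𝓞 K, x ≠ 0 → x - 1 ∈ 𝔪 → f (Ideal.span {x}) = dir (φ x) ^ k

namespace IsAngChar

variable {𝔪 : Ideal (𝓞 K)} {k l : ℤ} {f f' : Ideal (𝓞 K) →* ℂ}

theorem eq_zero_of_not (h : IsAngChar φ 𝔪 k f) {I : Ideal (𝓞 K)} (hI : I ≠ ⊥)
    (hc : ¬I ⊔ 𝔪 = ⊤) : f I = 0 :=
  not_not.mp fun h0 => hc ((h.ne_zero_iff I hI).mp h0)

theorem norm_eq_one (h : IsAngChar φ 𝔪 k f) {I : Ideal (𝓞 K)} (hI : I ≠ ⊥) (h0 : f I ≠ 0) :
    ‖f I‖ = 1 := by
  have hc := (h.ne_zero_iff I hI).mp h0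
  let I₀ : (Ideal (𝓞 K))⁰ := ⟨I, mem_nonZeroDivisors_iff_ne_zero.mpr hI⟩
  have h1 : ClassGroup.mk0 (I₀ ^ classNumber K) = 1 := by
    rw [_root_.map_pow, classNumber, pow_card_eq_one]
  obtain ⟨x, hx⟩ := (ClassGroup.mk0_eq_one_iff (SetLike.coe_mem (I₀ ^ classNumber K))).mp h1
  have hx' : I ^ classNumber K = Ideal.span {x} := hx
  have hx0 : x ≠ 0 := fun h0 => pow_ne_zero (classNumber K) hI (by rw [hx', h0]; simp)
  have hcx : Ideal.span {x} ⊔ 𝔪 = ⊤ := by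
    rw [← hx', ← Ideal.isCoprime_iff_sup_eq]
    exact (Ideal.isCoprime_iff_sup_eq.mpr hc).pow_left
  have hray : x ^ unitCount 𝔪 - 1 ∈ 𝔪 := by
    rw [← Ideal.Quotient.eq_zero_iff_mem, map_sub, map_one, _root_.map_pow,
      pow_unitCount_mk h.ne_bot hcx, sub_self]
  have hv := h.ray _ (pow_ne_zero _ hx0) hray
  rw [← Ideal.span_singleton_pow, ← hx', ← pow_mul, _root_.map_pow] at hv
  have hn := congrArg norm hv
  rw [norm_pow, norm_zpow, norm_dir (map_ne_zero' φ (pow_ne_zero _ hx0)), one_zpow] at hn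
  exact (pow_eq_one_iff_of_nonneg (norm_nonneg _)
    (Nat.mul_pos (classNumber_pos K) (unitCount_pos h.ne_bot)).ne').mp hn

theorem norm_le (h : IsAngChar φ 𝔪 k f) {I : Ideal (𝓞 K)} (hI : I ≠ ⊥) : ‖f I‖ ≤ 1 := by
  by_cases h0 : f I = 0
  · simp [h0]
  · exact (h.norm_eq_one hI h0).le

theorem mul (h : IsAngChar φ 𝔪 k f) (h' : IsAngChar φ 𝔪 l f') :
    IsAngChar φ 𝔪 (k + l) (f * f') where
  ne_bot := h.ne_bot
  ne_zero_iff I hI := by
    rw [MonoidHom.mul_apply, mul_ne_zero_iff, h.ne_zero_iff I hI, h'.ne_zero_iff I hI, and_self]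
  ray x hx0 hx := by
    rw [MonoidHom.mul_apply, h.ray x hx0 hx, h'.ray x hx0 hx, zpow_add₀]
    rw [← norm_ne_zero_iff, norm_dir (map_ne_zero' φ hx0)]
    exact one_ne_zero

/-- The conjugate character. -/
theorem conj (h : IsAngChar φ 𝔪 k f) :
    IsAngChar φ 𝔪 (-k) ((starRingEnd ℂ).toMonoidHom.comp f) where
  ne_bot := h.ne_bot
  ne_zero_iff I hI := by
    rw [MonoidHom.comp_apply, ← h.ne_zero_iff I hI]
    exact _root_.map_ne_zero (starRingEnd ℂ)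
  ray x hx0 hx := by
    rw [MonoidHom.comp_apply, h.ray x hx0 hx]
    show (starRingEnd ℂ) (dir (φ x) ^ k) = _
    rw [map_zpow₀, zpow_neg, ← inv_zpow, Complex.inv_eq_conj (norm_dir (map_ne_zero' φ hx0))]

theorem dir_ne_zero {x : 𝓞 K} (hx : x ≠ 0) : dir (φ x) ≠ 0 := by
  rw [← norm_ne_zero_iff, norm_dir (map_ne_zero' φ hx)]
  exact one_ne_zero

/-- **Only the residue matters, up to the direction.** -/
theorem div_eq_of_congr (h : IsAngChar φ 𝔪 k f) {x y : 𝓞 K} (hx : x ≠ 0) (hy : y ≠ 0)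
    (hxy : x - y ∈ 𝔪) :
    f (Ideal.span {x}) / dir (φ x) ^ k = f (Ideal.span {y}) / dir (φ y) ^ k := by
  by_cases hc : Ideal.span {y} ⊔ 𝔪 = ⊤
  · obtain ⟨N, hN⟩ : ∃ N, N + 1 = unitCount 𝔪 :=
      ⟨_, Nat.succ_pred_eq_of_pos (unitCount_pos h.ne_bot)⟩
    have hy1 : y ^ N * y - 1 ∈ 𝔪 := by
      rw [← Ideal.Quotient.eq_zero_iff_mem, map_sub, map_one, ← pow_succ, hN, _root_.map_pow,
        pow_unitCount_mk h.ne_bot hc, sub_self]
    have hx1 : y ^ N * x - 1 ∈ 𝔪 := by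
      rw [show y ^ N * x - 1 = y ^ N * (x - y) + (y ^ N * y - 1) by ring]
      exact 𝔪.add_mem (𝔪.mul_mem_left _ hxy) hy1
    have e : ∀ z : 𝓞 K, z ≠ 0 → y ^ N * z - 1 ∈ 𝔪 →
        f (Ideal.span {y ^ N}) / dir (φ (y ^ N : 𝓞 K)) ^ k *
          (f (Ideal.span {z}) / dir (φ z) ^ k) = 1 := fun z hz0 hz => by
      have h0 := mul_ne_zero (pow_ne_zero N hy) hz0
      rw [div_mul_div_comm, ← _root_.map_mul f, Ideal.span_singleton_mul_span_singleton,
        h.ray _ h0 hz, ← mul_zpow, ← dir_mul, ← _root_.map_mul φ, ← _root_.map_mul (algebraMap _ K)]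
      exact div_self (zpow_ne_zero _ (dir_ne_zero h0))
    exact mul_left_cancel₀ (left_ne_zero_of_mul_eq_one (e x hx hx1))
      ((e x hx hx1).trans (e y hy hy1).symm)
  · rw [h.eq_zero_of_not (by simpa using hy) hc,
      h.eq_zero_of_not (by simpa using hx) (by rwa [span_sup_congr hxy]), zero_div, zero_div]

end IsAngChar

/-- The value on a residue class. -/
def resVal (φ : K →+* ℂ) (𝔪 : Ideal (𝓞 K)) (k : ℤ) (f : Ideal (𝓞 K) →* ℂ) (t : 𝓞 K ⧸ 𝔪) : ℂ :=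
  if h : ∃ x : 𝓞 K, x ≠ 0 ∧ Ideal.Quotient.mk 𝔪 x = t then
    f (Ideal.span {h.choose}) / dir (φ h.choose) ^ k else 0

/-- `f ((v)) N (v) ^ (-s)` for `v` in `J`, as a function on the integers. -/
def idealTerm (f : Ideal (𝓞 K) →* ℂ) (J : Ideal (𝓞 K)) (s : ℂ) (v : 𝓞 K) : ℂ :=
  if v ∈ J ∧ v ≠ 0 then
    f (Ideal.span {v}) * ((absNorm (Ideal.span {v}) : ℕ) : ℂ) ^ (-s) else 0

namespace IsAngChar

variable {𝔪 : Ideal (𝓞 K)} {k l : ℤ} {f f' : Ideal (𝓞 K) →* ℂ}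

theorem resVal_eq (h : IsAngChar φ 𝔪 k f) {x : 𝓞 K} (hx : x ≠ 0) :
    resVal φ 𝔪 k f (Ideal.Quotient.mk 𝔪 x) = f (Ideal.span {x}) / dir (φ x) ^ k := by
  have hex : ∃ y : 𝓞 K, y ≠ 0 ∧ Ideal.Quotient.mk 𝔪 y = Ideal.Quotient.mk 𝔪 x := ⟨x, hx, rfl⟩
  rw [resVal, dif_pos hex]
  exact h.div_eq_of_congr hex.choose_spec.1 hx (Ideal.Quotient.eq.mp hex.choose_spec.2)

theorem idealTerm_eq (h : IsAngChar φ 𝔪 k f) (J : Ideal (𝓞 K)) (s : ℂ) (v : 𝓞 K) :
    idealTerm f J s v = (if v ∈ J then resVal φ 𝔪 k f (Ideal.Quotient.mk 𝔪 v) else 0) *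
      g k s (φ v) := by
  rcases eq_or_ne v 0 with rfl | hv
  · simp [idealTerm, g_zero]
  by_cases hJ : v ∈ J
  · have h0 := map_ne_zero' φ hv
    rw [idealTerm, if_pos ⟨hJ, hv⟩, if_pos hJ, h.resVal_eq hv, g_of_ne h0, ← mul_assoc,
      div_mul_cancel₀ _ (zpow_ne_zero _ (dir_ne_zero hv))]
    congr 1
    rw [Complex.cpow_def_of_ne_zero (Nat.cast_ne_zero.mpr
      (FA.PrimeIdeal.absNorm_span_pos hv).ne'), ← Complex.natCast_log, log_absNorm φ]
    push_cast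
    ring_nf
  · rw [idealTerm, if_neg fun e => hJ e.1, if_neg hJ, zero_mul]

theorem summable_idealTerm (h : IsAngChar φ 𝔪 k f) (J : Ideal (𝓞 K)) {s : ℂ} (hs : 1 < s.re) :
    Summable (idealTerm f J s) := by
  refine Summable.of_norm_bounded (summable_g φ 0 hs).norm fun v => ?_
  rcases eq_or_ne v 0 with rfl | hv
  · simp [idealTerm]
  have h0 := map_ne_zero' φ hv
  rw [idealTerm, FA.GaussAngle.norm_g h0]
  split_ifs with hJ
  · rw [norm_mul, Complex.norm_natCast_cpow_of_pos (FA.PrimeIdeal.absNorm_span_pos hv),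
      ← sq_norm φ, ← Real.rpow_natCast, ← Real.rpow_mul (norm_nonneg _), Complex.neg_re,
      Nat.cast_ofNat, mul_neg, neg_mul]
    exact mul_le_of_le_one_left (by positivity) (h.norm_le (by simpa using hv))
  · rw [norm_zero]; positivity

theorem norm_lHom_le (h : IsAngChar φ 𝔪 k f) (s : ℂ) (I : (Ideal (𝓞 K))⁰) :
    ‖lHom f s I‖ ≤ ‖normPow s I‖ := by
  rw [lHom_apply, norm_mul]
  exact mul_le_of_le_one_left (norm_nonneg _) (h.norm_le (nonZeroDivisors.coe_ne_zero I))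

theorem summable_lHom (h : IsAngChar φ 𝔪 k f) {s : ℂ} (hs : 1 < s.re) :
    Summable fun I : (Ideal (𝓞 K))⁰ => ‖lHom f s I‖ :=
  Summable.of_nonneg_of_le (fun _ => norm_nonneg _) (h.norm_lHom_le s)
    (FA.AbelianZeta.summable_norm_normPow hs)

theorem heckeL_eq_sum (h : IsAngChar φ 𝔪 k f) {s : ℂ} (hs : 1 < s.re) :
    heckeL f s = ∑ C : ClassGroup (𝓞 K), classPart f C s := by
  have h' : Summable fun c => lHom f s
      ((Equiv.sigmaFiberEquiv (ClassGroup.mk0 (R := 𝓞 K))) c) :=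
    (Equiv.sigmaFiberEquiv _).summable_iff.mpr (h.summable_lHom hs).of_norm
  rw [heckeL, ← (Equiv.sigmaFiberEquiv (ClassGroup.mk0 (R := 𝓞 K))).tsum_eq, h'.tsum_sigma,
    tsum_fintype]
  rfl

/-- **The sum over an ideal and the series of a class.** -/
theorem tsum_idealTerm (h : IsAngChar φ 𝔪 k f) {C : ClassGroup (𝓞 K)} {J : (Ideal (𝓞 K))⁰}
    (hJ : ClassGroup.mk0 J = C⁻¹) {s : ℂ} (hs : 1 < s.re) :
    ∑' v, idealTerm f J.1 s v =
      (Fintype.card (𝓞 K)ˣ : ℂ) * lHom f s J * classPart f C s := by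
  obtain ⟨g₀, hg0, hg⟩ : ∃ g₀ : {I : (Ideal (𝓞 K))⁰ // ClassGroup.mk0 I = C} → 𝓞 K,
      (∀ I, g₀ I ≠ 0) ∧
        ∀ I, ((J * I.1 : (Ideal (𝓞 K))⁰) : Ideal (𝓞 K)) = Ideal.span {g₀ I} := by
    have hp : ∀ I : {I : (Ideal (𝓞 K))⁰ // ClassGroup.mk0 I = C}, ∃ g₀ : 𝓞 K, g₀ ≠ 0 ∧
        ((J * I.1 : (Ideal (𝓞 K))⁰) : Ideal (𝓞 K)) = Ideal.span {g₀} := fun I => by
      have h1 : ClassGroup.mk0 (J * I.1) = 1 := by
        rw [_root_.map_mul, hJ, I.2, inv_mul_cancel]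
      obtain ⟨g₀, hg⟩ := (ClassGroup.mk0_eq_one_iff (SetLike.coe_mem (J * I.1))).mp h1
      exact ⟨g₀, fun h => nonZeroDivisors.coe_ne_zero (J * I.1) (hg.trans (by rw [h]; simp)), hg⟩
    choose g₀ h1 h2 using hp
    exact ⟨g₀, h1, h2⟩
  let e : {I : (Ideal (𝓞 K))⁰ // ClassGroup.mk0 I = C} × (𝓞 K)ˣ → 𝓞 K := fun p =>
    (p.2 : 𝓞 K) * g₀ p.1
  have hspan : ∀ p, Ideal.span {e p} = ((J * p.1.1 : (Ideal (𝓞 K))⁰) : Ideal (𝓞 K)) := fun p => by
    rw [hg, Ideal.span_singleton_mul_left_unit p.2.isUnit]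
  have he : Function.Injective e := by
    rintro ⟨I, u⟩ ⟨I', u'⟩ h'
    obtain rfl : I = I' := Subtype.ext (mul_left_cancel (Subtype.ext
      ((hspan (I, u)).symm.trans ((congrArg (fun v => Ideal.span {v}) h').trans (hspan (I', u'))))))
    exact Prod.ext rfl (Units.ext (mul_right_cancel₀ (hg0 I) h'))
  have hmem : ∀ p, e p ∈ J.1 ∧ e p ≠ 0 := fun p => by
    refine ⟨?_, mul_ne_zero p.2.ne_zero (hg0 p.1)⟩
    have : e p ∈ Ideal.span {e p} := Ideal.mem_span_singleton_self _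
    rw [hspan, Submonoid.coe_mul] at this
    exact (Ideal.mul_le_inf this).1
  have hsupp : Function.support (idealTerm f J.1 s) ⊆ Set.range e := by
    intro v hv
    obtain ⟨hvJ, hv0⟩ : v ∈ J.1 ∧ v ≠ 0 := by
      by_contra hc
      exact hv (if_neg hc)
    obtain ⟨I, hI⟩ := Ideal.dvd_iff_le.mpr ((Ideal.span_singleton_le_iff_mem _).mpr hvJ)
    have hI0 : I ≠ 0 := fun h => hv0 (Ideal.span_singleton_eq_bot.mp
      (by rw [hI, h, mul_zero]; rfl))
    let I' : (Ideal (𝓞 K))⁰ := ⟨I, mem_nonZeroDivisors_iff_ne_zero.mpr hI0⟩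
    have hC : ClassGroup.mk0 I' = C := by
      have : ClassGroup.mk0 (J * I') = 1 :=
        (ClassGroup.mk0_eq_one_iff (SetLike.coe_mem (J * I'))).mpr ⟨v, hI.symm⟩
      rw [_root_.map_mul, hJ, inv_mul_eq_one] at this
      exact this.symm
    obtain ⟨u, hu⟩ := Ideal.span_singleton_eq_span_singleton.mp
      ((hg ⟨I', hC⟩).symm.trans hI.symm)
    exact ⟨(⟨I', hC⟩, u), by simpa [e, mul_comm] using hu⟩
  rw [← he.tsum_eq hsupp]
  refine ((h.summable_idealTerm J.1 hs).comp_injective he).tsum_prod.trans ?_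
  simp only [Function.comp_apply]
  rw [classPart, ← tsum_mul_left]
  refine tsum_congr fun I => ?_
  have hterm : ∀ u : (𝓞 K)ˣ, idealTerm f J.1 s (e (I, u)) = lHom f s (J * I.1) := fun u => by
    rw [idealTerm, if_pos (hmem (I, u)), lHom_apply, hspan]
    rfl
  rw [tsum_congr hterm, tsum_fintype, Finset.sum_const, Finset.card_univ, nsmul_eq_mul,
    _root_.map_mul, mul_assoc]

/-- **Continuation for `k ≠ 0`.** -/
theorem exists_ext (h : IsAngChar φ 𝔪 k f) (hk : k ≠ 0) :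
    ∃ E : ℂ → ℂ, DifferentiableOn ℂ E plane ∧ ∀ s : ℂ, 1 < s.re → heckeL f s = E s := by
  choose J hJC hJ using exists_coprime_class h.ne_bot
  have key : ∀ C : ClassGroup (𝓞 K), ∃ E : ℂ → ℂ, DifferentiableOn ℂ E plane ∧
      ∀ s : ℂ, 1 < s.re → classPart f C s = E s := fun C => by
    have hA : (J C).1 * 𝔪 ≠ ⊥ := mul_ne_zero (nonZeroDivisors.coe_ne_zero _) h.ne_bot
    obtain ⟨β, hβA, hβ⟩ := Submodule.exists_mem_ne_zero_of_ne_bot hA
    have hw : ∀ v x : 𝓞 K,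
        (if v + β * x ∈ (J C).1 then resVal φ 𝔪 k f (Ideal.Quotient.mk 𝔪 (v + β * x)) else 0) =
          if v ∈ (J C).1 then resVal φ 𝔪 k f (Ideal.Quotient.mk 𝔪 v) else 0 := fun v x => by
      have h1 := (Ideal.mul_le_inf hβA)
      rw [show Ideal.Quotient.mk 𝔪 (v + β * x) = Ideal.Quotient.mk 𝔪 v by
          rw [map_add, Ideal.Quotient.eq_zero_iff_mem.mpr (𝔪.mul_mem_right x h1.2), add_zero]]
      simp only [Submodule.add_mem_iff_left _ ((J C).1.mul_mem_right x h1.1)]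
    obtain ⟨E, hE, hE'⟩ := exists_periodic_ext φ hk hβ
      (w := fun v => if v ∈ (J C).1 then resVal φ 𝔪 k f (Ideal.Quotient.mk 𝔪 v) else 0) hw
    have hN : ((absNorm (J C).1 : ℕ) : ℂ) ≠ 0 :=
      Nat.cast_ne_zero.mpr (absNorm_ne_zero_of_nonZeroDivisors _)
    have hf : f (J C).1 ≠ 0 :=
      (h.ne_zero_iff _ (nonZeroDivisors.coe_ne_zero _)).mpr (hJ C)
    have hU : (Fintype.card (𝓞 K)ˣ : ℂ) ≠ 0 := Nat.cast_ne_zero.mpr Fintype.card_ne_zero
    refine ⟨fun s => E s / ((Fintype.card (𝓞 K)ˣ : ℂ) * lHom f s (J C)), hE.div ?_ fun s _ => ?_,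
      fun s hs => ?_⟩
    · exact ((differentiable_neg.const_cpow (Or.inl hN)).const_mul _).differentiableOn.const_mul _
    · exact mul_ne_zero hU (mul_ne_zero hf (Complex.cpow_ne_zero_iff.mpr (Or.inl hN)))
    · show classPart f C s = E s / _
      have h2 : E s = ∑' v, idealTerm f (J C).1 s v := by
        rw [← (hE' s hs).tsum_eq]
        exact tsum_congr fun v => (h.idealTerm_eq _ s v).symm
      have hne : (Fintype.card (𝓞 K)ˣ : ℂ) * lHom f s (J C) ≠ 0 :=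
        mul_ne_zero hU (mul_ne_zero hf (Complex.cpow_ne_zero_iff.mpr (Or.inl hN)))
      rw [eq_div_iff hne, h2, h.tsum_idealTerm (hJC C) hs, mul_comm]
  choose E hE hE' using key
  exact ⟨fun s => ∑ C, E C s, DifferentiableOn.fun_sum fun C _ => hE C, fun s hs => by
    rw [h.heckeL_eq_sum hs]
    exact Finset.sum_congr rfl fun C _ => hE' C s hs⟩

end IsAngChar

end FA.ImagQuad

end
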