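import Fermat.Agent.ImagQuadAngles.Nonvanishing
import Fermat.Agent.NaturalChebotarev.Counting

/-!
# An angular character has mean zero over the primes

Newman's theorem, applied to `1 + re (z f (v) ^ m)` on the powers of the primes, with the functions
`ζ`, `L (f)` and `L (f̄)` free of zeros on `1 ≤ re s`.
-/

set_option autoImplicit false
set_option linter.unusedSectionVars false

noncomputable section

open NumberField IsDedekindDomain Ideal Filter Topology Module FA.Ext FA.PrimeIdeal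
open FA.GaussAngle (plane isOpen_plane)
open FA.Hecke (lHom heckeL fPow IsRayChar IsNontrivial exists_heckeG fiberSum fiberSum_le
  charWeight HasMean hasMean_of_psi hasMean_one)
open scoped nonZeroDivisors Classical ArithmeticFunction.vonMangoldt

namespace FA.ImagQuad

variable {K : Type*} [Field K] [NumberField K] [IsTotallyComplex K]
  [Algebra.IsQuadraticExtension ℚ K] {φ : K →+* ℂ} {𝔪 : Ideal (𝓞 K)} {k : ℤ}
  {f : Ideal (𝓞 K) →* ℂ}

namespace IsAngChar

theorem abs_re_le (h : IsAngChar φ 𝔪 k f) {z : ℂ} (hz : ‖z‖ ≤ 1)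
    (p : HeightOneSpectrum (𝓞 K) × ℕ) : |(z * f p.1.asIdeal ^ (p.2 + 1)).re| ≤ 1 := by
  refine (Complex.abs_re_le_norm _).trans ?_
  rw [norm_mul, norm_pow]
  exact mul_le_one₀ hz (by positivity) (pow_le_one₀ (norm_nonneg _) (h.norm_le p.1.ne_bot))

/-- **`ψ` of `1 + re (z f ^ m)`.** -/
theorem tendsto_psi_charWeight (h : IsAngChar φ 𝔪 k f) (hk : k ≠ 0) {z : ℂ} (hz : ‖z‖ ≤ 1) :
    Tendsto (fun x => summatory (fiberSum (charWeight f z)) x / x) atTop (𝓝 1) := by
  have hone : IsRayChar (⊤ : Ideal (𝓞 K)) (1 : Ideal (𝓞 K) →* ℂ) := IsRayChar.one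
  have ht : ¬IsNontrivial (1 : Ideal (𝓞 K) →* ℂ) := fun ⟨_, _, _, h1⟩ => h1 rfl
  obtain ⟨g, hg'⟩ : ∃ g : Ideal (𝓞 K) →* ℂ, g = (starRingEnd ℂ).toMonoidHom.comp f := ⟨_, rfl⟩
  have hg : IsAngChar φ 𝔪 (-k) g := hg' ▸ h.conj
  obtain ⟨G, hG, -, hG'⟩ := exists_heckeG hone
  obtain ⟨E, hE, hE'⟩ := h.exists_ext hk
  obtain ⟨E', hE₂, hE₂'⟩ := hg.exists_ext (neg_ne_zero.mpr hk)
  have h0 : ∀ p, 0 ≤ charWeight f z p := fun p => by
    linarith [(abs_le.mp (h.abs_re_le hz p)).1, show charWeight f z p = 1 + _ from rfl]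
  have h2 : ∀ p, charWeight f z p ≤ 2 := fun p => by
    linarith [(abs_le.mp (h.abs_re_le hz p)).2, show charWeight f z p = 1 + _ from rfl]
  obtain ⟨U, hUdef⟩ : ∃ U : Set ℂ, U = {s | s ∈ plane ∧ G s ≠ 0 ∧ E s ≠ 0 ∧ E' s ≠ 0} :=
    ⟨_, rfl⟩
  have hU : IsOpen U := by
    rw [hUdef, show {s | s ∈ plane ∧ G s ≠ 0 ∧ E s ≠ 0 ∧ E' s ≠ 0} =
      (plane ∩ G ⁻¹' {0}ᶜ) ∩ ((plane ∩ E ⁻¹' {0}ᶜ) ∩ (plane ∩ E' ⁻¹' {0}ᶜ)) by
        ext s; simp; try tauto]
    exact (hG.continuous.continuousOn.isOpen_inter_preimage isOpen_plane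
      isOpen_compl_singleton).inter
      ((hE.continuousOn.isOpen_inter_preimage isOpen_plane isOpen_compl_singleton).inter
        (hE₂.continuousOn.isOpen_inter_preimage isOpen_plane isOpen_compl_singleton))
  have hUp : U ⊆ plane := by rw [hUdef]; exact fun s hs => hs.1
  refine tendsto_summatory (fun n => tsum_nonneg fun p : PowFiber K n =>
      mul_nonneg (h0 _) (Real.log_natCast_nonneg _))
    (C := 2 * (finrank ℚ K * (Real.log 4 + 4)))
    (mul_nonneg two_pos.le (mul_nonneg (Nat.cast_nonneg _)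
      (add_nonneg (Real.log_nonneg (by norm_num)) (by norm_num))))
    (fun x hx => ?_) hU (fun s hs => ?_)
    (F := fun s => -deriv G s / G s + z / 2 * (-deriv E s / E s) +
      starRingEnd ℂ z / 2 * (-deriv E' s / E' s)) ?_ fun s hs => ?_
  · refine (Finset.sum_le_sum fun n _ => fiberSum_le h0 h2 n).trans ?_
    rw [← Finset.mul_sum, ← Finset.mul_sum]
    have hψ : ∑ n ∈ Finset.Icc 1 ⌊x⌋₊, Λ n ≤ (Real.log 4 + 4) * x :=
      le_of_eq_of_le (by rw [Chebyshev.psi]; rfl) (Chebyshev.psi_le_const_mul_self hx)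
    linarith [mul_le_mul_of_nonneg_left hψ (Nat.cast_nonneg (α := ℝ) (finrank ℚ K))]
  · rw [hUdef]
    exact ⟨mem_plane hs, hone.heckeG_ne_zero ht hG hG' hs, h.ext_ne_zero hk hE hE' hs,
      hg.ext_ne_zero (neg_ne_zero.mpr hk) hE₂ hE₂' hs⟩
  · have hd : ∀ F : ℂ → ℂ, DifferentiableOn ℂ F plane → (∀ s ∈ U, F s ≠ 0) →
        DifferentiableOn ℂ (fun s => -deriv F s / F s) U := fun F hF hne =>
      ((hF.deriv isOpen_plane).mono hUp).neg.div (hF.mono hUp) hne
    refine ((hd G hG.differentiableOn ?_).add ((hd E hE ?_).const_mul _)).add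
      ((hd E' hE₂ ?_).const_mul _) <;> (intro s hs; rw [hUdef] at hs)
    exacts [hs.2.1, hs.2.2.1, hs.2.2.2]
  obtain ⟨c, hc⟩ : ∃ c : HeightOneSpectrum (𝓞 K) × ℕ → ℂ, c = fun p =>
      ((charWeight f z p * Real.log (absNorm p.1.asIdeal) : ℝ) : ℂ) := ⟨_, rfl⟩
  have hB : ∀ p, ‖c p‖ ≤ 2 * Real.log (absNorm p.1.asIdeal) := fun p => by
    rw [hc, Complex.norm_real,
      Real.norm_of_nonneg (mul_nonneg (h0 p) (Real.log_natCast_nonneg _))]
    exact mul_le_mul_of_nonneg_right (h2 p) (Real.log_natCast_nonneg _)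
  have he : (fun n => (fiberSum (charWeight f z) n : ℂ)) =
      fun n => ∑' p : PowFiber K n, c p.1 := by
    funext n
    rw [fiberSum, Complex.ofReal_tsum, hc]
  rw [he, (LSeries_fiber two_pos.le hB hs).2]
  obtain ⟨l, hl⟩ : ∃ l : HeightOneSpectrum (𝓞 K) → ℂ,
      l = fun v => (Real.log (absNorm v.asIdeal) : ℂ) := ⟨_, rfl⟩
  have hfib : ∀ v : HeightOneSpectrum (𝓞 K), HasSum (fun k => c (v, k) * primePow s v ^ (k + 1))
      (l v * (fPow 1 s v / (1 - fPow 1 s v)) + z / 2 * (l v * (fPow f s v / (1 - fPow f s v))) +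
        starRingEnd ℂ z / 2 * (l v * (fPow g s v / (1 - fPow g s v)))) := fun v => by
    have e : ∀ {a : ℂ}, ‖a‖ ≤ 1 / 2 → HasSum (fun k : ℕ => a ^ (k + 1)) (a / (1 - a)) :=
      fun {a} ha => by
        simpa [pow_succ', div_eq_mul_inv] using
          (hasSum_geometric_of_norm_lt_one (ha.trans_lt (by norm_num))).mul_left a
    refine (((e (hone.norm_fPow_le_half hs.le v)).mul_left _).add
      (((e (h.norm_fPow_le_half hs.le v)).mul_left _).mul_left _)).add
        (((e (hg.norm_fPow_le_half hs.le v)).mul_left _).mul_left _) |>.congr_fun fun k => ?_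
    simp only [hc, charWeight, hl, fPow, show g v.asIdeal = starRingEnd ℂ (f v.asIdeal) by
      rw [hg']; rfl, mul_pow, MonoidHom.one_apply, one_pow, Complex.ofReal_mul,
      Complex.ofReal_add, Complex.ofReal_one, Complex.re_eq_add_conj, _root_.map_mul,
      _root_.map_pow]
    ring
  have hval := (summable_mul_pow two_pos.le hB hs).hasSum.prod_fiberwise hfib
  simp only [hl] at hval
  rw [hval.unique (((hone.hasSum_negLogDeriv hs).add
    ((h.hasSum_negLogDeriv hs).mul_left _)).add ((hg.hasSum_negLogDeriv hs).mul_left _))]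
  have hV := (isOpen_lt continuous_const Complex.continuous_re).mem_nhds hs
  have hs1 := sub_one_ne_zero hs
  have eE : heckeL f =ᶠ[𝓝 s] E := by filter_upwards [hV] with y hy using hE' y hy
  have eE₂ : heckeL g =ᶠ[𝓝 s] E' := by filter_upwards [hV] with y hy using hE₂' y hy
  have eG : heckeL (1 : Ideal (𝓞 K) →* ℂ) =ᶠ[𝓝 s] fun y => G y / (y - 1) := by
    filter_upwards [hV] with y hy
    rw [← hG' y hy, mul_div_cancel_left₀ _ (sub_one_ne_zero hy)]
  have hG0 : G s ≠ 0 := hone.heckeG_ne_zero ht hG hG' hs.le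
  have hd : HasDerivAt (fun y => G y / (y - 1))
      ((deriv G s * (s - 1) - G s * 1) / (s - 1) ^ 2) s :=
    (hG s).hasDerivAt.div ((hasDerivAt_id s).sub_const 1) hs1
  rw [eE.deriv_eq, eE.eq_of_nhds, eE₂.deriv_eq, eE₂.eq_of_nhds, eG.deriv_eq, eG.eq_of_nhds,
    hd.deriv, Complex.ofReal_one]
  field_simp
  ring

/-- **An angular character with `k ≠ 0` has mean `0` over the primes.** -/
theorem hasMean_zero (h : IsAngChar φ 𝔪 k f) (hk : k ≠ 0) :
    HasMean (fun v => f v.asIdeal) 0 := by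
  have hre : ∀ z : ℂ, ‖z‖ ≤ 1 → HasMean (fun v => (z * f v.asIdeal).re) 0 := fun z hz => by
    have h1 : HasMean (fun v => charWeight f z (v, 0)) 1 := by
      refine hasMean_of_psi (w := charWeight f z) (B := 2) (fun p => ?_) (fun p => ?_)
        (h.tendsto_psi_charWeight hk hz) ?_
      · linarith [(abs_le.mp (h.abs_re_le hz p)).1, show charWeight f z p = 1 + _ from rfl]
      · linarith [(abs_le.mp (h.abs_re_le hz p)).2, show charWeight f z p = 1 + _ from rfl]
      · rw [show (fun p => 2 - charWeight f z p) = charWeight f (-z) from funext fun p => by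
          simp [charWeight]; ring, show (2 : ℝ) - 1 = 1 by norm_num]
        exact h.tendsto_psi_charWeight hk (by rwa [norm_neg])
    simpa [charWeight] using h1.sub (hasMean_one K)
  have h1 := (hre 1 (by simp)).map (Complex.ofRealCLM)
  have h2 := (hre (-Complex.I) (by simp)).map (Complex.I • Complex.ofRealCLM)
  have h3 := h1.add h2
  simp only [map_zero, add_zero] at h3
  convert h3 using 1
  funext v
  simp [mul_comm Complex.I]

end IsAngChar

end FA.ImagQuad

end
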