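import Fermat.Agent.ImagQuadAngles.Joint

/-!
# Integers of prime norm, weighted by a periodic function

In each residue class prime to `M ≥ 3` the integers of prime norm correspond to the primes `v`
with a generator of `v J` congruent to `1`, for `J` inverse to the class, so that by Hecke the
means of `(W (g) φ g / |φ g|) ^ h`, `h ≠ 0`, vanish for `W` periodic modulo `M`.
-/

set_option autoImplicit false
set_option linter.unusedSectionVars false

noncomputable section

open NumberField IsDedekindDomain Ideal Filter Topology Module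
open FA.GaussAngle (dir dir_mul norm_dir)
open FA.Hecke (HasMean hasMean_congr primesLE mem_primesLE wSum rayClass)
open scoped nonZeroDivisors Classical

namespace FA.ImagQuad

variable {K : Type*} [Field K] [NumberField K] [IsTotallyComplex K]
  [Algebra.IsQuadraticExtension ℚ K] (φ : K →+* ℂ)

variable (K) in
theorem finite_absNorm_le (N : ℕ) : {g : 𝓞 K | absNorm (Ideal.span {g}) ≤ N}.Finite := by
  obtain ⟨φ⟩ := (inferInstance : Nonempty (K →+* ℂ))
  refine (finite_norm_lt φ ((N : ℝ) + 2)).subset fun g hg => ?_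
  have h1 : ‖φ g‖ ^ 2 ≤ N := by rw [sq_norm]; exact_mod_cast hg
  show ‖φ g‖ < (N : ℝ) + 2
  nlinarith [sq_nonneg (‖φ g‖ - 1)]

/-- The integers of prime norm at most `N`. -/
def primeElts (N : ℕ) : Finset (𝓞 K) :=
  (finite_absNorm_le K N).toFinset.filter fun g => (absNorm (Ideal.span {g})).Prime

theorem mem_primeElts {N : ℕ} {g : 𝓞 K} :
    g ∈ primeElts N ↔
      absNorm (Ideal.span {g}) ≤ N ∧ (absNorm (Ideal.span {g})).Prime := by
  simp [primeElts]

theorem ne_zero_of_prime_norm {g : 𝓞 K} (hg : (absNorm (Ideal.span {g})).Prime) : g ≠ 0 :=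
  fun h => hg.ne_zero (absNorm_eq_zero_iff.mpr (Ideal.span_singleton_eq_bot.mpr h))

/-- The prime ideal of an integer of prime norm. -/
def spanPrime {g : 𝓞 K} (hg : (absNorm (Ideal.span {g})).Prime) : HeightOneSpectrum (𝓞 K) :=
  ⟨Ideal.span {g}, Ideal.isPrime_of_irreducible_absNorm hg,
    fun h => hg.ne_zero (absNorm_eq_zero_iff.mpr h)⟩

theorem tendsto_log_mul_const (C : ℝ) :
    Tendsto (fun N : ℕ => Real.log N / N * C) atTop (𝓝 0) := by
  have h : Tendsto (fun N : ℕ => Real.log N / N) atTop (𝓝 0) :=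
    Real.isLittleO_log_id_atTop.tendsto_div_nhds_zero.comp tendsto_natCast_atTop_atTop
  simpa using h.mul_const C

/-- Bounded changes do not matter. -/
theorem tendsto_of_bounded_sub {F G : ℕ → ℂ} {C : ℝ} {c : ℂ} (h : ∀ N, ‖F N - G N‖ ≤ C)
    (hG : Tendsto (fun N : ℕ => ((Real.log N / N : ℝ) : ℂ) * G N) atTop (𝓝 c)) :
    Tendsto (fun N : ℕ => ((Real.log N / N : ℝ) : ℂ) * F N) atTop (𝓝 c) := by
  have h0 : Tendsto (fun N : ℕ => ((Real.log N / N : ℝ) : ℂ) * (F N - G N)) atTop (𝓝 0) := by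
    refine squeeze_zero_norm (fun N => ?_) (tendsto_log_mul_const C)
    have hl : 0 ≤ Real.log N / N := div_nonneg (Real.log_natCast_nonneg N) (Nat.cast_nonneg N)
    rw [norm_mul, Complex.norm_real, Real.norm_of_nonneg hl]
    exact mul_le_mul_of_nonneg_left (h N) hl
  refine ((hG.add h0).congr fun N => by ring).trans (by rw [add_zero])

variable {M : ℕ}

/-- For `3 ≤ M` only the unit `1` is congruent to `1`. -/
theorem unit_eq_one (φ : K →+* ℂ) (hM : 3 ≤ M) {u : (𝓞 K)ˣ}
    (hu : (u : 𝓞 K) - 1 ∈ Ideal.span {(M : 𝓞 K)}) : u = 1 := by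
  by_contra hne
  obtain ⟨y, hy⟩ := Ideal.mem_span_singleton'.mp hu
  have hy0 : y ≠ 0 := fun h => hne (Units.ext (by
    rw [h, zero_mul] at hy; exact sub_eq_zero.mp hy.symm))
  have h1 : (M : ℝ) * ‖φ y‖ ≤ 2 := by
    have h := congrArg (fun z : 𝓞 K => ‖φ z‖) hy
    simp only [map_mul, map_natCast, map_sub, map_one, norm_mul, Complex.norm_natCast] at h
    rw [mul_comm, h]
    refine (norm_sub_le _ _).trans (le_of_eq ?_)
    rw [norm_unit, norm_one]
    norm_num
  have h2 := one_le_norm φ hy0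
  have h3 : (3 : ℝ) ≤ M := by exact_mod_cast hM
  nlinarith

variable {φ}

/-- **The sum over one residue class prime to `M`.** -/
theorem sum_residue_eq (hM : 3 ≤ M) {s j : 𝓞 K}
    (hsj : s * j - 1 ∈ Ideal.span {(M : 𝓞 K)}) (h : ℤ) (N : ℕ) :
    ∑ g ∈ (primeElts N).filter (fun g => g - s ∈ Ideal.span {(M : 𝓞 K)}), dir (φ g) ^ h =
      (dir (φ j) ^ h)⁻¹ * ∑ v ∈ (genPrimes (Ideal.span {(M : 𝓞 K)}) (Ideal.span {j}) N).filter
        (fun v => (absNorm v.asIdeal).Prime),
          dir (φ (genElt (Ideal.span {(M : 𝓞 K)}) (Ideal.span {j}) v)) ^ h := by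
  have hM0 : (M : 𝓞 K) ≠ 0 := Nat.cast_ne_zero.mpr (by omega)
  obtain ⟨𝔪, hm⟩ : ∃ 𝔪 : Ideal (𝓞 K), 𝔪 = Ideal.span {(M : 𝓞 K)} := ⟨_, rfl⟩
  rw [← hm] at hsj ⊢
  have hj : j ≠ 0 := fun h0 => by
    rw [h0, mul_zero, zero_sub, neg_mem_iff, hm, Ideal.mem_span_singleton] at hsj
    obtain ⟨u, hu⟩ := isUnit_of_dvd_one hsj
    have h1 := congrArg (fun z : 𝓞 K => ‖φ z‖) hu
    simp only [norm_unit] at h1
    simp only [map_natCast, Complex.norm_natCast] at h1
    have : (3 : ℝ) ≤ M := by exact_mod_cast hM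
    linarith
  have hJ : Ideal.span {j} ≠ ⊥ := by simpa using hj
  have hcancel : ∀ {g : 𝓞 K} {v : HeightOneSpectrum (𝓞 K)},
      Ideal.span {g * j} = v.asIdeal * Ideal.span {j} → Ideal.span {g} = v.asIdeal := fun e => by
    rw [← Ideal.span_singleton_mul_span_singleton] at e
    exact mul_right_cancel₀ hJ e
  have huniq : ∀ {v : HeightOneSpectrum (𝓞 K)} {x : 𝓞 K}, x - 1 ∈ 𝔪 →
      Ideal.span {x} = v.asIdeal * Ideal.span {j} → genElt 𝔪 (Ideal.span {j}) v = x := by
    intro v x hx1 hx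
    obtain ⟨h1, h2⟩ := genElt_spec (⟨x, hx1, hx⟩ : HasGen 𝔪 (Ideal.span {j}) v)
    obtain ⟨u, hu⟩ := (Ideal.span_singleton_eq_span_singleton.mp (hx.trans h2.symm))
    have hu1 : (u : 𝓞 K) - 1 ∈ 𝔪 := by
      rw [show (u : 𝓞 K) - 1 = (x * u - 1) - (x - 1) * u by ring, hu]
      exact 𝔪.sub_mem h1 (𝔪.mul_mem_right _ hx1)
    rw [← hu, show u = 1 from unit_eq_one φ hM (by rw [← hm]; exact hu1), Units.val_one, mul_one]
  have hmul1 : ∀ {g : 𝓞 K}, g - s ∈ 𝔪 → g * j - 1 ∈ 𝔪 := fun {g} hgs => by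
    rw [show g * j - 1 = (g - s) * j + (s * j - 1) by ring]
    exact 𝔪.add_mem (𝔪.mul_mem_right _ hgs) hsj
  rw [Finset.mul_sum]
  refine Finset.sum_bij (fun g hg => spanPrime (mem_primeElts.mp (Finset.mem_filter.mp hg).1).2)
    (fun g hg => ?_) (fun g hg g' hg' e => ?_) (fun v hv => ?_) (fun g hg => ?_)
  · obtain ⟨hg1, hgs⟩ := Finset.mem_filter.mp hg
    obtain ⟨hN, hp⟩ := mem_primeElts.mp hg1
    exact Finset.mem_filter.mpr ⟨Finset.mem_filter.mpr ⟨mem_primesLE.mpr hN, g * j, hmul1 hgs,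
      (Ideal.span_singleton_mul_span_singleton g j).symm⟩, hp⟩
  · have e' : Ideal.span {g} = Ideal.span {g'} := congrArg HeightOneSpectrum.asIdeal e
    have h1 : Ideal.span {g * j} = (spanPrime (mem_primeElts.mp
        (Finset.mem_filter.mp hg').1).2).asIdeal * Ideal.span {j} := by
      rw [← Ideal.span_singleton_mul_span_singleton, e']
      rfl
    have h2 := huniq (hmul1 (Finset.mem_filter.mp hg).2) h1
    have h3 := huniq (hmul1 (Finset.mem_filter.mp hg').2)
      (show Ideal.span {g' * j} = (spanPrime (mem_primeElts.mp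
        (Finset.mem_filter.mp hg').1).2).asIdeal * Ideal.span {j} from
          (Ideal.span_singleton_mul_span_singleton g' j).symm)
    exact mul_right_cancel₀ hj (h2.symm.trans h3)
  · obtain ⟨hv1, hp⟩ := Finset.mem_filter.mp hv
    obtain ⟨hN, hgen⟩ := Finset.mem_filter.mp hv1
    obtain ⟨h1, h2⟩ := genElt_spec hgen
    obtain ⟨g, hg⟩ := Ideal.mem_span_singleton'.mp (show genElt 𝔪 (Ideal.span {j}) v ∈
      Ideal.span {j} from Ideal.mul_le_right (I := v.asIdeal) (by
        rw [← h2]; exact Ideal.mem_span_singleton_self _))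
    rw [← hg] at h1 h2
    have hs := hcancel h2
    have hgs : g - s ∈ 𝔪 := by
      rw [show g - s = (s * j - 1) * (-g) + (g * j - 1) * s by ring]
      exact 𝔪.add_mem (𝔪.mul_mem_right _ hsj) (𝔪.mul_mem_right _ h1)
    refine ⟨g, Finset.mem_filter.mpr ⟨mem_primeElts.mpr
      ⟨by rw [hs]; exact mem_primesLE.mp hN, by rw [hs]; exact hp⟩, hgs⟩, ?_⟩
    exact HeightOneSpectrum.ext hs
  · obtain ⟨hg1, hgs⟩ := Finset.mem_filter.mp hg
    have e : genElt 𝔪 (Ideal.span {j}) (spanPrime (mem_primeElts.mp hg1).2) = g * j :=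
      huniq (hmul1 hgs) (Ideal.span_singleton_mul_span_singleton g j).symm
    rw [e,
      show φ (g * j : 𝓞 K) = φ g * φ j by simp, dir_mul, mul_zpow, mul_left_comm,
      inv_mul_cancel₀ (zpow_ne_zero _ (IsAngChar.dir_ne_zero hj)), mul_one]

/-- **The mean over one residue class.** -/
theorem tendsto_sum_residue (φ : K →+* ℂ) (hM : 3 ≤ M) (s : 𝓞 K) {h : ℤ} (hh : h ≠ 0) :
    Tendsto (fun N : ℕ => ((Real.log N / N : ℝ) : ℂ) *
      ∑ g ∈ (primeElts N).filter (fun g => g - s ∈ Ideal.span {(M : 𝓞 K)}), dir (φ g) ^ h)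
      atTop (𝓝 0) := by
  have hM0 : (M : 𝓞 K) ≠ 0 := Nat.cast_ne_zero.mpr (by omega)
  obtain ⟨𝔪, hm⟩ : ∃ 𝔪 : Ideal (𝓞 K), 𝔪 = Ideal.span {(M : 𝓞 K)} := ⟨_, rfl⟩
  have h𝔪 : 𝔪 ≠ ⊥ := by rw [hm]; simpa using hM0
  rw [← hm]
  by_cases hs : Ideal.span {s} ⊔ 𝔪 = ⊤
  · obtain ⟨a, ha, b, hb, hab⟩ := Submodule.mem_sup.mp ((Ideal.eq_top_iff_one _).mp hs)
    obtain ⟨j, rfl⟩ := Ideal.mem_span_singleton.mp ha
    have hsj : s * j - 1 ∈ 𝔪 := by
      rw [show s * j - 1 = -b by linear_combination hab]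
      exact 𝔪.neg_mem hb
    have hJc : Ideal.span {j} ⊔ 𝔪 = ⊤ := (Ideal.eq_top_iff_one _).mpr (by
      rw [← hab]
      exact Submodule.add_mem_sup (Ideal.mem_span_singleton.mpr (dvd_mul_left j s)) hb)
    have hj : j ≠ 0 := fun h0 => by
      obtain ⟨x, hx⟩ := Ideal.mem_span_singleton'.mp
        (show (1 : 𝓞 K) ∈ Ideal.span {(M : 𝓞 K)} from hm ▸ ((Ideal.eq_top_iff_one _).mp (by
          rw [h0, Ideal.span_singleton_eq_bot.mpr rfl, bot_sup_eq] at hJc; exact hJc)))
      have hx0 : x ≠ 0 := fun e => one_ne_zero (by rw [← hx, e, zero_mul])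
      have h1 := congrArg (fun z : 𝓞 K => ‖φ z‖) hx
      simp only [map_mul, map_natCast, map_one, norm_mul, norm_one, Complex.norm_natCast] at h1
      have h2 := one_le_norm φ hx0
      have h3 : (3 : ℝ) ≤ M := by exact_mod_cast hM
      nlinarith
    let J' : FA.Hecke.coprimeIdeals 𝔪 :=
      ⟨⟨Ideal.span {j}, mem_nonZeroDivisors_iff_ne_zero.mpr (by simpa using hj)⟩, hJc⟩
    obtain ⟨f, hf⟩ := exists_isAngChar (φ := φ) h𝔪 (k := h) fun u hu => by
      rw [show u = 1 from unit_eq_one φ hM (by rw [← hm]; exact hu)]; simp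
    have hmean : HasMean (fun v : HeightOneSpectrum (𝓞 K) =>
        if (absNorm v.asIdeal).Prime ∧ HasGen 𝔪 (Ideal.span {j}) v then
          (dir (φ j) ^ h)⁻¹ * dir (φ (genElt 𝔪 (Ideal.span {j}) v)) ^ h else 0) 0 := by
      have h1 := (hasMean_rayInd_mul φ h𝔪 (rayClass h𝔪 J')⁻¹ hh hf).map
        ((((dir (φ j) ^ h)⁻¹ * f (Ideal.span {j})) •
          ContinuousLinearMap.id ℂ ℂ).restrictScalars ℝ)
      simp only [map_zero] at h1
      refine hasMean_congr ∅ Set.finite_empty (B := 2) (fun v => ?_) (fun v _ hv => ?_) h1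
      · simp only [ContinuousLinearMap.coe_restrictScalars', _root_.smul_apply,
          ContinuousLinearMap.id_apply, smul_eq_mul, rayInd_eq]
        have hd : ‖(dir (φ j) ^ h)⁻¹‖ = 1 := by
          rw [norm_inv, norm_zpow, norm_dir (map_ne_zero' φ hj), one_zpow, inv_one]
        refine (norm_sub_le _ _).trans ((add_le_add ?_ ?_).trans one_add_one_eq_two.le)
        · split_ifs with hc
          · rw [norm_mul, hd, one_mul, norm_zpow, norm_dir (map_ne_zero' φ
              (ne_zero_of_gen (by simpa using hj) (genElt_spec hc.2).2)), one_zpow]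
          · simp
        · rw [norm_mul, norm_mul, hd, one_mul, norm_mul]
          refine mul_le_one₀ (hf.norm_le (by simpa using hj)) (by positivity)
            (mul_le_one₀ ?_ (norm_nonneg _) (hf.norm_le v.ne_bot))
          split_ifs <;> simp
      · simp only [ContinuousLinearMap.coe_restrictScalars', _root_.smul_apply,
          ContinuousLinearMap.id_apply, smul_eq_mul, rayInd_eq]
        by_cases hg : HasGen 𝔪 (Ideal.span {j}) v
        · obtain ⟨h1', h2'⟩ := genElt_spec hg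
          rw [if_pos ⟨hv, hg⟩, if_pos hg,
            ← hf.ray _ (ne_zero_of_gen (by simpa using hj) h2') h1', h2', map_mul,
            Complex.ofReal_one, one_mul]
          ring
        · rw [if_neg fun hc => hg hc.2, if_neg hg]
          simp
    refine (hmean.comp tendsto_natCast_atTop_atTop).congr fun N => ?_
    rw [Function.comp_apply, wSum, Nat.floor_natCast, Complex.real_smul]
    congr 1
    have := sum_residue_eq (φ := φ) hM (hm ▸ hsj) h N
    rw [← hm] at this
    rw [this, Finset.mul_sum, genPrimes, Finset.filter_filter, Finset.sum_filter]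
    exact Finset.sum_congr rfl fun v _ => if_congr and_comm rfl rfl
  · have hb : ∀ N : ℕ, (primeElts N).filter (fun g => g - s ∈ 𝔪) ⊆
        primeElts (K := K) (absNorm 𝔪) := fun N g hg => by
      obtain ⟨hg1, hgs⟩ := Finset.mem_filter.mp hg
      obtain ⟨-, hp⟩ := (mem_primeElts).mp hg1
      refine (mem_primeElts).mpr ⟨?_, hp⟩
      have hle : 𝔪 ≤ Ideal.span {g} := by
        by_contra hle
        refine hs ?_
        rw [← FA.Hecke.span_sup_congr hgs]
        exact (spanPrime hp).isMaximal.out.2 _ (lt_of_le_of_ne le_sup_left fun e =>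
          hle (sup_eq_left.mp e.symm))
      exact Nat.le_of_dvd (Nat.pos_of_ne_zero fun e => h𝔪 (absNorm_eq_zero_iff.mp e))
        (map_dvd absNorm (Ideal.dvd_iff_le.mpr hle))
    refine tendsto_of_bounded_sub (G := fun _ => 0)
      (C := ((primeElts (K := K) (absNorm 𝔪)).card : ℝ)) (fun N => ?_) (by simp)
    rw [sub_zero]
    refine (norm_sum_le _ _).trans ?_
    refine (Finset.sum_le_sum (g := fun _ => (1 : ℝ)) fun g hg => ?_).trans ?_
    · rw [norm_zpow, norm_dir (map_ne_zero' φ (ne_zero_of_prime_norm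
        ((mem_primeElts).mp (Finset.mem_filter.mp hg).1).2)), one_zpow]
    · rw [Finset.sum_const, nsmul_eq_mul, mul_one, Nat.cast_le]
      exact Finset.card_le_card (hb N)

/-- **Means with periodic weights.** -/
theorem tendsto_sum_weight (φ : K →+* ℂ) (hM : M ≠ 0) {W : 𝓞 K → ℂ}
    (hW : ∀ g x : 𝓞 K, W (g + (M : 𝓞 K) * x) = W g) {h : ℤ} (hh : h ≠ 0) :
    Tendsto (fun N : ℕ => ((Real.log N / N : ℝ) : ℂ) *
      ∑ g ∈ primeElts N, (W g * dir (φ g)) ^ h) atTop (𝓝 0) := by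
  obtain ⟨L, hL⟩ : ∃ L, L = 3 * M := ⟨_, rfl⟩
  have hW' : ∀ g x : 𝓞 K, W (g + (L : 𝓞 K) * x) = W g := fun g x => by
    rw [show (L : 𝓞 K) * x = (M : 𝓞 K) * (3 * x) by rw [hL]; push_cast; ring, hW]
  have hL0 : (L : 𝓞 K) ≠ 0 := Nat.cast_ne_zero.mpr (by omega)
  have : Finite (𝓞 K ⧸ Ideal.span {(L : 𝓞 K)}) :=
    Ideal.finiteQuotientOfFreeOfNeBot _ (by simpa using hL0)
  let _ : Fintype (𝓞 K ⧸ Ideal.span {(L : 𝓞 K)}) := Fintype.ofFinite _
  have h1 := tendsto_finsetSum (Finset.univ : Finset (𝓞 K ⧸ Ideal.span {(L : 𝓞 K)}))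
    fun t _ => (tendsto_sum_residue φ (M := L) (by omega) (Quotient.out t) hh).const_mul
      (W (Quotient.out t) ^ h)
  simp only [mul_zero, Finset.sum_const_zero] at h1
  refine h1.congr fun N => ?_
  simp only [mul_left_comm _ ((Real.log N / N : ℝ) : ℂ), ← Finset.mul_sum]
  congr 1
  rw [← Finset.sum_fiberwise (primeElts N) (Ideal.Quotient.mk (Ideal.span {(L : 𝓞 K)}))]
  refine Finset.sum_congr rfl fun t _ => ?_
  rw [Finset.mul_sum]
  refine Finset.sum_congr (Finset.filter_congr fun g _ => ?_) fun g hg => ?_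
  · rw [← Ideal.Quotient.eq]
    exact ⟨fun e => e.trans (Quotient.out_eq t), fun e => e.trans (Quotient.out_eq t).symm⟩
  · have hg' : g - Quotient.out t ∈ Ideal.span {(L : 𝓞 K)} := by
      rw [← Ideal.Quotient.eq]
      exact (Finset.mem_filter.mp hg).2.trans (Quotient.out_eq t).symm
    obtain ⟨x, hx⟩ := Ideal.mem_span_singleton'.mp hg'
    rw [← mul_zpow, show W g = W (Quotient.out t) by
      rw [← hW' (Quotient.out t) x, mul_comm, hx, add_sub_cancel]]

end FA.ImagQuad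

end
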