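import Fermat.Agent.GaussianAngles.Lattice
import Fermat.Agent.PrimeIdealTheorem.Euler
import Mathlib.NumberTheory.NumberField.Units.DirichletTheorem

/-!
# Imaginary quadratic fields in the complex plane

For an embedding `φ` of a totally complex quadratic field `N (x) = |φ x| ^ 2`, the units are
finitely many and lie on the circle, the sums `∑ |φ x| ^ -r` over the integers converge for
`2 < r`, and no power `k ≠ 0` of the direction is trivial on all the integers.
-/

set_option autoImplicit false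
set_option linter.unusedSectionVars false

noncomputable section

open NumberField NumberField.InfinitePlace IsDedekindDomain Ideal Filter Topology Module
open FA.GaussAngle (dir)
open FA.Ext (zN summable_zN)
open scoped nonZeroDivisors Classical

namespace FA.ImagQuad

variable {K : Type*} [Field K] [NumberField K] [IsTotallyComplex K]
  [Algebra.IsQuadraticExtension ℚ K] (φ : K →+* ℂ)

variable (K) in
theorem card_place : Fintype.card (InfinitePlace K) = 1 := by
  have h := IsTotallyComplex.finrank (K := K)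
  rw [Algebra.IsQuadraticExtension.finrank_eq_two] at h
  rw [card_eq_nrRealPlaces_add_nrComplexPlaces, IsTotallyComplex.nrRealPlaces_eq_zero K]
  omega

theorem place_eq (w : InfinitePlace K) : w = InfinitePlace.mk φ :=
  haveI := Fintype.card_le_one_iff_subsingleton.mp (card_place K).le
  Subsingleton.elim _ _

/-- **The norm is the square of the absolute value.** -/
theorem sq_norm (x : 𝓞 K) : ‖φ x‖ ^ 2 = (absNorm (Ideal.span {x}) : ℝ) := by
  have h := prod_eq_abs_norm (x : K)
  rw [Finset.prod_eq_single (InfinitePlace.mk φ) (fun w _ hw => absurd (place_eq φ w) hw)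
    (fun h => absurd (Finset.mem_univ _) h), IsTotallyComplex.mult_eq, InfinitePlace.apply] at h
  rw [h, absNorm_span_singleton, ← Algebra.coe_norm_int, ← Int.cast_abs, Nat.cast_natAbs,
    Rat.cast_intCast]

theorem map_ne_zero' {x : 𝓞 K} (hx : x ≠ 0) : φ x ≠ 0 :=
  (map_ne_zero φ).mpr (RingOfIntegers.coe_ne_zero_iff.mpr hx)

theorem one_le_norm {x : 𝓞 K} (hx : x ≠ 0) : 1 ≤ ‖φ x‖ := by
  have h1 : (1 : ℝ) ≤ absNorm (Ideal.span {x}) := by
    exact_mod_cast Nat.pos_of_ne_zero fun h =>
      hx (Ideal.span_singleton_eq_bot.mp (absNorm_eq_zero_iff.mp h))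
  rw [← sq_norm φ] at h1
  nlinarith [norm_nonneg (φ x)]

theorem log_absNorm (x : 𝓞 K) :
    Real.log (absNorm (Ideal.span {x})) = 2 * Real.log ‖φ x‖ := by
  rw [← sq_norm φ, Real.log_pow, Nat.cast_ofNat]

theorem norm_unit (u : (𝓞 K)ˣ) : ‖φ (u : 𝓞 K)‖ = 1 := by
  have h := sq_norm φ (u : 𝓞 K)
  rw [Ideal.span_singleton_eq_top.mpr u.isUnit, Ideal.absNorm_top, Nat.cast_one] at h
  nlinarith [norm_nonneg (φ (u : 𝓞 K))]

theorem dir_unit (u : (𝓞 K)ˣ) : dir (φ (u : 𝓞 K)) = φ (u : 𝓞 K) := by
  rw [dir, norm_unit, Complex.ofReal_one, div_one]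

variable (K) in
/-- **The units are finitely many.** -/
theorem finite_units : Finite (𝓞 K)ˣ := by
  have htop : Units.torsion K = ⊤ := by
    have : IsEmpty (Fin (Units.rank K)) := by
      rw [Units.rank, card_place K]
      exact Fin.isEmpty
    simpa [Set.range_eq_empty] using Units.closure_fundSystem_sup_torsion_eq_top K
  exact Finite.of_equiv (Units.torsion K)
    ((Equiv.setCongr (by rw [htop]; rfl)).trans (Equiv.Set.univ _))

/-- The units as a finite type. -/
instance instFintypeUnits : Fintype (𝓞 K)ˣ :=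
  haveI := finite_units K
  Fintype.ofFinite _

/-- **The sum of `|φ x| ^ -r` over the integers.** -/
theorem summable_norm_rpow {r : ℝ} (hr : 2 < r) :
    Summable fun x : 𝓞 K => ‖φ x‖ ^ (-r) := by
  have hr0 : -r ≠ 0 := by linarith
  obtain ⟨g, hg⟩ : ∃ g : {I : (Ideal (𝓞 K))⁰ // ∃ x, I.1 = Ideal.span {x}} → 𝓞 K,
      ∀ I, I.1.1 = Ideal.span {g I} := ⟨fun I => I.2.choose, fun I => I.2.choose_spec⟩
  let e : (𝓞 K)ˣ × {I : (Ideal (𝓞 K))⁰ // ∃ x, I.1 = Ideal.span {x}} → 𝓞 K :=
    fun p => (p.1 : 𝓞 K) * g p.2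
  have hg0 : ∀ I, g I ≠ 0 := fun I h0 => nonZeroDivisors.coe_ne_zero I.1
    ((hg I).trans (by rw [h0]; simp))
  have he : Function.Injective e := by
    rintro ⟨u, I⟩ ⟨u', I'⟩ h
    simp only [e] at h
    obtain rfl : I = I' := Subtype.ext (Subtype.ext (by
      rw [hg, hg, ← Ideal.span_singleton_mul_left_unit u.isUnit, h,
        Ideal.span_singleton_mul_left_unit u'.isUnit]))
    rw [Units.ext (mul_right_cancel₀ (hg0 I) h)]
  have hout : ∀ x : 𝓞 K, x ∉ Set.range e → ‖φ x‖ ^ (-r) = 0 := fun x hx => by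
    rcases eq_or_ne x 0 with rfl | hx0
    · simp [Real.zero_rpow hr0]
    refine absurd ?_ hx
    let I : {I : (Ideal (𝓞 K))⁰ // ∃ y, I.1 = Ideal.span {y}} :=
      ⟨⟨Ideal.span {x}, mem_nonZeroDivisors_iff_ne_zero.mpr (by simpa using hx0)⟩, x, rfl⟩
    obtain ⟨u, hu⟩ := Ideal.span_singleton_eq_span_singleton.mp (hg I).symm
    exact ⟨(u, I), by rw [← hu]; exact mul_comm _ _⟩
  have hs : Summable fun p : (𝓞 K)ˣ × {I : (Ideal (𝓞 K))⁰ // ∃ x, I.1 = Ideal.span {x}} =>
      zN (r / 2) p.2.1 :=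
    (summable_prod_of_nonneg fun p => Real.rpow_nonneg (Nat.cast_nonneg _) _).mpr
      ⟨fun _ => (summable_zN (by linarith)).comp_injective Subtype.val_injective,
        Summable.of_finite⟩
  refine (he.summable_iff hout).mp (hs.congr fun p => ?_)
  simp only [Function.comp_apply, e, map_mul, norm_mul, norm_unit, one_mul]
  rw [zN, hg, ← sq_norm φ, ← Real.rpow_natCast, ← Real.rpow_mul (norm_nonneg _)]
  congr 1
  push_cast
  ring

/-- The integers of bounded absolute value are finitely many. -/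
theorem finite_norm_lt (R : ℝ) : {x : 𝓞 K | ‖φ x‖ < R}.Finite := by
  rcases le_or_gt R 0 with hR | hR
  · exact Set.finite_empty.subset fun x hx => absurd (lt_of_lt_of_le hx hR) (norm_nonneg _).not_gt
  have h := (summable_norm_rpow φ (r := 3) (by norm_num)).tendsto_cofinite_zero.eventually
    (gt_mem_nhds (show 0 < R ^ (-(3 : ℝ)) by positivity))
  refine ((Filter.eventually_cofinite.mp h).union (Set.finite_singleton 0)).subset fun x hx => ?_
  rcases eq_or_ne x 0 with rfl | hx0
  · exact Or.inr rfl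
  · exact Or.inl (not_lt.mpr (Real.rpow_le_rpow_of_nonpos
      (norm_pos_iff.mpr (map_ne_zero' φ hx0)) hx.le (by norm_num)))

/-- An integer off the real line. -/
theorem exists_im_ne_zero : ∃ w : 𝓞 K, (φ w).im ≠ 0 := by
  by_contra h
  push Not at h
  refine IsTotallyComplex.complexEmbedding_not_isReal φ (RingHom.ext fun y => ?_)
  obtain ⟨a, b, -, rfl⟩ := IsFractionRing.div_surjective (A := 𝓞 K) y
  have ha : ∀ a : 𝓞 K, starRingEnd ℂ (φ a) = φ a := fun a => Complex.conj_eq_iff_im.mpr (h a)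
  show starRingEnd ℂ (φ ((a : K) / b)) = φ ((a : K) / b)
  rw [map_div₀, map_div₀, ha, ha]

/-- **No power of the direction is trivial.** -/
theorem exists_dir_zpow_ne_one {k : ℤ} (hk : k ≠ 0) :
    ∃ β : 𝓞 K, β ≠ 0 ∧ dir (φ β) ^ k ≠ 1 := by
  obtain ⟨w, hw⟩ := exists_im_ne_zero φ
  by_contra hcon
  push Not at hcon
  have hm : 0 < k.natAbs := Int.natAbs_pos.mpr hk
  have hne : ∀ n : ℕ, (n : 𝓞 K) + w ≠ 0 := fun n h => hw (by
    have := congrArg (fun y : 𝓞 K => (φ y).im) h
    simpa using this)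
  have hroot : ∀ n : ℕ, dir (φ ((n : 𝓞 K) + w : 𝓞 K)) ∈
      {z : ℂ | z ^ k.natAbs = 1} := fun n => by
    have h := hcon _ (hne n)
    simp only [Set.mem_ofPred_eq]
    rcases Int.natAbs_eq k with e | e
    · rwa [e, zpow_natCast] at h
    · rwa [e, zpow_neg, inv_eq_one, zpow_natCast] at h
  have : Finite {z : ℂ | z ^ k.natAbs = 1} := by
    refine Set.Finite.to_subtype ?_
    refine (Polynomial.nthRoots k.natAbs (1 : ℂ)).toFinset.finite_toSet.subset fun z hz => ?_
    simpa [Polynomial.mem_nthRoots hm] using hz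
  obtain ⟨n, n', hn, he⟩ := Finite.exists_ne_map_eq_of_infinite
    fun n : ℕ => (⟨_, hroot n⟩ : {z : ℂ | z ^ k.natAbs = 1})
  have he' := congrArg Subtype.val he
  simp only [dir, map_add, map_natCast] at he'
  have h0 : ∀ n : ℕ, ((‖(n : ℂ) + φ w‖ : ℝ) : ℂ) ≠ 0 := fun n => by
    rw [Complex.ofReal_ne_zero, norm_ne_zero_iff]
    simpa using map_ne_zero' φ (hne n)
  rw [div_eq_div_iff (h0 n) (h0 n')] at he'
  have h1 := congrArg Complex.im he'
  simp only [Complex.mul_im, Complex.add_re, Complex.add_im, Complex.natCast_re,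
    Complex.natCast_im, Complex.ofReal_re, Complex.ofReal_im, mul_zero, zero_add] at h1
  have h2 := mul_left_cancel₀ hw h1
  have h3 := congrArg Complex.re he'
  simp only [Complex.mul_re, Complex.add_re, Complex.add_im, Complex.natCast_re,
    Complex.natCast_im, Complex.ofReal_re, Complex.ofReal_im, mul_zero, sub_zero, zero_add] at h3
  rw [h2] at h3
  have h4 : (n : ℝ) + (φ w).re = n' + (φ w).re :=
    mul_right_cancel₀ (norm_ne_zero_iff.mpr (by simpa using map_ne_zero' φ (hne n))) h3
  exact hn (by exact_mod_cast add_right_cancel h4)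

end FA.ImagQuad

end
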