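import Fermat.Agent.ImagQuadAngles.Field

/-!
# Sums of `(z / |z|) ^ k |z| ^ (-2 s)` over the integers of an imaginary quadratic field

A translation changes the sum over the lattice by a function holomorphic on `1 / 2 < re s`, so
for every integer `β ≠ 0` the cosets of `β` make `(1 - (β / |β|) ^ k N (β) ^ (1 - s)) Z (s)` one.
For `k ≠ 0` the factors of `2`, `3` and one suitable `β` have no common zero.
-/

set_option autoImplicit false
set_option linter.unusedSectionVars false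

noncomputable section

open NumberField IsDedekindDomain Ideal Filter Topology Module
open FA.GaussAngle (dir g g_zero g_of_ne g_mul norm_g differentiable_g shiftBound norm_g_add_sub_le
  plane isOpen_plane g_natCast exists_div_continuation)
open FA.PrimeIdeal (twistFactor)
open scoped nonZeroDivisors Classical

namespace FA.ImagQuad

variable {K : Type*} [Field K] [NumberField K] [IsTotallyComplex K]
  [Algebra.IsQuadraticExtension ℚ K] (φ : K →+* ℂ)

/-- The sum over the integers. -/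
def latSum (k : ℤ) (s : ℂ) : ℂ := ∑' v : 𝓞 K, g k s (φ v)

/-- The sum of the differences under a translation. -/
def shiftDiff (k : ℤ) (a s : ℂ) : ℂ := ∑' v : 𝓞 K, (g k s (φ v + a) - g k s (φ v))

theorem exists_shift_bound (k : ℤ) (a : ℂ) {σ₀ R : ℝ} (hσ : 1 / 2 < σ₀) :
    ∃ u : 𝓞 K → ℝ, Summable u ∧ ∀ (v : 𝓞 K) (s : ℂ), σ₀ ≤ s.re → ‖s‖ ≤ R →
      ‖g k s (φ v + a) - g k s (φ v)‖ ≤ u v := by
  rcases eq_or_ne a 0 with rfl | ha0
  · exact ⟨0, summable_zero, fun v s _ _ => by simp⟩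
  rcases lt_or_ge R 0 with hR | hR
  · exact ⟨0, summable_zero, fun v s _ hs => absurd ((norm_nonneg s).trans hs) (not_le.mpr hR)⟩
  have hB : 0 ≤ shiftBound k R a := by unfold shiftBound; positivity
  refine ⟨fun v => if 2 * ‖a‖ ≤ ‖φ v‖ then shiftBound k R a * ‖φ v‖ ^ (-(2 * σ₀ + 1)) else
    Real.exp (2 * R * |Real.log ‖φ v + a‖|) + Real.exp (2 * R * |Real.log ‖φ v‖|), ?_,
    fun v s hs hsR => ?_⟩
  · refine ((summable_norm_rpow φ (r := 2 * σ₀ + 1) (by linarith)).mul_left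
      (shiftBound k R a)).congr_cofinite ?_
    filter_upwards [(finite_norm_lt φ (2 * ‖a‖)).compl_mem_cofinite] with v hv
    rw [if_pos (by simpa using hv)]
  · have hsR' : |s.re| ≤ R := (Complex.abs_re_le_norm s).trans hsR
    simp only
    split_ifs with h
    · have hv : v ≠ 0 := fun e => by
        rw [e] at h; simp only [map_zero, norm_zero] at h
        exact ha0 (norm_le_zero_iff.mp (by linarith))
      refine (norm_g_add_sub_le (map_ne_zero' φ hv) h hsR).trans
        (mul_le_mul_of_nonneg_left ?_ hB)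
      exact Real.rpow_le_rpow_of_exponent_le (one_le_norm φ hv) (by linarith)
    · have hle : ∀ z : ℂ, ‖g k s z‖ ≤ Real.exp (2 * R * |Real.log ‖z‖|) := fun z => by
        rcases eq_or_ne z 0 with rfl | hz
        · rw [g_zero, norm_zero]; positivity
        rw [norm_g hz, Real.rpow_def_of_pos (norm_pos_iff.mpr hz)]
        refine Real.exp_le_exp.mpr ((le_abs_self _).trans ?_)
        rw [abs_mul, abs_mul, abs_neg, abs_two]
        nlinarith [mul_le_mul_of_nonneg_left hsR' (abs_nonneg (Real.log ‖z‖))]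
      exact (norm_sub_le _ _).trans (add_le_add (hle _) (hle _))

theorem differentiableOn_shiftDiff (k : ℤ) (a : ℂ) :
    DifferentiableOn ℂ (shiftDiff φ k a) plane := fun s₀ (hs₀ : 1 / 2 < s₀.re) => by
  obtain ⟨σ₀, hσ₀⟩ : ∃ σ₀, σ₀ = (1 / 2 + s₀.re) / 2 := ⟨_, rfl⟩
  obtain ⟨u, hu, hb⟩ := exists_shift_bound φ k a (σ₀ := σ₀) (R := ‖s₀‖ + 1) (by linarith)
  obtain ⟨V, hV⟩ : ∃ V, V = {s : ℂ | σ₀ < s.re ∧ ‖s‖ < ‖s₀‖ + 1} := ⟨_, rfl⟩
  have hopen : IsOpen V := hV ▸ (isOpen_lt continuous_const Complex.continuous_re).inter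
    (isOpen_lt continuous_norm continuous_const)
  have hd : DifferentiableOn ℂ (shiftDiff φ k a) V :=
    Complex.differentiableOn_tsum_of_summable_norm hu (fun v =>
      ((differentiable_g k _).sub (differentiable_g k _)).differentiableOn) hopen
      fun v s hs => by rw [hV] at hs; exact hb v s hs.1.le hs.2.le
  exact (hd.differentiableAt (hopen.mem_nhds (by rw [hV]; exact ⟨by linarith, by linarith⟩)))
    |>.differentiableWithinAt

theorem norm_g_le (k : ℤ) (s z : ℂ) :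
    ‖g k s z‖ ≤ ‖z‖ ^ (-(2 * s.re)) := by
  rcases eq_or_ne z 0 with rfl | hz
  · rw [g_zero, norm_zero]; positivity
  rw [norm_g hz, neg_mul]

theorem summable_g (k : ℤ) {s : ℂ} (hs : 1 < s.re) : Summable fun v : 𝓞 K => g k s (φ v) :=
  Summable.of_norm_bounded (summable_norm_rpow φ (r := 2 * s.re) (by linarith)) fun _ =>
    norm_g_le k s _

theorem hasSum_shift (k : ℤ) (a : ℂ) {s : ℂ} (hs : 1 < s.re) :
    HasSum (fun v : 𝓞 K => g k s (φ v + a)) (latSum φ k s + shiftDiff φ k a s) := by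
  obtain ⟨u, hu, hb⟩ := exists_shift_bound φ k a (σ₀ := s.re) (R := ‖s‖) (by linarith)
  have h := (summable_g φ k hs).hasSum.add
    (Summable.of_norm_bounded hu fun v => hb v s le_rfl le_rfl).hasSum
  simp only [add_sub_cancel] at h
  exact h

/-- **The sum over the cosets of `β`.** -/
theorem hasSum_cosets (k : ℤ) {β : 𝓞 K} (hβ : β ≠ 0) {w : 𝓞 K → ℂ}
    (hw : ∀ v x : 𝓞 K, w (v + β * x) = w v) [Fintype (𝓞 K ⧸ Ideal.span {β})] {s : ℂ}
    (hs : 1 < s.re) :
    HasSum (fun v : 𝓞 K => w v * g k s (φ v))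
      (g k s (φ β) * ∑ j : 𝓞 K ⧸ Ideal.span {β}, w (Quotient.out j) *
        (latSum φ k s + shiftDiff φ k (φ (Quotient.out j : 𝓞 K) / φ β) s)) := by
  let e : (𝓞 K ⧸ Ideal.span {β}) × 𝓞 K → 𝓞 K := fun p => Quotient.out p.1 + β * p.2
  have hmk : ∀ p, Ideal.Quotient.mk (Ideal.span {β}) (e p) = p.1 := fun p => by
    simp only [e, map_add, map_mul, Ideal.Quotient.eq_zero_iff_mem.mpr
      (Ideal.mem_span_singleton_self β), zero_mul, add_zero]
    exact Quotient.out_eq _
  have he : Function.Bijective e := by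
    refine ⟨fun p q h => ?_, fun v => ?_⟩
    · have h1 : p.1 = q.1 := by rw [← hmk p, h, hmk]
      refine Prod.ext h1 (mul_left_cancel₀ hβ ?_)
      simpa [e, h1] using h
    · have hv : v - Quotient.out (Ideal.Quotient.mk (Ideal.span {β}) v) ∈ Ideal.span {β} :=
        Ideal.Quotient.eq.mp (Quotient.out_eq _).symm
      obtain ⟨x, hx⟩ := Ideal.mem_span_singleton'.mp hv
      exact ⟨(Ideal.Quotient.mk _ v, x), by simp only [e]; rw [mul_comm, hx]; ring⟩
  have hβ' := map_ne_zero' φ hβ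
  have hj : ∀ j, HasSum (fun x : 𝓞 K => w (e (j, x)) * g k s (φ (e (j, x))))
      (g k s (φ β) * (w (Quotient.out j) *
        (latSum φ k s + shiftDiff φ k (φ (Quotient.out j : 𝓞 K) / φ β) s))) := fun j => by
    refine (((hasSum_shift φ k _ hs).mul_left (w (Quotient.out j))).mul_left
      (g k s (φ β))).congr_fun fun x => ?_
    simp only [e, hw, map_add, map_mul]
    rw [mul_left_comm, ← g_mul, mul_add, mul_div_cancel₀ _ hβ', add_comm]
  have hS : Summable fun p => w (e p) * g k s (φ (e p)) := by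
    refine Summable.of_norm_bounded (((summable_g φ k hs).comp_injective he.1).norm.mul_left
      (∑ j : 𝓞 K ⧸ Ideal.span {β}, ‖w (Quotient.out j)‖)) fun p => ?_
    rw [norm_mul]
    refine mul_le_mul_of_nonneg_right ?_ (norm_nonneg _)
    rw [show w (e p) = w (Quotient.out p.1) from hw _ _]
    exact Finset.single_le_sum (fun j _ => norm_nonneg (w (Quotient.out j))) (Finset.mem_univ p.1)
  rw [Finset.mul_sum, ← (Equiv.ofBijective e he).hasSum_iff]
  have h := hS.hasSum
  rwa [(h.prod_fiberwise hj).unique (hasSum_fintype _)] at h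

theorem card_quotient_span {β : 𝓞 K} [Fintype (𝓞 K ⧸ Ideal.span {β})] :
    Fintype.card (𝓞 K ⧸ Ideal.span {β}) = absNorm (Ideal.span {β}) := by
  rw [Ideal.absNorm_apply, Submodule.cardQuot_apply, Nat.card_eq_fintype_card]

/-- The Euler-type factor of `β`. -/
def coFactor (k : ℤ) (β : 𝓞 K) (s : ℂ) : ℂ :=
  1 - ((absNorm (Ideal.span {β}) : ℕ) : ℂ) * g k s (φ β)

theorem differentiable_coFactor (k : ℤ) (β : 𝓞 K) : Differentiable ℂ (coFactor φ k β) :=
  ((differentiable_g k _).const_mul _).const_sub 1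

/-- **The factor of `β` times the sum continues.** -/
theorem exists_scaled (k : ℤ) {β : 𝓞 K} (hβ : β ≠ 0) :
    ∃ H : ℂ → ℂ, DifferentiableOn ℂ H plane ∧
      ∀ s : ℂ, 1 < s.re → coFactor φ k β s * latSum φ k s = H s := by
  have : Finite (𝓞 K ⧸ Ideal.span {β}) :=
    Ideal.finiteQuotientOfFreeOfNeBot _ (by simpa using hβ)
  let _ : Fintype (𝓞 K ⧸ Ideal.span {β}) := Fintype.ofFinite _
  refine ⟨fun s => g k s (φ β) * ∑ j : 𝓞 K ⧸ Ideal.span {β},
    shiftDiff φ k (φ (Quotient.out j : 𝓞 K) / φ β) s, ?_, fun s hs => ?_⟩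
  · exact (differentiable_g k _).differentiableOn.mul
      (DifferentiableOn.fun_sum fun j _ => differentiableOn_shiftDiff φ k _)
  · have h := hasSum_cosets φ k hβ (w := fun _ => (1 : ℂ)) (fun _ _ => rfl) hs
    simp only [one_mul, Finset.sum_add_distrib, Finset.sum_const, Finset.card_univ,
      nsmul_eq_mul, card_quotient_span] at h
    have hu := (summable_g φ k hs).hasSum.unique h
    rw [coFactor]
    unfold latSum at hu ⊢
    linear_combination hu

theorem coFactor_natCast (k : ℤ) {m : ℕ} (hm : m ≠ 0) (s : ℂ) :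
    coFactor φ k (m : 𝓞 K) s = twistFactor (m ^ 2) s := by
  rw [coFactor, FA.PrimeIdeal.absNorm_span_natCast, Algebra.IsQuadraticExtension.finrank_eq_two,
    show φ ((m : 𝓞 K) : K) = (m : ℂ) by simp, g_natCast hm]
  ring

theorem coFactor_one_ne_zero {k : ℤ} {β : 𝓞 K} (hβ : β ≠ 0) (h : dir (φ β) ^ k ≠ 1) :
    coFactor φ k β 1 ≠ 0 := by
  have hn : (absNorm (Ideal.span {β}) : ℝ) = ‖φ β‖ ^ 2 := (sq_norm φ β).symm
  have hpos : 0 < ‖φ β‖ := norm_pos_iff.mpr (map_ne_zero' φ hβ)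
  rw [coFactor, g_of_ne (map_ne_zero' φ hβ), ← Complex.ofReal_natCast, hn,
    show -2 * (1 : ℂ) * ((Real.log ‖φ β‖ : ℝ) : ℂ) = ((-(2 * Real.log ‖φ β‖) : ℝ) : ℂ) by
      push_cast; ring, ← Complex.ofReal_exp, Real.exp_neg,
    show Real.exp (2 * Real.log ‖φ β‖) = ‖φ β‖ ^ 2 by
      rw [two_mul, Real.exp_add, Real.exp_log hpos, sq],
    mul_left_comm, ← Complex.ofReal_mul, mul_inv_cancel₀ (by positivity), Complex.ofReal_one,
    mul_one, sub_ne_zero]
  exact h.symm

/-- **The lattice sum continues to `1 / 2 < re s`** for `k ≠ 0`. -/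
theorem exists_latExt {k : ℤ} (hk : k ≠ 0) :
    ∃ Z : ℂ → ℂ, DifferentiableOn ℂ Z plane ∧ ∀ s : ℂ, 1 < s.re → latSum φ k s = Z s := by
  obtain ⟨β, hβ, hd⟩ := exists_dir_zpow_ne_one φ hk
  obtain ⟨H₂, hH₂, e₂⟩ := exists_scaled φ k (β := ((2 : ℕ) : 𝓞 K))
    (Nat.cast_ne_zero.mpr two_ne_zero)
  obtain ⟨H₃, hH₃, e₃⟩ := exists_scaled φ k (β := ((3 : ℕ) : 𝓞 K))
    (Nat.cast_ne_zero.mpr three_ne_zero)
  obtain ⟨H₅, hH₅, e₅⟩ := exists_scaled φ k hβ
  refine exists_div_continuation (fun i : Fin 3 => coFactor φ k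
    (![((2 : ℕ) : 𝓞 K), ((3 : ℕ) : 𝓞 K), β] i)) ![H₂, H₃, H₅]
    (fun i => (differentiable_coFactor φ k _).differentiableOn) (fun i => ?_) (fun i => ?_)
    fun s _ => ?_
  · fin_cases i
    exacts [hH₂, hH₃, hH₅]
  · fin_cases i
    exacts [e₂, e₃, e₅]
  · by_contra h
    push Not at h
    have h2 := h 0
    have h3 := h 1
    simp only [Matrix.cons_val_zero, Matrix.cons_val_one] at h2 h3
    rw [coFactor_natCast φ k two_ne_zero] at h2
    rw [coFactor_natCast φ k three_ne_zero] at h3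
    have h1 := FA.PrimeIdeal.twistFactor_two_three two_ne_zero h2 h3
    subst h1
    exact coFactor_one_ne_zero φ hβ hd (h 2)

/-- **Periodic weights.** -/
theorem exists_periodic_ext {k : ℤ} (hk : k ≠ 0) {β : 𝓞 K} (hβ : β ≠ 0) {w : 𝓞 K → ℂ}
    (hw : ∀ v x : 𝓞 K, w (v + β * x) = w v) :
    ∃ E : ℂ → ℂ, DifferentiableOn ℂ E plane ∧
      ∀ s : ℂ, 1 < s.re → HasSum (fun v : 𝓞 K => w v * g k s (φ v)) (E s) := by
  have : Finite (𝓞 K ⧸ Ideal.span {β}) :=
    Ideal.finiteQuotientOfFreeOfNeBot _ (by simpa using hβ)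
  let _ : Fintype (𝓞 K ⧸ Ideal.span {β}) := Fintype.ofFinite _
  obtain ⟨Z, hZ, hZ'⟩ := exists_latExt φ hk
  refine ⟨fun s => g k s (φ β) * ∑ j : 𝓞 K ⧸ Ideal.span {β}, w (Quotient.out j) *
    (Z s + shiftDiff φ k (φ (Quotient.out j : 𝓞 K) / φ β) s),
    (differentiable_g k _).differentiableOn.mul (DifferentiableOn.fun_sum fun j _ =>
      (hZ.add (differentiableOn_shiftDiff φ k _)).const_mul _), fun s hs => ?_⟩
  have h := hasSum_cosets φ k hβ hw hs
  rwa [hZ' s hs] at h

end FA.ImagQuad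

end
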