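import Fermat.Agent.ImagQuadAngles.Character
import Fermat.Agent.NaturalChebotarev.Nonvanishing

/-!
# No zeros on `1 ≤ re s`

The L-series of an angular character is the exponential of a series over the primes, so it has no
zero for `1 < re s`; as the square of a character with `k ≠ 0` has `2 k ≠ 0`, hence no pole, the
inequality of Mertens for `ζ³ L (f)⁴ L (f²)` excludes every zero on the line `re s = 1`.
-/

set_option autoImplicit false
set_option linter.unusedSectionVars false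

noncomputable section

open NumberField IsDedekindDomain Ideal Filter Topology Module FA.PrimeIdeal
open FA.GaussAngle (plane isOpen_plane)
open FA.Hecke (lHom heckeL fPow logF IsRayChar exists_heckeG)
open FA.Ext
open scoped nonZeroDivisors Classical

namespace FA.ImagQuad

variable {K : Type*} [Field K] [NumberField K] [IsTotallyComplex K]
  [Algebra.IsQuadraticExtension ℚ K] {φ : K →+* ℂ} {𝔪 : Ideal (𝓞 K)} {k : ℤ}
  {f : Ideal (𝓞 K) →* ℂ}

theorem mem_plane {s : ℂ} (hs : 1 ≤ s.re) : s ∈ plane := show (1 : ℝ) / 2 < s.re by linarith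

namespace IsAngChar

theorem norm_fPow_le (h : IsAngChar φ 𝔪 k f) (s : ℂ) (v : HeightOneSpectrum (𝓞 K)) :
    ‖fPow f s v‖ ≤ ‖primePow s v‖ := by
  rw [fPow, norm_mul]
  exact mul_le_of_le_one_left (norm_nonneg _) (h.norm_le v.ne_bot)

theorem norm_fPow_le_half (h : IsAngChar φ 𝔪 k f) {s : ℂ} (hs : 1 ≤ s.re)
    (v : HeightOneSpectrum (𝓞 K)) : ‖fPow f s v‖ ≤ 1 / 2 :=
  (h.norm_fPow_le s v).trans (norm_primePow_le_half hs v)

theorem norm_logTerm_le (h : IsAngChar φ 𝔪 k f) {s : ℂ} (hs : 1 ≤ s.re)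
    (v : HeightOneSpectrum (𝓞 K)) :
    ‖-Complex.log (1 - fPow f s v)‖ ≤ 3 / 2 * zN s.re (primeIdeal v) := by
  rw [norm_neg, sub_eq_add_neg]
  refine (Complex.norm_log_one_add_half_le_self
    ((norm_neg _).trans_le (h.norm_fPow_le_half hs v))).trans ?_
  rw [norm_neg, ← norm_primePow]
  exact mul_le_mul_of_nonneg_left (h.norm_fPow_le s v) (by norm_num)

theorem summable_logTerm (h : IsAngChar φ 𝔪 k f) {s : ℂ} (hs : 1 < s.re) :
    Summable fun v : HeightOneSpectrum (𝓞 K) => -Complex.log (1 - fPow f s v) :=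
  Summable.of_norm_bounded ((summable_zN_primeIdeal hs).mul_left _) (h.norm_logTerm_le hs.le)

/-- **The Euler product.** -/
theorem exp_logF (h : IsAngChar φ 𝔪 k f) {s : ℂ} (hs : 1 < s.re) :
    Complex.exp (logF f s) = heckeL f s := by
  have hlt : ∀ v, ‖lHom f s (primeIdeal v)‖ < 1 := fun v =>
    lt_of_le_of_lt (h.norm_fPow_le_half hs.le v) (by norm_num)
  have hp : HasProd _ (Complex.exp (logF f s)) := (h.summable_logTerm hs).hasSum.cexp
  refine tendsto_nhds_unique hp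
    ((tendsto_eulerProduct _ (h.summable_lHom hs) hlt).congr fun V => ?_)
  refine Finset.prod_congr rfl fun v _ => ?_
  rw [Function.comp_apply, Complex.exp_neg,
    Complex.exp_log (Complex.slitPlane_ne_zero (one_sub_mem_slitPlane
      (h.norm_fPow_le_half hs.le v)))]
  rfl

theorem heckeL_ne_zero (h : IsAngChar φ 𝔪 k f) {s : ℂ} (hs : 1 < s.re) : heckeL f s ≠ 0 :=
  h.exp_logF hs ▸ Complex.exp_ne_zero _

theorem hasDerivAt_logTerm (h : IsAngChar φ 𝔪 k f) {s : ℂ} (hs : 1 ≤ s.re)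
    (v : HeightOneSpectrum (𝓞 K)) :
    HasDerivAt (fun z => -Complex.log (1 - fPow f z v))
      (-((Real.log (absNorm v.asIdeal) : ℂ) * (fPow f s v / (1 - fPow f s v)))) s := by
  have hn : ((absNorm v.asIdeal : ℕ) : ℂ) ≠ 0 :=
    Nat.cast_ne_zero.mpr (zero_lt_two.trans_le (two_le_absNorm v)).ne'
  have h' := ((((hasDerivAt_id s).neg.const_cpow (c := ((absNorm v.asIdeal : ℕ) : ℂ))
    (Or.inl hn)).const_mul (f v.asIdeal)).const_sub 1).clog
      (one_sub_mem_slitPlane (h.norm_fPow_le_half hs v))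
  refine h'.neg.congr_deriv ?_
  simp only [Pi.neg_apply, id_eq, Complex.natCast_log, fPow, primePow]
  ring

/-- **The logarithmic derivative.** -/
theorem hasSum_negLogDeriv (h : IsAngChar φ 𝔪 k f) {s : ℂ} (hs : 1 < s.re) :
    HasSum (fun v : HeightOneSpectrum (𝓞 K) =>
      (Real.log (absNorm v.asIdeal) : ℂ) * (fPow f s v / (1 - fPow f s v)))
      (-deriv (heckeL f) s / heckeL f s) := by
  obtain ⟨σ, hσ'⟩ : ∃ σ, σ = (1 + s.re) / 2 := ⟨_, rfl⟩
  have hσ : 1 < σ := by linarith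
  have hV : IsOpen {z : ℂ | σ < z.re} := isOpen_lt continuous_const Complex.continuous_re
  have hsV : s ∈ {z : ℂ | σ < z.re} := show σ < s.re by linarith
  have hb : ∀ (v : HeightOneSpectrum (𝓞 K)) (z : ℂ), z ∈ {z : ℂ | σ < z.re} →
      ‖-Complex.log (1 - fPow f z v)‖ ≤ 3 / 2 * zN σ (primeIdeal v) := fun v z hz =>
    (h.norm_logTerm_le (hσ.le.trans (le_of_lt hz)) v).trans (mul_le_mul_of_nonneg_left
      (Real.rpow_le_rpow_of_exponent_le (one_le_absNorm _) (neg_le_neg (le_of_lt hz)))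
      (by norm_num))
  have hd : ∀ v : HeightOneSpectrum (𝓞 K),
      DifferentiableOn ℂ (fun z => -Complex.log (1 - fPow f z v)) {z : ℂ | σ < z.re} :=
    fun v z hz =>
    (h.hasDerivAt_logTerm (hσ.le.trans (le_of_lt hz)) v).differentiableAt.differentiableWithinAt
  have hu := (summable_zN_primeIdeal (K := K) hσ).mul_left (3 / 2)
  have hL := Complex.hasSum_deriv_of_summable_norm hu hd hV hb hsV
  have hdiff : DifferentiableAt ℂ (logF f) s :=
    (Complex.differentiableOn_tsum_of_summable_norm hu hd hV hb).differentiableAt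
      (hV.mem_nhds hsV)
  have hexp : deriv (heckeL f) s = deriv (logF f) s * heckeL f s := by
    have he : heckeL f =ᶠ[𝓝 s] fun z => Complex.exp (logF f z) := by
      filter_upwards [(isOpen_lt continuous_const Complex.continuous_re).mem_nhds hs] with z hz
      exact (h.exp_logF hz).symm
    rw [he.deriv_eq, deriv_cexp hdiff, h.exp_logF hs, mul_comm]
  rw [hexp, ← neg_mul, mul_div_cancel_right₀ _ (h.heckeL_ne_zero hs)]
  refine hL.neg.congr_fun fun v => ?_
  rw [(h.hasDerivAt_logTerm hs.le v).deriv, neg_neg]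

theorem prime_zero_or_one (h : IsAngChar φ 𝔪 k f) (v : HeightOneSpectrum (𝓞 K)) :
    f v.asIdeal = 0 ∨ ‖f v.asIdeal‖ = 1 :=
  or_iff_not_imp_left.mpr fun h0 => h.norm_eq_one v.ne_bot h0

/-- **The inequality of Mertens.** -/
theorem one_le_norm_product (h : IsAngChar φ 𝔪 k f) {σ : ℝ} (hσ : 1 < σ) (t : ℝ) :
    1 ≤ ‖heckeL (1 : Ideal (𝓞 K) →* ℂ) σ ^ 3 * heckeL f (σ + t * Complex.I) ^ 4 *
      heckeL (f * f) (σ + 2 * t * Complex.I)‖ := by
  have h1 : IsRayChar (⊤ : Ideal (𝓞 K)) (1 : Ideal (𝓞 K) →* ℂ) := IsRayChar.one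
  have h₀ : 1 < ((σ : ℂ)).re := by simpa using hσ
  have h₁ : 1 < ((σ : ℂ) + t * Complex.I).re := by simpa using hσ
  have h₂ : 1 < ((σ : ℂ) + 2 * t * Complex.I).re := by simpa using hσ
  have H₀ := h1.summable_logTerm h₀
  have H₁ := h.summable_logTerm h₁
  have H₂ := (h.mul h).summable_logTerm h₂
  have hsum₀ := (Complex.hasSum_re H₀.hasSum).summable.mul_left 3
  have hsum₁ := (Complex.hasSum_re H₁.hasSum).summable.mul_left 4
  have hsum₂ := (Complex.hasSum_re H₂.hasSum).summable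
  rw [← h1.exp_logF h₀, ← h.exp_logF h₁, ← (h.mul h).exp_logF h₂]
  simp only [← Complex.exp_nat_mul, Nat.cast_ofNat, ← Complex.exp_add, Complex.norm_exp,
    Complex.add_re, Complex.mul_re, Complex.re_ofNat, Complex.im_ofNat, zero_mul, sub_zero,
    Real.one_le_exp_iff, logF]
  rw [Complex.re_tsum H₀, Complex.re_tsum H₁, Complex.re_tsum H₂, ← tsum_mul_left, ← tsum_mul_left,
    ← hsum₀.tsum_add hsum₁, ← (hsum₀.add hsum₁).tsum_add hsum₂]
  refine tsum_nonneg fun v => ?_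
  obtain ⟨n, hn'⟩ : ∃ n, n = absNorm v.asIdeal := ⟨_, rfl⟩
  have hn : 0 < n := hn' ▸ zero_lt_two.trans_le (two_le_absNorm v)
  have hn0 : (n : ℂ) ≠ 0 := Nat.cast_ne_zero.mpr hn.ne'
  have e₀ : fPow (1 : Ideal (𝓞 K) →* ℂ) (σ : ℂ) v = (((n : ℝ) ^ (-σ) : ℝ) : ℂ) := by
    rw [Complex.ofReal_cpow (Nat.cast_nonneg n)]; simp [fPow, primePow, hn']
  have ha : ((n : ℝ) ^ (-σ)) < 1 := by
    have := norm_primePow_le_half (s := (σ : ℂ)) h₀.le v
    rw [norm_primePow, Complex.ofReal_re, zN_primeIdeal, ← hn'] at this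
    linarith
  rcases h.prime_zero_or_one v with hz0 | hz1
  · have hpos := re_log_comb (Real.rpow_nonneg (Nat.cast_nonneg n) (-σ)) ha (z := 1) (by simp)
    rw [one_pow, mul_one] at hpos
    rw [e₀, fPow, fPow, MonoidHom.mul_apply, hz0, zero_mul, zero_mul, sub_zero, zero_mul,
      sub_zero, Complex.log_one, neg_zero, Complex.zero_re]
    linarith
  obtain ⟨z, hz'⟩ : ∃ z : ℂ, z = f v.asIdeal * (n : ℂ) ^ (-((t : ℂ) * Complex.I)) := ⟨_, rfl⟩
  have hz : ‖z‖ = 1 := by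
    rw [hz', norm_mul, hz1, Complex.norm_natCast_cpow_of_pos hn]; simp
  have e₁ : fPow f ((σ : ℂ) + t * Complex.I) v =
      fPow (1 : Ideal (𝓞 K) →* ℂ) (σ : ℂ) v * z := by
    rw [fPow, fPow, primePow, primePow, ← hn', hz', neg_add, Complex.cpow_add _ _ hn0,
      MonoidHom.one_apply, one_mul]
    ring
  have e₂ : fPow (f * f) ((σ : ℂ) + 2 * t * Complex.I) v =
      fPow (1 : Ideal (𝓞 K) →* ℂ) (σ : ℂ) v * z ^ 2 := by
    rw [fPow, fPow, primePow, primePow, ← hn', hz', neg_add, Complex.cpow_add _ _ hn0, mul_pow,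
      ← Complex.cpow_nat_mul, MonoidHom.mul_apply, MonoidHom.one_apply, one_mul,
      show -(2 * (t : ℂ) * Complex.I) = ((2 : ℕ) : ℂ) * -((t : ℂ) * Complex.I) by push_cast; ring]
    ring
  rw [e₁, e₂, e₀]
  exact re_log_comb (by positivity) ha hz

/-- **No zeros on `1 ≤ re s`** for `k ≠ 0`. -/
theorem ext_ne_zero (h : IsAngChar φ 𝔪 k f) (hk : k ≠ 0) {E : ℂ → ℂ}
    (hE : DifferentiableOn ℂ E plane) (hE' : ∀ s : ℂ, 1 < s.re → heckeL f s = E s) {s : ℂ}
    (hs : 1 ≤ s.re) : E s ≠ 0 := by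
  rcases hs.lt_or_eq with hlt | heq
  · rw [← hE' s hlt]; exact h.heckeL_ne_zero hlt
  intro h0
  obtain ⟨t, ht⟩ : ∃ t, t = s.im := ⟨_, rfl⟩
  have hst : s = 1 + t * Complex.I := Complex.ext (by simp [← heq]) (by simp [ht])
  obtain ⟨E₂, hE₂, hE₂'⟩ := (h.mul h).exists_ext (by omega : k + k ≠ 0)
  obtain ⟨G, hG, -, hG'⟩ := exists_heckeG (IsRayChar.one (K := K))
  have hn := isOpen_plane.mem_nhds (mem_plane hs)
  have hline : ∀ u : ℂ, Continuous fun σ : ℝ => (σ : ℂ) + u := fun u =>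
    Complex.continuous_ofReal.add continuous_const
  obtain ⟨Φ, hΦ⟩ : ∃ Φ : ℝ → ℂ, Φ = fun σ : ℝ =>
      G σ ^ 3 * dslope E s (σ + t * Complex.I) ^ 4 * E₂ (σ + 2 * t * Complex.I) := ⟨_, rfl⟩
  have hc₁ : ContinuousAt (fun σ : ℝ => dslope E s (σ + t * Complex.I)) 1 :=
    (((Complex.differentiableOn_dslope hn).mpr hE).differentiableAt (isOpen_plane.mem_nhds
      (mem_plane (by simp)))).continuousAt.comp (hline _).continuousAt
  have hc₂ : ContinuousAt (fun σ : ℝ => E₂ (σ + 2 * t * Complex.I)) 1 :=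
    (hE₂.differentiableAt (isOpen_plane.mem_nhds
      (mem_plane (by simp)))).continuousAt.comp (hline _).continuousAt
  have hΦ1 : ContinuousAt Φ 1 := hΦ ▸
    (((hG.continuous.comp Complex.continuous_ofReal).continuousAt.pow 3).mul (hc₁.pow 4)).mul hc₂
  have hlim : Tendsto (fun σ : ℝ => ‖((σ : ℂ) - 1) * Φ σ‖) (𝓝[>] 1) (𝓝 0) := by
    have h' : ContinuousAt (fun σ : ℝ => ‖((σ : ℂ) - 1) * Φ σ‖) 1 :=
      ((Complex.continuous_ofReal.continuousAt.sub continuousAt_const).mul hΦ1).norm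
    simpa using h'.tendsto.mono_left nhdsWithin_le_nhds
  have hge : ∀ᶠ σ : ℝ in 𝓝[>] 1, (1 : ℝ) ≤ ‖((σ : ℂ) - 1) * Φ σ‖ := by
    filter_upwards [self_mem_nhdsWithin] with σ hσ
    have hσ' : (1 : ℝ) < σ := hσ
    refine (h.one_le_norm_product hσ' t).trans_eq (congrArg norm ?_)
    have h₀ : 1 < ((σ : ℂ)).re := by simpa using hσ'
    have h1 := sub_smul_dslope E s ((σ : ℂ) + t * Complex.I)
    rw [h0, sub_zero, smul_eq_mul, hst] at h1
    rw [hE' _ (by simpa using hσ'), hE₂' _ (by simpa using hσ'), hΦ, ← h1, hst]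
    simp only [← hG' _ h₀]
    ring
  obtain ⟨σ, hσ1, hσ2⟩ := (hge.and (hlim.eventually (gt_mem_nhds zero_lt_one))).exists
  linarith

end IsAngChar

end FA.ImagQuad

end
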