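import Fermat.Agent.ImagQuadAngles.Elements
import Fermat.Agent.ImagQuadAngles.Forms
import Fermat.Agent.PrimeNumberTheorem.Progression

/-!
# The split primes of `ℚ(√-n)` and laws given by a periodic function

For squarefree `n` the integers are the `(A + B √-n) / 2` with `4 ∣ A² + n B²`. If every large
prime modulo which `-n` is a square has `4 p = A² + n B²`, those primes have density `1 / 2`; if
moreover `a (p) = re (V (A, B) (A + B √-n))` with `V` periodic and unimodular, `a (p) / (2 √p)`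
has the arcsine law on them.
-/

set_option autoImplicit false
set_option linter.unusedSectionVars false

noncomputable section

open NumberField IsDedekindDomain Ideal Filter Topology Module
open FA.GaussAngle (dir norm_dir tendsto_count_cos)
open FA.Hecke (primesLE mem_primesLE hasMean_one hasMean_congr wSum HasMean)
open FA.Equidist (avg ExpMeanZero)
open FA.ThreePrimes (eAdd)
open scoped nonZeroDivisors Classical

namespace FA.ImagQuad

variable {n : ℕ}

theorem coord_unique (hn : 0 < n) {A B A' B' : ℤ}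
    (h : (A : ℂ) + B * rootNeg n = A' + B' * rootNeg n) : A = A' ∧ B = B' := by
  have hre := congrArg Complex.re h
  have him := congrArg Complex.im h
  simp [rootNeg] at hre him
  rcases him with him | him
  · exact ⟨hre, him⟩
  · exact absurd him (by omega)

theorem isSquare_of_rep (hn : 0 < n) {p : ℕ} (hp : p.Prime) (hpn : n < p) (hp2 : 2 < p) {A B : ℤ}
    (h : A ^ 2 + (n : ℤ) * B ^ 2 = 4 * p) :
    IsSquare ((-(n : ℤ) : ℤ) : ZMod p) ∧ ¬(p : ℤ) ∣ A ∧ ¬(p : ℤ) ∣ B := by
  have := Fact.mk hp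
  have hq := Nat.prime_iff_prime_int.mp hp
  have hnb : ¬((p : ℤ) ∣ A ∧ (p : ℤ) ∣ B) := by
    rintro ⟨⟨a, rfl⟩, b, rfl⟩
    have h4 : (p : ℤ) ∣ 4 := ⟨a ^ 2 + n * b ^ 2,
      mul_left_cancel₀ hq.ne_zero (by linear_combination -h)⟩
    have h4' : p ∣ 2 ^ 2 := by exact_mod_cast h4
    exact absurd ((Nat.prime_dvd_prime_iff_eq hp Nat.prime_two).mp (hp.dvd_of_dvd_pow h4'))
      (by omega)
  have hB : ¬(p : ℤ) ∣ B := fun hB => hnb ⟨hq.dvd_of_dvd_pow (n := 2) (by
    rw [show A ^ 2 = 4 * p - n * B ^ 2 by linarith]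
    exact dvd_sub (dvd_mul_left _ _) (dvd_mul_of_dvd_right (dvd_pow hB two_ne_zero) _)), hB⟩
  refine ⟨?_, fun hA => hnb ⟨hA, ?_⟩, hB⟩
  · have hB' : (B : ZMod p) ≠ 0 := by rwa [Ne, ZMod.intCast_zmod_eq_zero_iff_dvd]
    refine ⟨(A : ZMod p) / B, ?_⟩
    have h' := congrArg (Int.cast : ℤ → ZMod p) h
    push_cast at h'
    rw [ZMod.natCast_self, mul_zero] at h'
    push_cast
    field_simp
    linear_combination -h'
  · refine hq.dvd_of_dvd_pow (n := 2) ((hq.dvd_mul.mp
      (show (p : ℤ) ∣ (n : ℤ) * B ^ 2 from ?_)).resolve_left fun h' => ?_)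
    · rw [show (n : ℤ) * B ^ 2 = 4 * p - A ^ 2 by linarith]
      exact dvd_sub (dvd_mul_left _ _) (dvd_pow hA two_ne_zero)
    · exact absurd (Nat.le_of_dvd hn (Int.natCast_dvd_natCast.mp h')) (by omega)

variable [NumberField (QuadIm n)] [IsTotallyComplex (QuadIm n)]
  [Algebra.IsQuadraticExtension ℚ (QuadIm n)]

/-- The embedding. -/
def emb (n : ℕ) : QuadIm n →+* ℂ := (QuadIm n).val.toRingHom

theorem emb_apply (x : QuadIm n) : emb n x = (x : ℂ) := rfl

theorem exists_half_coord (hn : 0 < n) (hsf : Squarefree n) (g : 𝓞 (QuadIm n)) :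
    ∃ A B : ℤ, 2 * emb n g = A + B * rootNeg n := by
  obtain ⟨a, b, t, N, hab, ht, hN⟩ := exists_trace_norm hn g
  obtain ⟨B, hB⟩ : ∃ B : ℤ, 2 * n * b = B := by
    refine exists_int_of_isIntegral (IsIntegral.of_pow two_pos ?_)
    have e : (((2 * n * b : ℚ) : ℂ)) ^ 2 = (((n : ℤ) * (4 * N - t ^ 2) : ℤ) : ℂ) := by
      have e' : (2 * n * b : ℚ) ^ 2 = ((n : ℤ) * (4 * N - t ^ 2) : ℤ) := by
        push_cast; rw [← hN, ← ht]; ring
      rw [← Rat.cast_pow, e']
      push_cast
      rfl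
    rw [e]
    exact isIntegral_algebraMap (R := ℤ) (A := ℂ)
  have hd : (n : ℤ) ∣ B := by
    refine ((Int.squarefree_natCast.mpr hsf).dvd_pow_iff_dvd two_ne_zero).mp ⟨4 * N - t ^ 2, ?_⟩
    have : ((B : ℚ)) ^ 2 = ((n : ℤ) * (4 * N - t ^ 2) : ℤ) := by
      rw [← hB]; push_cast; rw [← hN, ← ht]; ring
    exact_mod_cast this
  obtain ⟨C, rfl⟩ := hd
  have hb : 2 * b = (C : ℚ) := by
    push_cast at hB
    exact mul_left_cancel₀ (Nat.cast_ne_zero.mpr hn.ne') (show (n : ℚ) * (2 * b) = n * C by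
      rw [← hB]; ring)
  refine ⟨t, C, ?_⟩
  have ht' : (2 : ℂ) * a = t := by exact_mod_cast congrArg (fun q : ℚ => (q : ℂ)) ht
  have hb' : (2 : ℂ) * b = C := by exact_mod_cast congrArg (fun q : ℚ => (q : ℂ)) hb
  rw [emb_apply, hab]
  linear_combination ht' + rootNeg n * hb'

theorem norm_rep {g : 𝓞 (QuadIm n)} {A B : ℤ} (h : 2 * emb n g = A + B * rootNeg n) :
    A ^ 2 + (n : ℤ) * B ^ 2 = 4 * (absNorm (Ideal.span {g}) : ℤ) := by
  have h1 : ((A : ℝ)) ^ 2 + n * (B : ℝ) ^ 2 = 4 * (absNorm (Ideal.span {g}) : ℝ) := by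
    rw [← sq_norm (emb n), show (4 : ℝ) * ‖emb n g‖ ^ 2 = ‖2 * emb n g‖ ^ 2 by
      rw [norm_mul, Complex.norm_ofNat]; ring, h, ← Complex.normSq_eq_norm_sq,
      Complex.normSq_apply]
    simp [rootNeg]
    linear_combination -((B : ℝ) ^ 2) * Real.sq_sqrt (Nat.cast_nonneg (α := ℝ) n)
  exact_mod_cast h1

theorem exists_of_rep {N : ℕ} {A B : ℤ} (h : A ^ 2 + (n : ℤ) * B ^ 2 = 4 * N) :
    ∃ g : 𝓞 (QuadIm n),
      2 * emb n g = A + B * rootNeg n ∧ absNorm (Ideal.span {g}) = N := by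
  obtain ⟨z, hz⟩ : ∃ z : QuadIm n, (z : ℂ) = (A + B * rootNeg n) / 2 :=
    ⟨⟨_, div_mem (add_mem (intCast_mem _ A) (mul_mem (intCast_mem _ B)
      (IntermediateField.mem_adjoin_simple_self ℚ _))) (natCast_mem (QuadIm n) 2)⟩, by simp⟩
  have hint : IsIntegral ℤ z := by
    refine (isIntegral_algHom_iff ((QuadIm n).val.restrictScalars ℤ) Subtype.val_injective).mp ?_
    refine ⟨Polynomial.X ^ 2 - (Polynomial.C A * Polynomial.X - Polynomial.C (N : ℤ)), ?_, ?_⟩
    · refine Polynomial.monic_X_pow_sub ?_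
      exact (Polynomial.degree_sub_le _ _).trans_lt (max_lt
        ((Polynomial.degree_C_mul_X_le A).trans_lt (by norm_num))
        (Polynomial.degree_C_le.trans_lt (by norm_num)))
    · have h' : (A : ℂ) ^ 2 + n * (B : ℂ) ^ 2 = 4 * N := by exact_mod_cast h
      rw [Polynomial.eval₂_sub, Polynomial.eval₂_sub, Polynomial.eval₂_X_pow,
        Polynomial.eval₂_mul, Polynomial.eval₂_C, Polynomial.eval₂_C, Polynomial.eval₂_X]
      simp [hz]
      linear_combination ((B : ℂ)) ^ 2 / 4 * rootNeg_sq n - h' / 4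
  obtain ⟨g, hgz⟩ : ∃ g : 𝓞 (QuadIm n), (g : QuadIm n) = z := ⟨⟨z, hint⟩, rfl⟩
  have hg : 2 * emb n g = A + B * rootNeg n := by
    rw [emb_apply, hgz, hz]; ring
  refine ⟨g, hg, ?_⟩
  have h2 := norm_rep hg
  omega

/-- Coordinates. -/
def coord (g : 𝓞 (QuadIm n)) : ℤ × ℤ :=
  if h : ∃ A B : ℤ, 2 * emb n g = A + B * rootNeg n then (h.choose, h.choose_spec.choose) else 0

theorem coord_spec (hn : 0 < n) (hsf : Squarefree n) (g : 𝓞 (QuadIm n)) :
    2 * emb n g = (coord g).1 + (coord g).2 * rootNeg n := by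
  rw [coord, dif_pos (exists_half_coord hn hsf g)]
  exact (exists_half_coord hn hsf g).choose_spec.choose_spec

theorem coord_eq (hn : 0 < n) (hsf : Squarefree n) {g : 𝓞 (QuadIm n)} {A B : ℤ}
    (h : 2 * emb n g = A + B * rootNeg n) : coord g = (A, B) :=
  Prod.ext (coord_unique hn ((coord_spec hn hsf g).symm.trans h)).1
    (coord_unique hn ((coord_spec hn hsf g).symm.trans h)).2

theorem coord_add_mul (hn : 0 < n) (hsf : Squarefree n) (g x : 𝓞 (QuadIm n)) (M : ℕ) :
    coord (g + (M : 𝓞 (QuadIm n)) * x) =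
      ((coord g).1 + M * (coord x).1, (coord g).2 + M * (coord x).2) := by
  refine coord_eq hn hsf ?_
  simp only [map_add, map_mul, map_natCast, mul_add, mul_left_comm (2 : ℂ), coord_spec hn hsf]
  push_cast
  ring

/-- A prime is the norm of exactly two primes and `2 w` integers, if of one. -/
theorem fibres_of_rep (hn : 0 < n) {p : ℕ} (hp : p.Prime) (hpn : n < p) (hp2 : 2 < p) {A B : ℤ}
    (h : A ^ 2 + (n : ℤ) * B ^ 2 = 4 * p) {N : ℕ} (hN : p ≤ N) :
    ((primeElts (K := QuadIm n) N).filter fun g => absNorm (Ideal.span {g}) = p).card =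
        2 * Fintype.card (𝓞 (QuadIm n))ˣ ∧
      ((primesLE (QuadIm n) N).filter fun v => absNorm v.asIdeal = p).card = 2 := by
  obtain ⟨g₀, hg₀, hn₀⟩ := exists_of_rep h
  obtain ⟨g₁, hg₁, hn₁⟩ := exists_of_rep (n := n) (A := A) (B := -B) (N := p)
    (by rw [neg_sq]; exact h)
  have hprod : g₀ * g₁ = (p : 𝓞 (QuadIm n)) := by
    refine RingOfIntegers.coe_injective ((emb n).injective ?_)
    have h' : (A : ℂ) ^ 2 + n * (B : ℂ) ^ 2 = 4 * p := by exact_mod_cast h
    simp only [map_mul, map_natCast]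
    push_cast at hg₁
    linear_combination (h' + 2 * emb n (g₁ : QuadIm n) * hg₀ +
      (A + B * rootNeg n) * hg₁ - (B : ℂ) ^ 2 * rootNeg_sq n) / 4
  have hne : Ideal.span {g₀} ≠ Ideal.span {g₁} := fun e => by
    refine (isSquare_of_rep hn hp hpn hp2 h).2.1 ?_
    have hsum : ((A : ℤ) : 𝓞 (QuadIm n)) ∈ Ideal.span {g₀} := by
      rw [show ((A : ℤ) : 𝓞 (QuadIm n)) = g₀ + g₁ from
        RingOfIntegers.coe_injective ((emb n).injective (by
          simp only [map_add, map_intCast]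
          push_cast at hg₁
          linear_combination -(hg₀ + hg₁) / 2))]
      exact add_mem (Ideal.mem_span_singleton_self _) (e ▸ Ideal.mem_span_singleton_self _)
    have h1 := map_dvd absNorm (Ideal.dvd_iff_le.mpr
      ((Ideal.span_singleton_le_iff_mem _).mpr hsum))
    rw [hn₀, Ideal.absNorm_span_singleton,
      show ((A : ℤ) : 𝓞 (QuadIm n)) = algebraMap ℤ (𝓞 (QuadIm n)) A by simp,
      Algebra.norm_algebraMap, Int.natAbs_pow] at h1
    exact Int.natCast_dvd.mpr (hp.dvd_of_dvd_pow h1)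
  have hp₀ : (absNorm (Ideal.span {g₀})).Prime := by rwa [hn₀]
  have hp₁ : (absNorm (Ideal.span {g₁})).Prime := by rwa [hn₁]
  have hv : ∀ v : HeightOneSpectrum (𝓞 (QuadIm n)), absNorm v.asIdeal = p →
      v = spanPrime hp₀ ∨ v = spanPrime hp₁ := fun v hv => by
    have hmem : g₀ * g₁ ∈ v.asIdeal := by
      rw [hprod]
      exact hv ▸ Ideal.absNorm_mem v.asIdeal
    refine (v.isPrime.mem_or_mem hmem).imp (fun hm => ?_) fun hm => ?_ <;>
      refine HeightOneSpectrum.ext (Eq.symm ((spanPrime _).isMaximal.eq_of_le v.isPrime.ne_top ?_))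
    all_goals exact (Ideal.span_singleton_le_iff_mem _).mpr hm
  refine ⟨?_, ?_⟩
  · obtain ⟨e, he⟩ : ∃ e : (𝓞 (QuadIm n))ˣ ⊕ (𝓞 (QuadIm n))ˣ → 𝓞 (QuadIm n),
        e = Sum.elim (fun u : (𝓞 (QuadIm n))ˣ => g₀ * (u : 𝓞 (QuadIm n)))
          (fun u : (𝓞 (QuadIm n))ˣ => g₁ * (u : 𝓞 (QuadIm n))) := ⟨_, rfl⟩
    have hspan : ∀ x, Ideal.span {e x} =
        Sum.elim (fun _ => Ideal.span {g₀}) (fun _ => Ideal.span {g₁}) x := by
      rw [he]; rintro (u | u) <;> simp [Ideal.span_singleton_mul_right_unit u.isUnit]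
    have hinj : Function.Injective e := by
      intro x y hxy
      have hs := (hspan x).symm.trans ((congrArg (fun g => Ideal.span {g}) hxy).trans (hspan y))
      rw [he] at hxy
      rcases x with u | u <;> rcases y with u' | u' <;>
        simp only [Sum.elim_inl, Sum.elim_inr] at hs hxy
      · rw [Units.ext (mul_left_cancel₀ (ne_zero_of_prime_norm hp₀) hxy)]
      · exact absurd hs hne
      · exact absurd hs.symm hne
      · rw [Units.ext (mul_left_cancel₀ (ne_zero_of_prime_norm hp₁) hxy)]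
    rw [show ((primeElts (K := QuadIm n) N).filter fun g => absNorm (Ideal.span {g}) = p) =
      Finset.univ.map ⟨e, hinj⟩ from ?_, Finset.card_map, Finset.card_univ, Fintype.card_sum,
      two_mul]
    ext g
    simp only [Finset.mem_filter, mem_primeElts, Finset.mem_map, Finset.mem_univ, true_and,
      Function.Embedding.coeFn_mk]
    constructor
    · rintro ⟨⟨-, hpr⟩, hg⟩
      rcases hv (spanPrime hpr) hg with e' | e' <;>
        have e'' := congrArg HeightOneSpectrum.asIdeal e' <;>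
        obtain ⟨u, hu⟩ := Ideal.span_singleton_eq_span_singleton.mp e''.symm
      · exact ⟨Sum.inl u, by rw [he]; exact hu⟩
      · exact ⟨Sum.inr u, by rw [he]; exact hu⟩
    · rintro ⟨x, rfl⟩
      have hx : absNorm (Ideal.span {e x}) = p := by
        rw [hspan]; rcases x with u | u <;> simp only [Sum.elim_inl, Sum.elim_inr, hn₀, hn₁]
      exact ⟨⟨hx.trans_le hN, by rw [hx]; exact hp⟩, hx⟩
  · rw [show ((primesLE (QuadIm n) N).filter fun v => absNorm v.asIdeal = p) =
      {spanPrime hp₀, spanPrime hp₁} from ?_, Finset.card_pair fun e => hne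
        (congrArg HeightOneSpectrum.asIdeal e)]
    ext v
    simp only [Finset.mem_filter, mem_primesLE, Finset.mem_insert, Finset.mem_singleton]
    exact ⟨fun h' => hv v h'.2, by
      rintro (rfl | rfl)
      exacts [⟨hn₀.trans_le hN, hn₀⟩, ⟨hn₁.trans_le hN, hn₁⟩]⟩

theorem isSquare_of_absNorm {p : ℕ} (hp : p.Prime) {v : HeightOneSpectrum (𝓞 (QuadIm n))}
    (hv : absNorm v.asIdeal = p) : IsSquare ((-(n : ℤ) : ℤ) : ZMod p) := by
  obtain ⟨r, hr, -⟩ := exists_of_rep (n := n) (A := 0) (B := 2) (N := n) (by ring)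
  have hr2 : r * r = ((-(n : ℤ) : ℤ) : 𝓞 (QuadIm n)) := by
    refine RingOfIntegers.coe_injective ((emb n).injective ?_)
    simp only [map_mul, map_intCast]
    push_cast at hr ⊢
    linear_combination (emb n (r : QuadIm n) + rootNeg n) * hr / 2 + rootNeg_sq n
  have hcard : Nat.card (𝓞 (QuadIm n) ⧸ v.asIdeal) = p := by
    rw [← hv, Ideal.absNorm_apply, Submodule.cardQuot_apply]
  have : Finite (𝓞 (QuadIm n) ⧸ v.asIdeal) := Ideal.finiteQuotientOfFreeOfNeBot _ v.ne_bot
  have : Fintype (𝓞 (QuadIm n) ⧸ v.asIdeal) := Fintype.ofFinite _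
  rw [Nat.card_eq_fintype_card] at hcard
  refine ⟨(ZMod.ringEquivOfPrime _ hp hcard).symm (Ideal.Quotient.mk _ r), ?_⟩
  rw [← map_mul, ← map_mul, hr2, map_intCast, map_intCast]

/-- The primes of `(N₁, N]` modulo which `-n` is a square. -/
def splitAbove (n N₁ N : ℕ) : Finset ℕ :=
  (Finset.range (N + 1)).filter fun p => N₁ < p ∧ p.Prime ∧ IsSquare ((-(n : ℤ) : ℤ) : ZMod p)

theorem mem_splitAbove {N₁ N p : ℕ} :
    p ∈ splitAbove n N₁ N ↔
      p ≤ N ∧ N₁ < p ∧ p.Prime ∧ IsSquare ((-(n : ℤ) : ℤ) : ZMod p) := by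
  simp [splitAbove]

/-- Every large such prime is `(A² + n B²) / 4`. -/
def HasReps (n N₁ : ℕ) : Prop :=
  n ≤ N₁ ∧ 2 ≤ N₁ ∧ ∀ p : ℕ, p.Prime → N₁ < p → IsSquare ((-(n : ℤ) : ℤ) : ZMod p) →
    ∃ A B : ℤ, A ^ 2 + (n : ℤ) * B ^ 2 = 4 * p

theorem card_above (hn0 : 0 < n) {N₁ : ℕ} (hR : HasReps n N₁) (N : ℕ) :
    ((primeElts (K := QuadIm n) N).filter fun g => N₁ < absNorm (Ideal.span {g})).card =
        2 * Fintype.card (𝓞 (QuadIm n))ˣ * (splitAbove n N₁ N).card ∧
      ((primesLE (QuadIm n) N).filter fun v =>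
        (absNorm v.asIdeal).Prime ∧ N₁ < absNorm v.asIdeal).card =
        2 * (splitAbove n N₁ N).card := by
  obtain ⟨hn, h2, hrep⟩ := hR
  have hfib : ∀ p ∈ splitAbove n N₁ N,
      ((primeElts (K := QuadIm n) N).filter fun g => absNorm (Ideal.span {g}) = p).card =
          2 * Fintype.card (𝓞 (QuadIm n))ˣ ∧
        ((primesLE (QuadIm n) N).filter fun v => absNorm v.asIdeal = p).card = 2 := fun p hp => by
    obtain ⟨hpN, hN1, hpr, hs⟩ := mem_splitAbove.mp hp
    obtain ⟨A, B, hAB⟩ := hrep p hpr hN1 hs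
    exact fibres_of_rep hn0 hpr (by omega) (by omega) hAB hpN
  constructor
  · rw [Finset.card_eq_sum_card_fiberwise (f := fun g => absNorm (Ideal.span {g}))
      (t := splitAbove n N₁ N) fun g hg => ?_,
      Finset.sum_congr rfl fun p hp => (show _ = 2 * Fintype.card (𝓞 (QuadIm n))ˣ by
        rw [Finset.filter_filter, Finset.filter_congr fun g _ => and_iff_right_of_imp
          fun e => e ▸ (mem_splitAbove.mp hp).2.1]
        exact (hfib p hp).1), Finset.sum_const, smul_eq_mul, mul_comm]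
    obtain ⟨hg1, hg2⟩ := Finset.mem_filter.mp (Finset.mem_coe.mp hg)
    obtain ⟨hgN, hgp⟩ := mem_primeElts.mp hg1
    exact Finset.mem_coe.mpr (mem_splitAbove.mpr ⟨hgN, hg2, hgp,
      isSquare_of_absNorm (v := spanPrime hgp) hgp rfl⟩)
  · rw [Finset.card_eq_sum_card_fiberwise (f := fun v => absNorm v.asIdeal)
      (t := splitAbove n N₁ N) fun v hv => ?_,
      Finset.sum_congr rfl fun p hp => (show _ = 2 by
        rw [Finset.filter_filter, Finset.filter_congr fun v _ => and_iff_right_of_imp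
          fun e => e ▸ ⟨(mem_splitAbove.mp hp).2.2.1, (mem_splitAbove.mp hp).2.1⟩]
        exact (hfib p hp).2), Finset.sum_const, smul_eq_mul, mul_comm]
    obtain ⟨hv1, hvp, hv2⟩ := Finset.mem_filter.mp (Finset.mem_coe.mp hv)
    exact Finset.mem_coe.mpr (mem_splitAbove.mpr ⟨mem_primesLE.mp hv1, hv2, hvp,
      isSquare_of_absNorm hvp rfl⟩)

theorem abs_card_sub_le {α : Type*} {S T U : Finset α} (h : T ⊆ S) (hU : S \ T ⊆ U) :
    |(S.card : ℝ) - T.card| ≤ U.card := by
  rw [← Nat.cast_sub (Finset.card_le_card h), Nat.abs_cast, Nat.cast_le,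
    ← Finset.card_sdiff_of_subset h]
  exact Finset.card_le_card hU

/-- **The split primes have density one half.** -/
theorem tendsto_card_splitAbove (hn : 0 < n) {N₁ : ℕ} (hR : HasReps n N₁) :
    Tendsto (fun N : ℕ => Real.log N / N * ((splitAbove n N₁ N).card : ℝ)) atTop
      (𝓝 (1 / 2)) := by
  have hP : HasMean (fun v : HeightOneSpectrum (𝓞 (QuadIm n)) =>
      if (absNorm v.asIdeal).Prime ∧ N₁ < absNorm v.asIdeal then (1 : ℝ) else 0) 1 :=
    hasMean_congr {v | absNorm v.asIdeal ≤ N₁}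
      ((primesLE (QuadIm n) N₁).finite_toSet.subset fun v hv => mem_primesLE.mpr hv) (B := 1)
      (fun v => by split_ifs <;> simp)
      (fun v hv hp => if_pos ⟨hp, not_le.mp hv⟩) (hasMean_one _)
  have h := (hP.comp tendsto_natCast_atTop_atTop).div_const 2
  refine h.congr fun N => ?_
  rw [Function.comp_apply, wSum, Nat.floor_natCast, smul_eq_mul, Finset.sum_boole,
    (card_above hn hR N).2]
  push_cast
  ring

variable {N₁ : ℕ} {a : ℕ → ℝ} {V : ℤ → ℤ → ℂ} {M : ℕ}

/-- **The arcsine law.** -/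
theorem tendsto_law (hn : 0 < n) (hsf : Squarefree n) (hR : HasReps n N₁) (hM : M ≠ 0)
    (hV : ∀ A B A' B' : ℤ, V (A + M * A') (B + M * B') = V A B)
    (hlaw : ∀ p : ℕ, p.Prime → N₁ < p → ∀ A B : ℤ, A ^ 2 + (n : ℤ) * B ^ 2 = 4 * p →
      ‖V A B‖ = 1 ∧ a p = (V A B * (A + B * rootNeg n)).re)
    {t : ℝ} (ht : -1 ≤ t) (ht' : t ≤ 1) :
    Tendsto (fun N : ℕ => (((splitAbove n N₁ N).filter fun p => a p ≤ 2 * t * Real.sqrt p).card :
      ℝ) / (splitAbove n N₁ N).card) atTop (𝓝 (1 - Real.arccos t / Real.pi)) := by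
  obtain ⟨W, hWdef⟩ : ∃ W : 𝓞 (QuadIm n) → ℂ, W = fun g => V (coord g).1 (coord g).2 := ⟨_, rfl⟩
  have hWper : ∀ g x : 𝓞 (QuadIm n), W (g + (M : 𝓞 (QuadIm n)) * x) = W g := fun g x => by
    simp only [hWdef, coord_add_mul hn hsf, hV]
  obtain ⟨z, hz⟩ : ∃ z : 𝓞 (QuadIm n) → ℂ, z = fun g => W g * dir (emb n g) := ⟨_, rfl⟩
  obtain ⟨E, hE⟩ : ∃ E : ℕ → Finset (𝓞 (QuadIm n)), E = fun N =>
      (primeElts (K := QuadIm n) N).filter fun g => N₁ < absNorm (Ideal.span {g}) := ⟨_, rfl⟩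
  have hmemE : ∀ {N g}, g ∈ E N → (absNorm (Ideal.span {g})).Prime ∧
      N₁ < absNorm (Ideal.span {g}) ∧ absNorm (Ideal.span {g}) ≤ N := fun {N g} hg => by
    rw [hE, Finset.mem_filter] at hg
    exact ⟨(mem_primeElts.mp hg.1).2, hg.2, (mem_primeElts.mp hg.1).1⟩
  have hlaw' : ∀ {N g}, g ∈ E N → ‖z g‖ = 1 ∧ a (absNorm (Ideal.span {g})) =
      2 * Real.sqrt (absNorm (Ideal.span {g})) * (z g).re := fun {N g} hg => by
    obtain ⟨hp, hN, -⟩ := hmemE hg
    obtain ⟨h1, h2⟩ := hlaw _ hp hN _ _ (norm_rep (coord_spec hn hsf g))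
    have h0 := map_ne_zero' (emb n) (ne_zero_of_prime_norm hp)
    refine ⟨by rw [hz, norm_mul, norm_dir h0, mul_one, hWdef]; exact h1, ?_⟩
    rw [h2, ← coord_spec hn hsf, ← sq_norm (emb n), Real.sqrt_sq (norm_nonneg _),
      mul_assoc (2 : ℝ), ← Complex.re_ofReal_mul, ← Complex.re_ofReal_mul]
    congr 1
    simp only [hz, hWdef, dir]
    have : ((‖emb n g‖ : ℝ) : ℂ) ≠ 0 := Complex.ofReal_ne_zero.mpr (norm_ne_zero_iff.mpr h0)
    field_simp
    push_cast
    ring
  obtain ⟨w, hw⟩ : ∃ w : ℝ, w = (Fintype.card (𝓞 (QuadIm n))ˣ : ℝ) := ⟨_, rfl⟩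
  have hw0 : 0 < w := hw ▸ Nat.cast_pos.mpr Fintype.card_pos
  have hcardE : ∀ N, ((E N).card : ℝ) = 2 * w * (splitAbove n N₁ N).card := fun N => by
    rw [hE, hw, (card_above hn hR N).1]; push_cast; ring
  have hlimE : Tendsto (fun N : ℕ => Real.log N / N * ((E N).card : ℝ)) atTop (𝓝 w) := by
    have h := (tendsto_card_splitAbove hn hR).const_mul (2 * w)
    rw [show 2 * w * (1 / 2) = w by ring] at h
    exact h.congr fun N => by rw [hcardE]; ring
  -- a numbering
  obtain ⟨code, hcode⟩ : ∃ code : 𝓞 (QuadIm n) ↪ ℕ, True :=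
    ⟨⟨fun g => Encodable.encode (coord g), fun g g' e => by
      have e' : coord g = coord g' := Encodable.encode_injective e
      refine RingOfIntegers.coe_injective ((emb n).injective (mul_left_cancel₀ two_ne_zero ?_))
      rw [coord_spec hn hsf, coord_spec hn hsf, e']⟩, trivial⟩
  obtain ⟨dec, hdec⟩ : ∃ dec : ℕ → 𝓞 (QuadIm n), ∀ g, dec (code g) = g :=
    ⟨Function.invFun code, Function.leftInverse_invFun code.injective⟩
  have hmean : ExpMeanZero (fun N => (E N).map code)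
      fun m => Complex.arg (z (dec m)) / (2 * Real.pi) := by
    intro h hh
    have hb : Tendsto (fun N : ℕ => ((Real.log N / N : ℝ) : ℂ) * ∑ g ∈ E N, z g ^ h) atTop
        (𝓝 0) := by
      refine tendsto_of_bounded_sub (C := ∑ g ∈ primeElts (K := QuadIm n) N₁, ‖z g ^ h‖)
        (G := fun N => ∑ g ∈ primeElts (K := QuadIm n) N, z g ^ h) (fun N => ?_)
        (hz ▸ tendsto_sum_weight (emb n) hM hWper hh)
      rw [hE, norm_sub_rev, ← Finset.sum_filter_add_sum_filter_not (primeElts (K := QuadIm n) N)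
        (fun g => N₁ < absNorm (Ideal.span {g})), add_sub_cancel_left]
      refine (norm_sum_le _ _).trans (Finset.sum_le_sum_of_subset_of_nonneg (fun g hg => ?_)
        fun _ _ _ => norm_nonneg _)
      obtain ⟨hg1, hg2⟩ := Finset.mem_filter.mp hg
      exact mem_primeElts.mpr ⟨not_lt.mp hg2, (mem_primeElts.mp hg1).2⟩
    have hd : Tendsto (fun N : ℕ => ((Real.log N / N * (E N).card : ℝ) : ℂ)) atTop (𝓝 (w : ℂ)) :=
      (Complex.continuous_ofReal.tendsto _).comp hlimE
    have hq := hb.div hd (Complex.ofReal_ne_zero.mpr hw0.ne')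
    rw [zero_div] at hq
    refine hq.congr' ?_
    filter_upwards [eventually_gt_atTop 1] with N hN
    have hl : (0 : ℝ) < Real.log N / N :=
      div_pos (Real.log_pos (by exact_mod_cast hN)) (by exact_mod_cast (zero_lt_one.trans hN))
    simp only [Pi.div_apply, avg, Finset.sum_map, Finset.card_map, hdec, Complex.ofReal_mul]
    rw [mul_div_mul_left _ _ (Complex.ofReal_ne_zero.mpr hl.ne'), Complex.ofReal_natCast]
    congr 1
    refine Finset.sum_congr rfl fun g hg => ?_
    obtain ⟨h1, -⟩ := hlaw' hg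
    have e := Complex.norm_mul_exp_arg_mul_I (z g)
    rw [h1, Complex.ofReal_one, one_mul] at e
    conv_lhs => rw [← e]
    rw [← Complex.exp_int_mul, eAdd]
    congr 1
    push_cast
    field_simp
  have hS : Tendsto (fun N => ((E N).map code).card) atTop atTop := by
    simp only [Finset.card_map]
    refine tendsto_atTop.mpr fun b => ?_
    filter_upwards [hlimE.eventually (lt_mem_nhds (half_lt_self hw0)),
      (tendsto_log_mul_const (b : ℝ)).eventually (gt_mem_nhds (half_pos hw0))] with N h1 h2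
    by_contra hlt
    have h3 : ((E N).card : ℝ) ≤ b := by exact_mod_cast (not_le.mp hlt).le
    have h4 := mul_le_mul_of_nonneg_left h3
      (div_nonneg (Real.log_natCast_nonneg N) (Nat.cast_nonneg (α := ℝ) N))
    linarith
  refine (tendsto_count_cos (hmean.intervalMean hS) ht ht').congr fun N => ?_
  rw [Finset.filter_map, Finset.card_map, Finset.card_map, hcardE]
  have hfilter : ((E N).filter ((fun m => Real.cos (2 * Real.pi *
      (Complex.arg (z (dec m)) / (2 * Real.pi))) ≤ t) ∘ code)).card =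
      2 * Fintype.card (𝓞 (QuadIm n))ˣ *
        ((splitAbove n N₁ N).filter fun p => a p ≤ 2 * t * Real.sqrt p).card := by
    rw [Finset.card_eq_sum_card_fiberwise (f := fun g => absNorm (Ideal.span {g}))
      (t := splitAbove n N₁ N) fun g hg => ?_, Finset.card_filter, Finset.mul_sum]
    · refine Finset.sum_congr rfl fun p hp => ?_
      obtain ⟨hpN, hN1, hpr, hs⟩ := mem_splitAbove.mp hp
      obtain ⟨A, B, hAB⟩ := hR.2.2 p hpr hN1 hs
      have hc := (fibres_of_rep hn hpr (hR.1.trans_lt hN1) (hR.2.1.trans_lt hN1) hAB hpN).1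
      have key : ∀ g ∈ E N, absNorm (Ideal.span {g}) = p →
          (Real.cos (2 * Real.pi * (Complex.arg (z g) / (2 * Real.pi))) ≤ t ↔
            a p ≤ 2 * t * Real.sqrt p) := fun g hg e => by
        obtain ⟨h1, h2⟩ := hlaw' hg
        rw [← e, h2, mul_div_cancel₀ _ (by positivity), Complex.cos_arg (fun h0 => by
          rw [h0, norm_zero] at h1; exact zero_ne_one h1), h1, div_one, mul_right_comm 2 t,
          mul_le_mul_iff_right₀ (mul_pos two_pos (Real.sqrt_pos.mpr
            (Nat.cast_pos.mpr (e ▸ hpr.pos))))]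
      rw [Finset.filter_filter]
      by_cases hq : a p ≤ 2 * t * Real.sqrt p
      · rw [if_pos hq, mul_one, ← hc]
        refine congrArg Finset.card ?_
        ext g
        simp only [Finset.mem_filter, Function.comp_apply, hdec]
        refine ⟨fun h => ⟨by rw [hE] at h; exact (Finset.mem_filter.mp h.1).1, h.2.2⟩,
          fun h => ?_⟩
        have hgE : g ∈ E N := by
          rw [hE]; exact Finset.mem_filter.mpr ⟨h.1, by rw [h.2]; exact hN1⟩
        exact ⟨hgE, (key g hgE h.2).mpr hq, h.2⟩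
      · rw [if_neg hq, mul_zero, Finset.card_eq_zero, Finset.filter_eq_empty_iff]
        rintro g hg ⟨h1, h2⟩
        simp only [Function.comp_apply, hdec] at h1
        exact hq ((key g hg h2).mp h1)
    · obtain ⟨hg1, -⟩ := Finset.mem_filter.mp (Finset.mem_coe.mp hg)
      obtain ⟨hp, hN1, hpN⟩ := hmemE hg1
      exact Finset.mem_coe.mpr (mem_splitAbove.mpr ⟨hpN, hN1, hp,
        isSquare_of_absNorm (v := spanPrime hp) hp rfl⟩)
  rw [hfilter, hw]
  push_cast
  rw [mul_div_mul_left _ _ (by positivity)]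

end FA.ImagQuad

end
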